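import Mathlib
import Fermat.Prelude.Def_ModularCurve_HeckeModule
import Fermat.Agent.S37.Top

/-!
# S37, leaf (K1): divisor-level form of the subgroups `W0`, `WΦ` of `Top.lean`

`Top.lean` reduces `SpecializationExists` for `J = JZero N = Pic⁰(F_N)` over `ℚ̄` to the KEY
statement: a `p`-power torsion class lying in the subgroup `WΦ` (generated by the inertia
differences `σ • x - x` and the Eichler–Shimura expressions `Φ•Φ•x - T_ℓ•(Φ•x) + ℓ•x`) vanishes.
This file translates membership in `W0`/`WΦ` into a statement about DIVISORS: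

* `psiDiv Φ D = Φ•(Φ•D) - heckeDivBar (Φ•D) + ℓ•D` on `Divisor ℚ̄ F_N`;
* `WDiv A Φ` / `W0Div A`: the subgroups of `Divisor ℚ̄ F_N` generated by
  `σ • [P] - [P]` (`σ` in the inertia group of `A`) and `psiDiv Φ [P]`;
* every class of `WΦ` (resp. `W0`) is `Pic0.mk E` with `E ∈ WDiv A Φ` (resp. `W0Div A`) of degree
  zero; hence every representative differs from an element of `WDiv` by a principal divisor;
* torsion unpacking `m • Pic0.mk D = 0 ↔ ∃ f ≠ 0, ∀ P, m * D P = P.ord f`;
* the KEY hypotheses of `Top.exists_specialization` follow from the divisor-level statement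
  "`E ∈ WDiv`, `m E` principal with `m = p ^ n` ⟹ `E` principal".
-/

set_option autoImplicit false

noncomputable section

open AlgebraicCurve ModularCurve

namespace Fermat.Agent.S37.Key.DivisorForm

local notation "Kb" => AlgebraicClosure ℚ
local notation "GalQ" => (AlgebraicClosure ℚ ≃ₐ[ℚ] AlgebraicClosure ℚ)

/-! ## Generic facts on `Pic0.mk` -/

section Generic

variable {K F : Type*} [Field K] [Field F] [Algebra K F]

/-- `Pic0.mk` as an additive homomorphism. -/
def mkHom : Divisor.degZero (K := K) (F := F) →+ Pic0 K F :=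
  QuotientAddGroup.mk' _

@[simp] theorem mkHom_apply (D : Divisor.degZero (K := K) (F := F)) : mkHom D = Pic0.mk D := rfl

theorem mk_neg (D : Divisor.degZero (K := K) (F := F)) : Pic0.mk (-D) = -Pic0.mk D := rfl

theorem mk_sub (D E : Divisor.degZero (K := K) (F := F)) :
    Pic0.mk (D - E) = Pic0.mk D - Pic0.mk E := rfl

theorem mk_nsmul (n : ℕ) (D : Divisor.degZero (K := K) (F := F)) :
    Pic0.mk (n • D) = n • Pic0.mk D := map_nsmul mkHom n D

theorem mk_zsmul (n : ℤ) (D : Divisor.degZero (K := K) (F := F)) :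
    Pic0.mk (n • D) = n • Pic0.mk D := map_zsmul mkHom n D

/-- A class vanishes iff the divisor is principal. -/
theorem mk_eq_zero_iff (D : Divisor.degZero (K := K) (F := F)) :
    Pic0.mk D = 0 ↔ ∃ f : F, f ≠ 0 ∧ ∀ P : Place K F, (D : Divisor K F) P = P.ord f := by
  unfold Pic0.mk
  rw [QuotientAddGroup.eq_zero_iff, AddSubgroup.mem_addSubgroupOf]
  rfl

/-- Two degree-zero divisors have the same class iff they differ by a principal divisor. -/
theorem mk_eq_mk_iff (D E : Divisor.degZero (K := K) (F := F)) :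
    Pic0.mk D = Pic0.mk E ↔
      ∃ f : F, f ≠ 0 ∧ ∀ P : Place K F, (D : Divisor K F) P = (E : Divisor K F) P + P.ord f := by
  rw [← sub_eq_zero, ← mk_sub, mk_eq_zero_iff]
  refine exists_congr fun f => and_congr_right fun _ => forall_congr' fun P => ?_
  rw [AddSubgroup.coe_sub, Finsupp.sub_apply, sub_eq_iff_eq_add']

/-- **Torsion unpacking**, integer multiples. -/
theorem zsmul_mk_eq_zero_iff (m : ℤ) (D : Divisor.degZero (K := K) (F := F)) :
    m • Pic0.mk D = 0 ↔
      ∃ f : F, f ≠ 0 ∧ ∀ P : Place K F, m * (D : Divisor K F) P = P.ord f := by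
  rw [← mk_zsmul, mk_eq_zero_iff]
  refine exists_congr fun f => and_congr_right fun _ => forall_congr' fun P => ?_
  rw [AddSubgroup.coe_zsmul, Finsupp.smul_apply, smul_eq_mul]

/-- **Torsion unpacking**, natural multiples. -/
theorem nsmul_mk_eq_zero_iff (m : ℕ) (D : Divisor.degZero (K := K) (F := F)) :
    m • Pic0.mk D = 0 ↔
      ∃ f : F, f ≠ 0 ∧ ∀ P : Place K F, (m : ℤ) * (D : Divisor K F) P = P.ord f := by
  rw [← zsmul_mk_eq_zero_iff, natCast_zsmul]

/-- An additive map out of a free abelian group `ι →₀ ℤ` lands in a subgroup as soon as the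
images of the basis vectors do. -/
theorem map_mem_of_single {ι G : Type*} [AddCommGroup G] (f : (ι →₀ ℤ) →+ G)
    (W : AddSubgroup G) (h : ∀ i, f (Finsupp.single i 1) ∈ W) (D : ι →₀ ℤ) : f D ∈ W := by
  induction D using Finsupp.induction_linear with
  | zero => rw [map_zero]; exact W.zero_mem
  | add a b ha hb => rw [map_add]; exact W.add_mem ha hb
  | single i n =>
    have h1 : Finsupp.single i n = n • Finsupp.single i (1 : ℤ) := by
      rw [Finsupp.smul_single, smul_eq_mul, mul_one]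
    rw [h1, map_zsmul]
    exact W.zsmul_mem (h i) n

end Generic

/-! ## The modular setting -/

section Modular

variable {N : ℕ}

/-- The Galois action on divisors of `F_N` over `ℚ̄`, as an additive homomorphism. -/
def galDiv (N : ℕ) (σ : GalQ) :
    Divisor Kb (modularFunctionFieldBar N) →+ Divisor Kb (modularFunctionFieldBar N) :=
  DistribSMul.toAddMonoidHom _ (arithmeticGalois (modularFunctionFieldFull N) σ)

@[simp] theorem galDiv_apply (σ : GalQ) (D : Divisor Kb (modularFunctionFieldBar N)) :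
    galDiv N σ D = arithmeticGalois (modularFunctionFieldFull N) σ • D := rfl

/-- The Galois action on `JZero N` is induced from the action on degree-zero divisors. -/
theorem galois_smul_mk (σ : GalQ)
    (D : Divisor.degZero (K := Kb) (F := modularFunctionFieldBar N)) :
    σ • (Pic0.mk D : JZero N) =
      Pic0.mk (SemilinearAut.degZeroSMulHom (arithmeticGalois (modularFunctionFieldFull N) σ) D) :=
  rfl

section Hecke

variable [NeZero N] {ℓ : ℕ} [NeZero ℓ]
variable (hα : HeckeAlphaBarIntegral Kb N ℓ) (hβ : HeckeBetaBarIntegral Kb N ℓ)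
variable [HasPrincipalDivisors Kb (modularFunctionFieldBar (N * ℓ))]

/-- The Hecke operator `T_ℓ` on `JZero N` is induced from the correspondence `α_* β^*` on
degree-zero divisors. -/
theorem heckeGen_smul_mk (hcomm : HeckeOperatorsCommuteBar N) (hℓ : ℓ.Prime)
    (hFI : FundamentalIdentityAlong Kb (heckeBetaBar Kb N ℓ) hβ)
    (hfin : FiniteAlong Kb (heckeAlphaBar Kb N ℓ))
    (hN : NormFormulaAlong Kb (heckeAlphaBar Kb N ℓ) hfin)
    (D : Divisor.degZero (K := Kb) (F := modularFunctionFieldBar N)) :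
    (letI := heckeModuleBar N; heckeGen ⟨ℓ, hℓ⟩ • (Pic0.mk D : JZero N)) =
      Pic0.mk (Pic0.degZeroCorrespondence (heckeBetaBar Kb N ℓ) (heckeAlphaBar Kb N ℓ)
        hβ hα hFI D) := by
  refine (heckeModuleBar_heckeGen_smul hcomm ⟨ℓ, hℓ⟩ (Pic0.mk D)).trans ?_
  have h := heckeOperatorAlong_eq hα hβ hFI hfin hN
  show heckeOperatorAlong Kb N ℓ (Pic0.mk D) = _
  rw [h]
  rfl

/-- The divisor-level Eichler–Shimura operator `D ↦ Φ•(Φ•D) - T_ℓ(Φ•D) + ℓ•D`. -/
def psiDiv (Φ : GalQ) :
    Divisor Kb (modularFunctionFieldBar N) →+ Divisor Kb (modularFunctionFieldBar N) :=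
  (galDiv N Φ).comp (galDiv N Φ) - (heckeDivBar hα hβ).comp (galDiv N Φ) + nsmulAddMonoidHom ℓ

theorem psiDiv_apply (Φ : GalQ) (D : Divisor Kb (modularFunctionFieldBar N)) :
    psiDiv hα hβ Φ D =
      arithmeticGalois (modularFunctionFieldFull N) Φ •
          (arithmeticGalois (modularFunctionFieldFull N) Φ • D)
        - heckeDivBar hα hβ (arithmeticGalois (modularFunctionFieldFull N) Φ • D) + ℓ • D :=
  rfl

theorem psiDiv_single (Φ : GalQ) (P : Place Kb (modularFunctionFieldBar N)) :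
    psiDiv hα hβ Φ (Finsupp.single P 1) =
      Finsupp.single (arithmeticGalois (modularFunctionFieldFull N) Φ •
          (arithmeticGalois (modularFunctionFieldFull N) Φ • P)) 1
        - heckeDivBar hα hβ
            (Finsupp.single (arithmeticGalois (modularFunctionFieldFull N) Φ • P) 1)
        + Finsupp.single P (ℓ : ℤ) := by
  have h1 : (ℓ • Finsupp.single P (1 : ℤ) : Divisor Kb (modularFunctionFieldBar N)) =
      Finsupp.single P (ℓ : ℤ) := by
    rw [← natCast_zsmul, Finsupp.smul_single, smul_eq_mul, mul_one]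
  rw [psiDiv_apply, SemilinearAut.smul_single, SemilinearAut.smul_single, h1]

theorem degree_psiDiv (hFI : FundamentalIdentityAlong Kb (heckeBetaBar Kb N ℓ) hβ) (Φ : GalQ)
    (D : Divisor Kb (modularFunctionFieldBar N)) :
    Divisor.degree (psiDiv hα hβ Φ D) =
      Divisor.degree D - (finrankAlong Kb (heckeBetaBar Kb N ℓ) : ℤ) * Divisor.degree D
        + (ℓ : ℤ) * Divisor.degree D := by
  have h1 : ∀ E : Divisor Kb (modularFunctionFieldBar N),
      Divisor.degree (heckeDivBar hα hβ E) =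
        (finrankAlong Kb (heckeBetaBar Kb N ℓ) : ℤ) * Divisor.degree E := fun E =>
    Divisor.degree_correspondence _ _ hβ hα hFI E
  rw [psiDiv_apply, map_add, map_sub, h1, SemilinearAut.degree_smul, SemilinearAut.degree_smul,
    map_nsmul, nsmul_eq_mul]

theorem psiDiv_mem_degZero (hFI : FundamentalIdentityAlong Kb (heckeBetaBar Kb N ℓ) hβ)
    (Φ : GalQ) {D : Divisor Kb (modularFunctionFieldBar N)}
    (hD : D ∈ Divisor.degZero (K := Kb) (F := modularFunctionFieldBar N)) :
    psiDiv hα hβ Φ D ∈ Divisor.degZero (K := Kb) (F := modularFunctionFieldBar N) := by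
  rw [Divisor.mem_degZero] at hD ⊢
  rw [degree_psiDiv hα hβ hFI, hD]
  ring

/-- `psiDiv` restricted to degree-zero divisors. -/
def psiDegZero (hFI : FundamentalIdentityAlong Kb (heckeBetaBar Kb N ℓ) hβ) (Φ : GalQ) :
    Divisor.degZero (K := Kb) (F := modularFunctionFieldBar N) →+
      Divisor.degZero (K := Kb) (F := modularFunctionFieldBar N) :=
  ((psiDiv hα hβ Φ).domRestrict
    (Divisor.degZero (K := Kb) (F := modularFunctionFieldBar N))).codRestrict _
    (fun D => psiDiv_mem_degZero hα hβ hFI Φ D.2)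

@[simp] theorem coe_psiDegZero (hFI : FundamentalIdentityAlong Kb (heckeBetaBar Kb N ℓ) hβ)
    (Φ : GalQ) (D : Divisor.degZero (K := Kb) (F := modularFunctionFieldBar N)) :
    (psiDegZero hα hβ hFI Φ D : Divisor Kb (modularFunctionFieldBar N)) =
      psiDiv hα hβ Φ (D : Divisor Kb (modularFunctionFieldBar N)) := rfl

/-- The Eichler–Shimura expression of `Top.lean` on a class `Pic0.mk D` is the class of
`psiDiv Φ D`. -/
theorem esExpr_mk (hcomm : HeckeOperatorsCommuteBar N) (hℓ : ℓ.Prime)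
    (hFI : FundamentalIdentityAlong Kb (heckeBetaBar Kb N ℓ) hβ)
    (hfin : FiniteAlong Kb (heckeAlphaBar Kb N ℓ))
    (hN : NormFormulaAlong Kb (heckeAlphaBar Kb N ℓ) hfin) (Φ : GalQ)
    (D : Divisor.degZero (K := Kb) (F := modularFunctionFieldBar N)) :
    (letI := heckeModuleBar N; Top.esExpr (K := ℚ) ℓ hℓ Φ (Pic0.mk D : JZero N)) =
      Pic0.mk (psiDegZero hα hβ hFI Φ D) := by
  let _ := heckeModuleBar N
  unfold Top.esExpr
  rw [galois_smul_mk, galois_smul_mk, heckeGen_smul_mk hα hβ hcomm hℓ hFI hfin hN, ← mk_nsmul,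
    ← mk_sub, ← Pic0.mk_add]
  rfl

/-- The divisor-level form of `Top.WΦ`: the subgroup of `Divisor ℚ̄ F_N` generated by the
inertia differences `σ • [P] - [P]` and the Eichler–Shimura divisors `psiDiv Φ [P]`. -/
def WDiv (A : ValuationSubring Kb) (Φ : GalQ) :
    AddSubgroup (Divisor Kb (modularFunctionFieldBar N)) :=
  AddSubgroup.closure
    ({E | ∃ σ ∈ A.inertiaSubgroupIn ℚ, ∃ P : Place Kb (modularFunctionFieldBar N),
        E = arithmeticGalois (modularFunctionFieldFull N) σ • Finsupp.single P (1 : ℤ)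
          - Finsupp.single P (1 : ℤ)} ∪
      {E | ∃ P : Place Kb (modularFunctionFieldBar N),
        E = psiDiv hα hβ Φ (Finsupp.single P (1 : ℤ))})

theorem inertia_single_mem_WDiv (A : ValuationSubring Kb) (Φ : GalQ) {σ : GalQ}
    (hσ : σ ∈ A.inertiaSubgroupIn ℚ) (P : Place Kb (modularFunctionFieldBar N)) :
    arithmeticGalois (modularFunctionFieldFull N) σ • Finsupp.single P (1 : ℤ)
      - Finsupp.single P (1 : ℤ) ∈ WDiv hα hβ A Φ :=
  AddSubgroup.subset_closure (Or.inl ⟨σ, hσ, P, rfl⟩)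

theorem psiDiv_single_mem_WDiv (A : ValuationSubring Kb) (Φ : GalQ)
    (P : Place Kb (modularFunctionFieldBar N)) :
    psiDiv hα hβ Φ (Finsupp.single P (1 : ℤ)) ∈ WDiv hα hβ A Φ :=
  AddSubgroup.subset_closure (Or.inr ⟨P, rfl⟩)

/-- Induction principle for `WDiv`. -/
theorem WDiv_induction (A : ValuationSubring Kb) (Φ : GalQ)
    {motive : Divisor Kb (modularFunctionFieldBar N) → Prop}
    (inertia : ∀ σ ∈ A.inertiaSubgroupIn ℚ, ∀ P : Place Kb (modularFunctionFieldBar N),
      motive (arithmeticGalois (modularFunctionFieldFull N) σ • Finsupp.single P (1 : ℤ)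
        - Finsupp.single P (1 : ℤ)))
    (es : ∀ P : Place Kb (modularFunctionFieldBar N),
      motive (psiDiv hα hβ Φ (Finsupp.single P (1 : ℤ))))
    (zero : motive 0) (add : ∀ E₁ E₂, motive E₁ → motive E₂ → motive (E₁ + E₂))
    (neg : ∀ E, motive E → motive (-E))
    {E : Divisor Kb (modularFunctionFieldBar N)} (hE : E ∈ WDiv hα hβ A Φ) : motive E := by
  induction hE using AddSubgroup.closure_induction with
  | mem y hy =>
    rcases hy with ⟨σ, hσ, P, rfl⟩ | ⟨P, rfl⟩
    · exact inertia σ hσ P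
    · exact es P
  | zero => exact zero
  | add y z _ _ hy hz => exact add y z hy hz
  | neg y _ hy => exact neg y hy

/-- `σ • D - D ∈ WDiv` for every divisor `D` and every inertia element `σ`. -/
theorem inertia_sub_mem_WDiv (A : ValuationSubring Kb) (Φ : GalQ) {σ : GalQ}
    (hσ : σ ∈ A.inertiaSubgroupIn ℚ) (D : Divisor Kb (modularFunctionFieldBar N)) :
    arithmeticGalois (modularFunctionFieldFull N) σ • D - D ∈ WDiv hα hβ A Φ :=
  map_mem_of_single (galDiv N σ - AddMonoidHom.id _) (WDiv hα hβ A Φ)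
    (fun P => inertia_single_mem_WDiv hα hβ A Φ hσ P) D

/-- `psiDiv Φ D ∈ WDiv` for every divisor `D`. -/
theorem psiDiv_mem_WDiv (A : ValuationSubring Kb) (Φ : GalQ)
    (D : Divisor Kb (modularFunctionFieldBar N)) :
    psiDiv hα hβ Φ D ∈ WDiv hα hβ A Φ :=
  map_mem_of_single (psiDiv hα hβ Φ) (WDiv hα hβ A Φ)
    (fun P => psiDiv_single_mem_WDiv hα hβ A Φ P) D

/-- **Divisor form of `WΦ`, strong version.** Every class of `Top.WΦ` is the class of a
degree-zero divisor lying in `WDiv`. -/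
theorem exists_mem_WDiv_of_mem_WΦ (hcomm : HeckeOperatorsCommuteBar N) (hℓ : ℓ.Prime)
    (hFI : FundamentalIdentityAlong Kb (heckeBetaBar Kb N ℓ) hβ)
    (hfin : FiniteAlong Kb (heckeAlphaBar Kb N ℓ))
    (hN : NormFormulaAlong Kb (heckeAlphaBar Kb N ℓ) hfin)
    (A : ValuationSubring Kb) (Φ : GalQ) (x : JZero N)
    (hx : letI := heckeModuleBar N; x ∈ Top.WΦ (K := ℚ) (J := JZero N) A ℓ hℓ Φ) :
    ∃ E : Divisor.degZero (K := Kb) (F := modularFunctionFieldBar N),
      (E : Divisor Kb (modularFunctionFieldBar N)) ∈ WDiv hα hβ A Φ ∧ Pic0.mk E = x := by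
  let _ := heckeModuleBar N
  induction hx using AddSubgroup.closure_induction with
  | mem y hy =>
    rcases hy with ⟨σ, hσ, x', rfl⟩ | ⟨x', rfl⟩
    · obtain ⟨D, rfl⟩ := Pic0.mk_surjective x'
      refine ⟨SemilinearAut.degZeroSMulHom (arithmeticGalois (modularFunctionFieldFull N) σ) D
        - D, ?_, ?_⟩
      · rw [AddSubgroup.coe_sub, SemilinearAut.coe_degZeroSMulHom]
        exact inertia_sub_mem_WDiv hα hβ A Φ hσ _
      · rw [mk_sub, ← galois_smul_mk]
    · obtain ⟨D, rfl⟩ := Pic0.mk_surjective x'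
      refine ⟨psiDegZero hα hβ hFI Φ D, ?_, ?_⟩
      · rw [coe_psiDegZero]
        exact psiDiv_mem_WDiv hα hβ A Φ _
      · exact (esExpr_mk hα hβ hcomm hℓ hFI hfin hN Φ D).symm
  | zero => exact ⟨0, AddSubgroup.zero_mem _, Pic0.mk_zero⟩
  | add y z _ _ hy hz =>
    obtain ⟨E₁, h₁, rfl⟩ := hy
    obtain ⟨E₂, h₂, rfl⟩ := hz
    exact ⟨E₁ + E₂, by rw [AddSubgroup.coe_add]; exact AddSubgroup.add_mem _ h₁ h₂,
      Pic0.mk_add _ _⟩
  | neg y _ hy =>
    obtain ⟨E, h, rfl⟩ := hy
    exact ⟨-E, by rw [AddSubgroup.coe_neg]; exact AddSubgroup.neg_mem _ h, mk_neg _⟩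

/-- **Divisor form of `WΦ`** (the statement of the blueprint): every class of `Top.WΦ` is the
class of a degree-zero divisor `D = E + div h` with `E ∈ WDiv`. -/
theorem exists_divisor_of_mem_WΦ (hcomm : HeckeOperatorsCommuteBar N) (hℓ : ℓ.Prime)
    (hFI : FundamentalIdentityAlong Kb (heckeBetaBar Kb N ℓ) hβ)
    (hfin : FiniteAlong Kb (heckeAlphaBar Kb N ℓ))
    (hN : NormFormulaAlong Kb (heckeAlphaBar Kb N ℓ) hfin)
    (A : ValuationSubring Kb) (Φ : GalQ) (x : JZero N)
    (hx : letI := heckeModuleBar N; x ∈ Top.WΦ (K := ℚ) (J := JZero N) A ℓ hℓ Φ) :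
    ∃ D : Divisor.degZero (K := Kb) (F := modularFunctionFieldBar N), Pic0.mk D = x ∧
      ∃ E ∈ WDiv hα hβ A Φ, ∃ h : modularFunctionFieldBar N, h ≠ 0 ∧
        ∀ P : Place Kb (modularFunctionFieldBar N),
          (D : Divisor Kb (modularFunctionFieldBar N)) P = E P + P.ord h := by
  obtain ⟨E, hE, rfl⟩ := exists_mem_WDiv_of_mem_WΦ hα hβ hcomm hℓ hFI hfin hN A Φ x hx
  exact ⟨E, rfl, E, hE, 1, one_ne_zero, fun P => by rw [Place.ord_one, add_zero]⟩

/-- **Divisor form of `WΦ`, for an arbitrary representative**: if the class of the degree-zero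
divisor `D` lies in `Top.WΦ` then `D = E + div h` with `E ∈ WDiv` of degree zero. -/
theorem exists_WDiv_add_principal (hcomm : HeckeOperatorsCommuteBar N) (hℓ : ℓ.Prime)
    (hFI : FundamentalIdentityAlong Kb (heckeBetaBar Kb N ℓ) hβ)
    (hfin : FiniteAlong Kb (heckeAlphaBar Kb N ℓ))
    (hN : NormFormulaAlong Kb (heckeAlphaBar Kb N ℓ) hfin)
    (A : ValuationSubring Kb) (Φ : GalQ)
    (D : Divisor.degZero (K := Kb) (F := modularFunctionFieldBar N))
    (hD : letI := heckeModuleBar N;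
      (Pic0.mk D : JZero N) ∈ Top.WΦ (K := ℚ) (J := JZero N) A ℓ hℓ Φ) :
    ∃ E ∈ WDiv hα hβ A Φ, Divisor.degree E = 0 ∧ ∃ h : modularFunctionFieldBar N, h ≠ 0 ∧
      ∀ P : Place Kb (modularFunctionFieldBar N),
        (D : Divisor Kb (modularFunctionFieldBar N)) P = E P + P.ord h := by
  obtain ⟨E, hE, hED⟩ := exists_mem_WDiv_of_mem_WΦ hα hβ hcomm hℓ hFI hfin hN A Φ _ hD
  obtain ⟨h, hh, hP⟩ := (mk_eq_mk_iff D E).mp hED.symm
  exact ⟨E, hE, Divisor.mem_degZero.mp E.2, h, hh, hP⟩

/-- **KEY for `WΦ` from its divisor form.** -/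
theorem key_WΦ_of_divisor (p : ℕ) (hcomm : HeckeOperatorsCommuteBar N) (hℓ : ℓ.Prime)
    (hFI : FundamentalIdentityAlong Kb (heckeBetaBar Kb N ℓ) hβ)
    (hfin : FiniteAlong Kb (heckeAlphaBar Kb N ℓ))
    (hN : NormFormulaAlong Kb (heckeAlphaBar Kb N ℓ) hfin)
    (A : ValuationSubring Kb) (Φ : GalQ)
    (hdiv : ∀ E ∈ WDiv hα hβ A Φ, Divisor.degree E = 0 →
      ∀ (n : ℕ) (f : modularFunctionFieldBar N), f ≠ 0 →
        (∀ P : Place Kb (modularFunctionFieldBar N), (p : ℤ) ^ n * E P = P.ord f) →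
        ∃ g : modularFunctionFieldBar N, g ≠ 0 ∧
          ∀ P : Place Kb (modularFunctionFieldBar N), E P = P.ord g)
    (x : JZero N) (htors : ∃ n : ℕ, p ^ n • x = 0)
    (hx : letI := heckeModuleBar N; x ∈ Top.WΦ (K := ℚ) (J := JZero N) A ℓ hℓ Φ) : x = 0 := by
  obtain ⟨E, hE, rfl⟩ := exists_mem_WDiv_of_mem_WΦ hα hβ hcomm hℓ hFI hfin hN A Φ x hx
  obtain ⟨n, hn⟩ := htors
  obtain ⟨f, hf, hfE⟩ := (nsmul_mk_eq_zero_iff (p ^ n) E).mp hn
  rw [mk_eq_zero_iff]
  exact hdiv E hE (Divisor.mem_degZero.mp E.2) n f hf (fun P => by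
    rw [← hfE P]; push_cast; rfl)

end Hecke

/-! ### The subgroup `W0` (no Frobenius element) -/

/-- The divisor-level form of `Top.W0`: the subgroup generated by the inertia differences
`σ • [P] - [P]`. -/
def W0Div (A : ValuationSubring Kb) : AddSubgroup (Divisor Kb (modularFunctionFieldBar N)) :=
  AddSubgroup.closure
    {E | ∃ σ ∈ A.inertiaSubgroupIn ℚ, ∃ P : Place Kb (modularFunctionFieldBar N),
        E = arithmeticGalois (modularFunctionFieldFull N) σ • Finsupp.single P (1 : ℤ)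
          - Finsupp.single P (1 : ℤ)}

theorem inertia_single_mem_W0Div (A : ValuationSubring Kb) {σ : GalQ}
    (hσ : σ ∈ A.inertiaSubgroupIn ℚ) (P : Place Kb (modularFunctionFieldBar N)) :
    arithmeticGalois (modularFunctionFieldFull N) σ • Finsupp.single P (1 : ℤ)
      - Finsupp.single P (1 : ℤ) ∈ W0Div (N := N) A :=
  AddSubgroup.subset_closure ⟨σ, hσ, P, rfl⟩

/-- Induction principle for `W0Div`. -/
theorem W0Div_induction (A : ValuationSubring Kb)
    {motive : Divisor Kb (modularFunctionFieldBar N) → Prop}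
    (inertia : ∀ σ ∈ A.inertiaSubgroupIn ℚ, ∀ P : Place Kb (modularFunctionFieldBar N),
      motive (arithmeticGalois (modularFunctionFieldFull N) σ • Finsupp.single P (1 : ℤ)
        - Finsupp.single P (1 : ℤ)))
    (zero : motive 0) (add : ∀ E₁ E₂, motive E₁ → motive E₂ → motive (E₁ + E₂))
    (neg : ∀ E, motive E → motive (-E))
    {E : Divisor Kb (modularFunctionFieldBar N)} (hE : E ∈ W0Div (N := N) A) : motive E := by
  induction hE using AddSubgroup.closure_induction with
  | mem y hy =>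
    obtain ⟨σ, hσ, P, rfl⟩ := hy
    exact inertia σ hσ P
  | zero => exact zero
  | add y z _ _ hy hz => exact add y z hy hz
  | neg y _ hy => exact neg y hy

theorem inertia_sub_mem_W0Div (A : ValuationSubring Kb) {σ : GalQ}
    (hσ : σ ∈ A.inertiaSubgroupIn ℚ) (D : Divisor Kb (modularFunctionFieldBar N)) :
    arithmeticGalois (modularFunctionFieldFull N) σ • D - D ∈ W0Div (N := N) A :=
  map_mem_of_single (galDiv N σ - AddMonoidHom.id _) (W0Div (N := N) A)
    (fun P => inertia_single_mem_W0Div A hσ P) D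

/-- **Divisor form of `W0`.** -/
theorem exists_mem_W0Div_of_mem_W0 (A : ValuationSubring Kb) (x : JZero N)
    (hx : x ∈ Top.W0 (K := ℚ) (J := JZero N) A) :
    ∃ E : Divisor.degZero (K := Kb) (F := modularFunctionFieldBar N),
      (E : Divisor Kb (modularFunctionFieldBar N)) ∈ W0Div (N := N) A ∧ Pic0.mk E = x := by
  induction hx using AddSubgroup.closure_induction with
  | mem y hy =>
    obtain ⟨σ, hσ, x', rfl⟩ := hy
    obtain ⟨D, rfl⟩ := Pic0.mk_surjective x'
    refine ⟨SemilinearAut.degZeroSMulHom (arithmeticGalois (modularFunctionFieldFull N) σ) D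
      - D, ?_, ?_⟩
    · rw [AddSubgroup.coe_sub, SemilinearAut.coe_degZeroSMulHom]
      exact inertia_sub_mem_W0Div A hσ _
    · rw [mk_sub, ← galois_smul_mk]
  | zero => exact ⟨0, AddSubgroup.zero_mem _, Pic0.mk_zero⟩
  | add y z _ _ hy hz =>
    obtain ⟨E₁, h₁, rfl⟩ := hy
    obtain ⟨E₂, h₂, rfl⟩ := hz
    exact ⟨E₁ + E₂, by rw [AddSubgroup.coe_add]; exact AddSubgroup.add_mem _ h₁ h₂,
      Pic0.mk_add _ _⟩
  | neg y _ hy =>
    obtain ⟨E, h, rfl⟩ := hy
    exact ⟨-E, by rw [AddSubgroup.coe_neg]; exact AddSubgroup.neg_mem _ h, mk_neg _⟩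

/-- **KEY for `W0` from its divisor form.** -/
theorem key_W0_of_divisor (p : ℕ) (A : ValuationSubring Kb)
    (hdiv : ∀ E ∈ W0Div (N := N) A, Divisor.degree E = 0 →
      ∀ (n : ℕ) (f : modularFunctionFieldBar N), f ≠ 0 →
        (∀ P : Place Kb (modularFunctionFieldBar N), (p : ℤ) ^ n * E P = P.ord f) →
        ∃ g : modularFunctionFieldBar N, g ≠ 0 ∧
          ∀ P : Place Kb (modularFunctionFieldBar N), E P = P.ord g)
    (x : JZero N) (htors : ∃ n : ℕ, p ^ n • x = 0)
    (hx : x ∈ Top.W0 (K := ℚ) (J := JZero N) A) : x = 0 := by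
  obtain ⟨E, hE, rfl⟩ := exists_mem_W0Div_of_mem_W0 A x hx
  obtain ⟨n, hn⟩ := htors
  obtain ⟨f, hf, hfE⟩ := (nsmul_mk_eq_zero_iff (p ^ n) E).mp hn
  rw [mk_eq_zero_iff]
  exact hdiv E hE (Divisor.mem_degZero.mp E.2) n f hf (fun P => by
    rw [← hfE P]; push_cast; rfl)

section Assembly

variable [NeZero N] {ℓ : ℕ} [NeZero ℓ]
variable (hα : HeckeAlphaBarIntegral Kb N ℓ) (hβ : HeckeBetaBarIntegral Kb N ℓ)
variable [HasPrincipalDivisors Kb (modularFunctionFieldBar (N * ℓ))]

theorem W0Div_le_WDiv (A : ValuationSubring Kb) (Φ : GalQ) :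
    W0Div (N := N) A ≤ WDiv hα hβ A Φ :=
  AddSubgroup.closure_mono Set.subset_union_left

/-- **Formal top in divisor form.** The conclusion of `SpecializationExists` at one `(ℓ, A)`
follows from the two divisor-level KEY statements: for `E` in `W0Div A` (resp. in `WDiv A Φ`,
`Φ` a Frobenius element at `A`) of degree zero, if `p ^ n • E` is principal then `E` is
principal. -/
theorem exists_specialization_of_divisor (p : ℕ) (hcomm : HeckeOperatorsCommuteBar N)
    (hℓ : ℓ.Prime)
    (hFI : FundamentalIdentityAlong Kb (heckeBetaBar Kb N ℓ) hβ)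
    (hfin : FiniteAlong Kb (heckeAlphaBar Kb N ℓ))
    (hN : NormFormulaAlong Kb (heckeAlphaBar Kb N ℓ) hfin)
    (A : ValuationSubring Kb)
    (hkey0 : ∀ E ∈ W0Div (N := N) A, Divisor.degree E = 0 →
      ∀ (n : ℕ) (f : modularFunctionFieldBar N), f ≠ 0 →
        (∀ P : Place Kb (modularFunctionFieldBar N), (p : ℤ) ^ n * E P = P.ord f) →
        ∃ g : modularFunctionFieldBar N, g ≠ 0 ∧
          ∀ P : Place Kb (modularFunctionFieldBar N), E P = P.ord g)
    (hkeyΦ : ∀ Φ : GalQ, A.IsFrobeniusAt Φ ℓ →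
      ∀ E ∈ WDiv hα hβ A Φ, Divisor.degree E = 0 →
      ∀ (n : ℕ) (f : modularFunctionFieldBar N), f ≠ 0 →
        (∀ P : Place Kb (modularFunctionFieldBar N), (p : ℤ) ^ n * E P = P.ord f) →
        ∃ g : modularFunctionFieldBar N, g ≠ 0 ∧
          ∀ P : Place Kb (modularFunctionFieldBar N), E P = P.ord g) :
    letI := heckeModuleBar N
    ∀ (_ : SMulCommClass GalQ HeckeAlg (JZero N)),
      ∃ (J' : Type) (_ : AddCommGroup J') (_ : Module HeckeAlg J') (sp : JZero N →+ J')
        (F : J' →+ J'),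
        IsSpecialization (K := ℚ) p (JZero N) J' A ℓ sp F ∧ SpecialFibreRelation J' ℓ hℓ F := by
  let _ := heckeModuleBar N
  intro _
  exact Top.exists_specialization (K := ℚ) (J := JZero N) p A ℓ hℓ
    (fun x ht hx => key_W0_of_divisor p A hkey0 x ht hx)
    (fun Φ hΦ x ht hx =>
      key_WΦ_of_divisor hα hβ p hcomm hℓ hFI hfin hN A Φ (hkeyΦ Φ hΦ) x ht hx)

end Assembly

end Modular

end Fermat.Agent.S37.Key.DivisorForm
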