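import Mathlib
import Fermat.Agent.S18.Gauss.ScalableFull

/-!
# S37 (INST-E, part 1): Star-ready representations

Every nonzero `x ∈ F_N = laurentBaseChange L (modularFunctionFieldFull N)` is `c · y₁ / y₂` with a
nonzero constant `c` and `y₁ y₂ ∈ A((q))` whose base changes lie in `F_N` and whose reductions are
nonzero elements of `F_{N,k}` (`y₁`, `y₂` are `A`-primitive polynomial expressions in `j(q)`,
`j(q^N)`).  This is the input shape of `Trans.Star`.
-/

set_option autoImplicit false

noncomputable section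

namespace Fermat.Agent.S37.Key.StarReady

open ModularCurve Polynomial
open Fermat.Agent.S28.Export
open Fermat.Agent.S18.Gauss Fermat.Agent.S18.Gauss.Basic Fermat.Agent.S18.Gauss.PolyScale

variable {L : Type*} [Field L] [Algebra ℚ L] (N : ℕ) [NeZero N]

theorem ev1_mem (q : L[X]) :
    ev1 L q ∈ laurentBaseChange L (modularFunctionFieldFull N) := by
  induction q using Polynomial.induction_on' with
  | add p q hp hq => rw [map_add]; exact add_mem hp hq
  | monomial n a =>
    rw [← C_mul_X_pow_eq_monomial, map_mul, map_pow, ev1_C, ev1_X]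
    refine mul_mem ?_ (pow_mem (Concrete.jqModC_mem L N) n)
    rw [← algebraMap_eq_C L a]
    exact (laurentBaseChange L (modularFunctionFieldFull N)).algebraMap_mem a

theorem ev2_mem (G : L[X][X]) :
    ev2 L N G ∈ laurentBaseChange L (modularFunctionFieldFull N) := by
  induction G using Polynomial.induction_on' with
  | add p q hp hq => rw [map_add]; exact add_mem hp hq
  | monomial n a =>
    rw [← C_mul_X_pow_eq_monomial, map_mul, map_pow, ev2_C, ev2_X]
    exact mul_mem (ev1_mem N a) (pow_mem (Concrete.jqNModC_mem L N) n)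

variable (A : ValuationSubring L) {ℓ : ℕ} [Fact ℓ.Prime]
  [CharP (IsLocalRing.ResidueField A) ℓ] (hℓN : ¬ ℓ ∣ N)

include hℓN

/-- **Star-ready representation** of a nonzero element of `F_N`. -/
theorem exists_star_ready (x : LaurentSeries L)
    (hx : x ∈ laurentBaseChange L (modularFunctionFieldFull N)) (hx0 : x ≠ 0) :
    ∃ (c : L) (y₁ y₂ : LaurentSeries A), c ≠ 0 ∧
      incl A y₁ ∈ laurentBaseChange L (modularFunctionFieldFull N) ∧
      incl A y₂ ∈ laurentBaseChange L (modularFunctionFieldFull N) ∧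
      red A y₁ ≠ 0 ∧ red A y₂ ≠ 0 ∧
      x * incl A y₂ = HahnSeries.C c * incl A y₁ := by
  have hind := ScalableFull.indepRes N A hℓN
  have hn := Residue.dedekindPsi_pos N
  obtain ⟨q, hq, G, hdeg, h⟩ := ScalableFull.exists_rel N x hx
  have hG : G ≠ 0 := by
    rintro rfl
    rw [map_zero] at h
    rcases mul_eq_zero.1 h with h1 | h1
    · exact hx0 h1
    · exact ev1_ne_zero hn hind hq h1
  obtain ⟨cq, q₁, hcq, hqmap, hqred⟩ := exists_primitive A q hq
  obtain ⟨cG, G₁, hcG, hGmap, hGred⟩ := exists_primitive₂ A G hG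
  have hdeg₁ : ∀ i, dedekindPsi N ≤ i → G₁.coeff i = 0 := fun i hi =>
    coeff_eq_zero_of_map_eq A hGmap (hdeg i hi)
  refine ⟨cG / cq, ev2 (↥A) N G₁, ev1 (↥A) q₁, div_ne_zero hcG hcq, ?_, ?_,
    red_ev2_ne_zero hind hdeg₁ hGred, red_ev1_ne_zero hn hind hqred, ?_⟩
  · rw [incl_ev2]
    exact ev2_mem N _
  · rw [incl_ev1]
    exact ev1_mem N _
  · rw [incl_ev1, incl_ev2, hqmap, hGmap, map_mul, map_mul, ev1_C, ev2_C, ev1_C, ← h]
    have hCq : (HahnSeries.C cq : LaurentSeries L) ≠ 0 := fun h0 =>
      hcq ((map_eq_zero_iff _ HahnSeries.C_injective).1 h0)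
    have hCG : (HahnSeries.C cG : LaurentSeries L) ≠ 0 := fun h0 =>
      hcG ((map_eq_zero_iff _ HahnSeries.C_injective).1 h0)
    rw [map_div₀, map_inv₀, map_inv₀]
    field_simp

end Fermat.Agent.S37.Key.StarReady

end
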