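import Mathlib
import Fermat.Agent.S37.Key.DivisorForm
import Fermat.Agent.S37.Key.StarReady
import Fermat.Agent.S37.BaseChange.Hecke
import Fermat.Agent.S18.Trans.Star
import Fermat.Agent.S18.Trans.Translate

/-!
# S37 (INST-E, part 2): the divisor-level KEY at level `N` from the local KEY at level `M`

`N ∣ M`, `ℓ ∤ M`.  `LevelKey` is the output of the local computation (`Key/AbstractGood.lean`) at
level `M`: a Gauss unit whose divisor is `m` times a divisor in `WDiv` has a reduction without zeros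
and poles.  Together with `ConstK A M`, `Star A N m` (block G) and the compatibility of `WDiv` with
the pull-back `F_N → F_M`, this gives the divisor-level KEY of `Key/DivisorForm.lean` at level `N`.
-/

set_option autoImplicit false

noncomputable section

namespace Fermat.Agent.S37.Key.Final

open AlgebraicCurve ModularCurve HahnSeries
open Fermat.Agent.S24 Fermat.Agent.S24.BridgeInv
open Fermat.Agent.S18.Gauss Fermat.Agent.S18.Gauss.Basic
open Fermat.Agent.S18.Trans
open Fermat.Agent.S37.BaseChange.Hecke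
open Fermat.Agent.S37.Key.DivisorForm

set_option synthInstance.maxHeartbeats 400000

/-- The local KEY at level `M` for a subgroup `W` of divisors. -/
def LevelKey (M : ℕ) [NeZero M] (A : ValuationSubring Kbar) {ℓ : ℕ} [Fact ℓ.Prime]
    [CharP (IsLocalRing.ResidueField A) ℓ] (hℓM : ¬ ℓ ∣ M)
    (W : AddSubgroup (Divisor Kbar (FF M))) : Prop :=
  ∀ E ∈ W, ∀ (m : ℕ) (u : FF M) (hu : u ∈ gaussSubring (ScalableFull.scalable_full M A hℓM)),
    resMap (ScalableFull.scalable_full M A hℓM) ⟨u, hu⟩ ≠ 0 →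
    (∀ P : Place Kbar (FF M), P.ord u = (m : ℤ) * E P) →
    ∀ (hmem : resMap (ScalableFull.scalable_full M A hℓM) ⟨u, hu⟩ ∈
        modularFunctionFieldFullC (IsLocalRing.ResidueField A) M)
      (Q₀ : Place (IsLocalRing.ResidueField A)
        (modularFunctionFieldFullC (IsLocalRing.ResidueField A) M)),
      Q₀.ord ⟨_, hmem⟩ = 0

variable {N M : ℕ} [NeZero N] [NeZero M] (hNM : N ∣ M)
variable (A : ValuationSubring Kbar) {ℓ : ℕ} [Fact ℓ.Prime]
  [CharP (IsLocalRing.ResidueField A) ℓ] (hℓM : ¬ ℓ ∣ M)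

theorem fullC_le {k : Type*} [Field k] (h : N ∣ M) :
    modularFunctionFieldFullC k N ≤ modularFunctionFieldFullC k M := by
  rw [modularFunctionFieldFullC, IntermediateField.adjoin_le_iff]
  rintro _ ⟨d, hd0, hd, rfl⟩
  exact jqModCd_mem_full k M (hd.trans h)

include hℓM in
/-- **the divisor-level KEY at level `N`** from the local KEY at level `M`. -/
theorem divisor_key [HasPrincipalDivisors Kbar (FF M)]
    (hp : (incl hNM).toRingHom.IsIntegral)
    (WN : AddSubgroup (Divisor Kbar (FF N))) (WM : AddSubgroup (Divisor Kbar (FF M)))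
    (hPBW : ∀ E ∈ WN, Divisor.pullbackAlong (incl hNM) hp E ∈ WM)
    (hKey : LevelKey M A hℓM WM) (hConst : ConstK A M)
    (m : ℕ) (hm : m ≠ 0) (hStar : Star A N m)
    (E : Divisor Kbar (FF N)) (hE : E ∈ WN) (f : FF N) (hf : f ≠ 0)
    (hdiv : ∀ P : Place Kbar (FF N), (m : ℤ) * E P = P.ord f) :
    ∃ g : FF N, g ≠ 0 ∧ ∀ P : Place Kbar (FF N), E P = P.ord g := by
  have hℓN : ¬ ℓ ∣ N := fun h => hℓM (h.trans hNM)
  -- Step 1: star-ready representation of `f`
  obtain ⟨c, y₁, y₂, hc, h₁, h₂, hr₁, hr₂, hrel⟩ :=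
    StarReady.exists_star_ready N A hℓN f.1 f.2 (fun h => hf (Subtype.ext h))
  have hy₁0 : incl A y₁ ≠ 0 := fun h =>
    red_ne_zero_imp_ne_zero A hr₁ ((incl_eq_zero_iff A).1 h)
  have hy₂0 : incl A y₂ ≠ 0 := fun h =>
    red_ne_zero_imp_ne_zero A hr₂ ((incl_eq_zero_iff A).1 h)
  set Y₁ : FF N := ⟨incl A y₁, h₁⟩ with hY₁
  set Y₂ : FF N := ⟨incl A y₂, h₂⟩ with hY₂
  have hY₁0 : Y₁ ≠ 0 := fun h => hy₁0 (congrArg Subtype.val h)
  have hY₂0 : Y₂ ≠ 0 := fun h => hy₂0 (congrArg Subtype.val h)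
  have hcF : algebraMap Kbar (FF N) c ≠ 0 := by
    rw [Ne, map_eq_zero_iff _ (algebraMap Kbar (FF N)).injective]
    exact hc
  have hfrel : f * Y₂ = algebraMap Kbar (FF N) c * Y₁ := by
    apply Subtype.ext
    show (f : LaurentSeries Kbar) * incl A y₂ = algebraMap Kbar (LaurentSeries Kbar) c * incl A y₁
    rw [hrel, algebraMap_laurent_eq_C]
  -- orders at level `N`
  have hordN : ∀ P : Place Kbar (FF N), P.ord Y₁ - P.ord Y₂ = (m : ℤ) * E P := by
    intro P
    have h := congrArg P.ord hfrel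
    rw [Place.ord_mul P hf hY₂0, Place.ord_mul P hcF hY₁0,
      ord_algebraMap_eq_zero] at h
    rw [hdiv P]
    linarith
  -- Step 2: reductions lie in `F_{N,k}`
  have hY₁mem : Y₁ ∈ gaussSubring (ScalableFull.scalable_full N A hℓN) :=
    (mem_gaussSubring_iff _).2 (isInt_incl A y₁)
  have hY₂mem : Y₂ ∈ gaussSubring (ScalableFull.scalable_full N A hℓN) :=
    (mem_gaussSubring_iff _).2 (isInt_incl A y₂)
  have hred₁ : red A y₁ ∈ modularFunctionFieldFullC (IsLocalRing.ResidueField A) N := by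
    have h := ScalableFull.range_resMap N A hℓN
    have h' : resMap (ScalableFull.scalable_full N A hℓN) ⟨Y₁, hY₁mem⟩ ∈
        Set.range (resMap (ScalableFull.scalable_full N A hℓN)) := ⟨_, rfl⟩
    rw [h, resMap_of_incl _ _ (P := y₁) rfl] at h'
    exact h'
  have hred₂ : red A y₂ ∈ modularFunctionFieldFullC (IsLocalRing.ResidueField A) N := by
    have h := ScalableFull.range_resMap N A hℓN
    have h' : resMap (ScalableFull.scalable_full N A hℓN) ⟨Y₂, hY₂mem⟩ ∈
        Set.range (resMap (ScalableFull.scalable_full N A hℓN)) := ⟨_, rfl⟩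
    rw [h, resMap_of_incl _ _ (P := y₂) rfl] at h'
    exact h'
  -- Step 3: the unit `u` at level `M`
  set U₁ : FF M := incl hNM Y₁ with hU₁
  set U₂ : FF M := incl hNM Y₂ with hU₂
  have hinj : Function.Injective (incl hNM) := (incl hNM).toRingHom.injective
  have hU₁0 : U₁ ≠ 0 := (map_ne_zero_iff (incl hNM) hinj).2 hY₁0
  have hU₂0 : U₂ ≠ 0 := (map_ne_zero_iff (incl hNM) hinj).2 hY₂0
  set u : FF M := U₁ * U₂⁻¹ with hu_def
  have hucoe : (u : LaurentSeries Kbar) * incl A y₂ = incl A y₁ := by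
    have h : u * U₂ = U₁ := by rw [hu_def, mul_assoc, inv_mul_cancel₀ hU₂0, mul_one]
    have h' := congrArg (fun z : FF M => (z : LaurentSeries Kbar)) h
    simpa [hU₁, hU₂, hY₁, hY₂] using h'
  have hu : u ∈ gaussSubring (ScalableFull.scalable_full M A hℓM) :=
    (mem_gaussSubring_iff _).2 ⟨y₁, y₂, hr₂, hucoe⟩
  have hres : resMap (ScalableFull.scalable_full M A hℓM) ⟨u, hu⟩ = red A y₁ / red A y₂ :=
    resMap_eq _ _ hr₂ hucoe
  have hres0 : resMap (ScalableFull.scalable_full M A hℓM) ⟨u, hu⟩ ≠ 0 := by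
    rw [hres]
    exact div_ne_zero hr₁ hr₂
  have hordM : ∀ w : Place Kbar (FF M),
      w.ord u = (m : ℤ) * Divisor.pullbackAlong (incl hNM) hp E w := by
    intro w
    rw [hu_def, Place.ord_mul w hU₁0 (inv_ne_zero hU₂0), Place.ord_inv, hU₁, hU₂,
      Place.ord_restrictAlong (incl hNM) hp w Y₁, Place.ord_restrictAlong (incl hNM) hp w Y₂,
      Divisor.pullbackAlong_apply]
    have := hordN (w.restrictAlong (incl hNM) hp)
    linear_combination (Place.ramificationIndexAlong (incl hNM) w : ℤ) * this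
  -- Step 4: the local KEY at level `M`
  have hmem : resMap (ScalableFull.scalable_full M A hℓM) ⟨u, hu⟩ ∈
      modularFunctionFieldFullC (IsLocalRing.ResidueField A) M := by
    have h := ScalableFull.range_resMap M A hℓM
    have h' : resMap (ScalableFull.scalable_full M A hℓM) ⟨u, hu⟩ ∈
        Set.range (resMap (ScalableFull.scalable_full M A hℓM)) := ⟨_, rfl⟩
    rw [h] at h'
    exact h'
  have hQ := hKey _ (hPBW E hE) m u hu hres0 hordM hmem
  -- Step 5: the reduction is constant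
  obtain ⟨cb, hcb⟩ := hConst ⟨_, hmem⟩ (fun h => hres0 (congrArg Subtype.val h)) hQ
  have hcb' : red A y₁ = HahnSeries.C cb * red A y₂ := by
    have h : red A y₁ / red A y₂ = HahnSeries.C cb := by rw [← hres]; exact hcb
    rw [← h, div_mul_cancel₀ _ hr₂]
  -- Step 6: `Star` at level `N`
  obtain ⟨c', w, hw, hstar⟩ := hStar y₁ y₂ h₁ h₂ hred₁ hred₂ hr₁ hr₂
    (fun P => ⟨E P, hordN P⟩)
    ⟨cb, 1, one_mem _, by rw [one_pow, mul_one]; exact hcb'⟩
  -- Step 7: conclusion
  set Wf : FF N := ⟨w, hw⟩ with hWf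
  have hYrel : Y₁ = algebraMap Kbar (FF N) c' * Wf ^ m * Y₂ := by
    apply Subtype.ext
    show incl A y₁ = algebraMap Kbar (LaurentSeries Kbar) c' * w ^ m * incl A y₂
    rw [algebraMap_laurent_eq_C]
    exact hstar
  have hc'0 : algebraMap Kbar (FF N) c' ≠ 0 := by
    intro h
    rw [h, zero_mul, zero_mul] at hYrel
    exact hY₁0 hYrel
  have hW0 : Wf ≠ 0 := by
    intro h
    rw [h, zero_pow hm, mul_zero, zero_mul] at hYrel
    exact hY₁0 hYrel
  refine ⟨Wf, hW0, fun P => ?_⟩
  have h1 := hordN P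
  have hc'K : c' ≠ 0 := fun h => hc'0 (by rw [h, map_zero])
  rw [hYrel, Place.ord_mul P (mul_ne_zero hc'0 (pow_ne_zero _ hW0)) hY₂0,
    Place.ord_mul P hc'0 (pow_ne_zero _ hW0), ord_algebraMap_eq_zero,
    ord_pow'] at h1
  have hm' : (m : ℤ) ≠ 0 := by exact_mod_cast hm
  have h2 : (m : ℤ) * (P.ord Wf - E P) = 0 := by linarith
  rcases mul_eq_zero.1 h2 with h3 | h3
  · exact absurd h3 hm'
  · linarith

end Fermat.Agent.S37.Key.Final

end
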