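import Mathlib
import Fermat.Agent.S37.Key.DivisorForm
import Fermat.Agent.S37.Key.AbstractGood
import Fermat.Agent.S37.Gen.HeckeGen
import Fermat.Agent.S37.Galois.DivisorAction

/-!
# S37 (PBW): pull-back `F_N → F_M` of the subgroup `WDiv`

For `N ∣ M` and a prime `ℓ ∤ M`, the pull-back of divisors along the inclusion `π : F_N → F_M`
commutes with the arithmetic Galois action and (by (E6), `Gen/HeckeGen.pullback_heckeDivBar`) with
the Hecke correspondence `T_ℓ`.  Hence it commutes with the divisor-level Eichler–Shimura operator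
`psiDiv Φ`, and maps the subgroup `WDiv` of level `N` (generated by `σ • [P] - [P]`, `σ` inertia,
and `psiDiv Φ [P]`) into the subgroup `WDiv` of level `M`.  The latter is the subgroup `W` of any
abstract interface (`Key/AbstractGood.lean`) at level `M` with the same inertia set, Frobenius,
Hecke correspondence and prime.
-/

set_option autoImplicit false

noncomputable section

namespace Fermat.Agent.S37.Key.PullbackW

open AlgebraicCurve ModularCurve
open Fermat.Agent.S24 Fermat.Agent.S24.BridgeInv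
open Fermat.Agent.S37.BaseChange.Hecke Fermat.Agent.S37.Key.DivisorForm

local notation "GalQ" => (Kbar ≃ₐ[ℚ] Kbar)

variable {N M : ℕ} [NeZero N] [NeZero M] {ℓ : ℕ} [NeZero ℓ] (hNM : N ∣ M)

/-! ### Galois equivariance of the pull-back -/

/-- The pull-back of divisors along `F_N → F_M` commutes with the arithmetic Galois action. -/
theorem pullback_galois [HasPrincipalDivisors Kbar (FF M)]
    (hp : (incl hNM).toRingHom.IsIntegral) (σ : GalQ) (D : Divisor Kbar (FF N)) :
    Divisor.pullbackAlong (incl hNM) hp (arithmeticGalois (modularFunctionFieldFull N) σ • D)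
      = arithmeticGalois (modularFunctionFieldFull M) σ •
          Divisor.pullbackAlong (incl hNM) hp D :=
  (Galois.pullbackAlong_smul (incl hNM) hp (Galois.intertwines_inclusion (ff_le hNM) σ) D).symm

/-- The pull-back of an inertia difference `σ • D - D` is the inertia difference of the
pull-back. -/
theorem pullback_galois_sub [HasPrincipalDivisors Kbar (FF M)]
    (hp : (incl hNM).toRingHom.IsIntegral) (σ : GalQ) (D : Divisor Kbar (FF N)) :
    Divisor.pullbackAlong (incl hNM) hp
        (arithmeticGalois (modularFunctionFieldFull N) σ • D - D)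
      = arithmeticGalois (modularFunctionFieldFull M) σ •
          Divisor.pullbackAlong (incl hNM) hp D - Divisor.pullbackAlong (incl hNM) hp D := by
  rw [map_sub, pullback_galois]

/-! ### The Eichler–Shimura operator -/

section Psi

variable (hαN : HeckeAlphaBarIntegral Kbar N ℓ) (hβN : HeckeBetaBarIntegral Kbar N ℓ)
variable (hαM : HeckeAlphaBarIntegral Kbar M ℓ) (hβM : HeckeBetaBarIntegral Kbar M ℓ)
variable [HasPrincipalDivisors Kbar (FF (N * ℓ))] [HasPrincipalDivisors Kbar (FF (M * ℓ))]
variable [HasPrincipalDivisors Kbar (FF M)]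

/-- **The pull-back commutes with the Eichler–Shimura operator**
`psiDiv Φ D = Φ•Φ•D - T_ℓ(Φ•D) + ℓ•D`, for `N ∣ M` and a prime `ℓ ∤ M`. -/
theorem pullback_psiDiv (hℓ : ℓ.Prime) (hℓM : ¬ ℓ ∣ M)
    (hp : (incl hNM).toRingHom.IsIntegral) (Φ : GalQ) (D : Divisor Kbar (FF N)) :
    Divisor.pullbackAlong (incl hNM) hp (psiDiv hαN hβN Φ D)
      = psiDiv hαM hβM Φ (Divisor.pullbackAlong (incl hNM) hp D) := by
  have e2 := pullback_galois hNM hp Φ D
  have e1 : Divisor.pullbackAlong (incl hNM) hp
      (arithmeticGalois (modularFunctionFieldFull N) Φ •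
        (arithmeticGalois (modularFunctionFieldFull N) Φ • D))
      = arithmeticGalois (modularFunctionFieldFull M) Φ •
        (arithmeticGalois (modularFunctionFieldFull M) Φ •
          Divisor.pullbackAlong (incl hNM) hp D) :=
    (pullback_galois hNM hp Φ _).trans (congrArg _ e2)
  have e3 : Divisor.pullbackAlong (incl hNM) hp
      (heckeDivBar hαN hβN (arithmeticGalois (modularFunctionFieldFull N) Φ • D))
      = heckeDivBar hαM hβM (arithmeticGalois (modularFunctionFieldFull M) Φ •
          Divisor.pullbackAlong (incl hNM) hp D) :=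
    (Gen.HeckeGen.pullback_heckeDivBar ℓ hNM hℓ hℓM hαN hβN hαM hβM hp _).trans
      (congrArg _ e2)
  refine (congrArg _ (psiDiv_apply hαN hβN Φ D)).trans ?_
  refine Eq.trans ?_ (psiDiv_apply hαM hβM Φ _).symm
  refine (map_add _ _ _).trans ?_
  refine congrArg₂ (· + ·) ((map_sub _ _ _).trans (congrArg₂ (· - ·) e1 e3)) (map_nsmul _ _ _)

/-- **(PBW), `WDiv` form.** The pull-back along `F_N → F_M` maps `WDiv` of level `N` into `WDiv`
of level `M`. -/
theorem pullback_mem_WDiv (hℓ : ℓ.Prime) (hℓM : ¬ ℓ ∣ M)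
    (hp : (incl hNM).toRingHom.IsIntegral) (A : ValuationSubring Kbar) (Φ : GalQ)
    {E : Divisor Kbar (FF N)} (hE : E ∈ WDiv hαN hβN A Φ) :
    Divisor.pullbackAlong (incl hNM) hp E ∈ WDiv hαM hβM A Φ := by
  refine WDiv_induction hαN hβN A Φ
    (motive := fun E => Divisor.pullbackAlong (incl hNM) hp E ∈ WDiv hαM hβM A Φ)
    ?_ ?_ ?_ ?_ ?_ hE
  · intro σ hσ P
    rw [pullback_galois_sub]
    exact inertia_sub_mem_WDiv hαM hβM A Φ hσ _
  · intro P
    rw [pullback_psiDiv hNM hαN hβN hαM hβM hℓ hℓM]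
    exact psiDiv_mem_WDiv hαM hβM A Φ _
  · rw [map_zero]; exact AddSubgroup.zero_mem _
  · intro E₁ E₂ h₁ h₂
    rw [map_add]; exact AddSubgroup.add_mem _ h₁ h₂
  · intro E h
    rw [map_neg]; exact AddSubgroup.neg_mem _ h

end Psi

/-! ### Comparison with the abstract interface of `Key/AbstractGood.lean` -/

section Interface

variable (hαM : HeckeAlphaBarIntegral Kbar M ℓ) (hβM : HeckeBetaBarIntegral Kbar M ℓ)
variable [HasPrincipalDivisors Kbar (FF (M * ℓ))]

/-- `WDiv` at level `M` is the subgroup `W` of any abstract interface at level `M` with the same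
inertia set, Frobenius, Hecke correspondence and prime. -/
theorem WDiv_eq_W {Fk Q : Type*} [Field Fk] (X : AbstractGood.Interface Kbar (FF M) Fk Q)
    (A : ValuationSubring Kbar) (Φ : GalQ)
    (hI : X.I = arithmeticGalois (modularFunctionFieldFull M) ''
      (A.inertiaSubgroupIn ℚ : Set GalQ))
    (hΦ : X.Φ = arithmeticGalois (modularFunctionFieldFull M) Φ)
    (hT : X.Tdiv = heckeDivBar hαM hβM) (hℓ : X.ℓ = ℓ) :
    WDiv hαM hβM A Φ = X.W := by
  have h1 : {E : Divisor Kbar (FF M) | ∃ σ ∈ A.inertiaSubgroupIn ℚ, ∃ P : Place Kbar (FF M),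
      E = arithmeticGalois (modularFunctionFieldFull M) σ • Finsupp.single P (1 : ℤ)
        - Finsupp.single P (1 : ℤ)} = X.genI := by
    ext E
    simp only [AbstractGood.Interface.genI, Set.mem_ofPred_eq, hI, Set.mem_image,
      SetLike.mem_coe]
    constructor
    · rintro ⟨σ, hσ, P, rfl⟩
      exact ⟨arithmeticGalois (modularFunctionFieldFull M) σ, ⟨σ, hσ, rfl⟩, P, rfl⟩
    · rintro ⟨g, ⟨σ, hσ, rfl⟩, P, rfl⟩
      exact ⟨σ, hσ, P, rfl⟩
  have h2 : {E : Divisor Kbar (FF M) | ∃ P : Place Kbar (FF M),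
      E = psiDiv hαM hβM Φ (Finsupp.single P (1 : ℤ))} = X.genΨ := by
    ext E
    simp only [AbstractGood.Interface.genΨ, Set.mem_ofPred_eq, hΦ, hT, hℓ, psiDiv_apply,
      natCast_zsmul]
  rw [WDiv, AbstractGood.Interface.W, h1, h2]

end Interface

/-! ### The main statement -/

section Main

variable (hαN : HeckeAlphaBarIntegral Kbar N ℓ) (hβN : HeckeBetaBarIntegral Kbar N ℓ)
variable (hαM : HeckeAlphaBarIntegral Kbar M ℓ) (hβM : HeckeBetaBarIntegral Kbar M ℓ)
variable [HasPrincipalDivisors Kbar (FF (N * ℓ))] [HasPrincipalDivisors Kbar (FF (M * ℓ))]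
variable [HasPrincipalDivisors Kbar (FF M)]

/-- **(PBW).** For `N ∣ M` and a prime `ℓ ∤ M`: the pull-back along `F_N → F_M` of a divisor in
`WDiv` (level `N`) lies in the subgroup `W` of any abstract interface at level `M` whose inertia
set, Frobenius, Hecke correspondence and prime are the modular ones. -/
theorem pullback_mem_W (hℓ : ℓ.Prime) (hℓM : ¬ ℓ ∣ M)
    (hp : (incl hNM).toRingHom.IsIntegral) {Fk Q : Type*} [Field Fk]
    (X : AbstractGood.Interface Kbar (FF M) Fk Q) (A : ValuationSubring Kbar) (Φ : GalQ)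
    (hI : X.I = arithmeticGalois (modularFunctionFieldFull M) ''
      (A.inertiaSubgroupIn ℚ : Set GalQ))
    (hΦ : X.Φ = arithmeticGalois (modularFunctionFieldFull M) Φ)
    (hT : X.Tdiv = heckeDivBar hαM hβM) (hXℓ : X.ℓ = ℓ)
    {E : Divisor Kbar (FF N)} (hE : E ∈ WDiv hαN hβN A Φ) :
    Divisor.pullbackAlong (incl hNM) hp E ∈ X.W := by
  rw [← WDiv_eq_W hαM hβM X A Φ hI hΦ hT hXℓ]
  exact pullback_mem_WDiv hNM hαN hβN hαM hβM hℓ hℓM hp A Φ hE

end Main

end Fermat.Agent.S37.Key.PullbackW
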