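import Mathlib
import Fermat.Agent.S37.Key.Final
import Fermat.Agent.S37.Key.PullbackW
import Fermat.Agent.S37.FrobAt
import Fermat.Agent.S18.Trans.ConstKFinal

/-!
# S37 (INST-E, part 3): the frozen statement from the local KEY at an auxiliary level

`specializationExists_of_levelKey`: the statement of S37 follows if, for every prime `ℓ ∤ N p`,
every valuation subring `A` of `ℚ̄` over `ℓ` and every Frobenius lift `Φ` at `A`, there is a level
`M` with `N ∣ M`, `ℓ ∤ M` at which the local KEY (`Final.LevelKey`) holds for the subgroup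
`WDiv` of level `M`, and if `Star A N (p ^ n)` (block G) holds for all `n`.
-/

set_option autoImplicit false

noncomputable section

namespace Fermat.Agent.S37.Key.Frozen

open AlgebraicCurve ModularCurve
open Fermat.Agent.S24 Fermat.Agent.S24.BridgeInv
open Fermat.Agent.S18.Trans
open Fermat.Agent.S37.HeckeInputs
open Fermat.Agent.S37.Key.DivisorForm Fermat.Agent.S37.Key.Final

set_option synthInstance.maxHeartbeats 400000

/-- the hypothesis on one triple `(ℓ, A, Φ)`: an auxiliary level with the local KEY, and `Star`. -/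
def LocalInput (N p ℓ : ℕ) [NeZero N] [hℓ : Fact ℓ.Prime] (A : ValuationSubring Kbar)
    [CharP (IsLocalRing.ResidueField A) ℓ] (Φ : Kbar ≃ₐ[ℚ] Kbar) : Prop :=
  haveI : NeZero ℓ := ⟨hℓ.out.ne_zero⟩
  (∀ n : ℕ, Star A N (p ^ n)) ∧
  ∃ (M : ℕ) (_ : NeZero M) (_ : N ∣ M) (hℓM : ¬ ℓ ∣ M),
    haveI := hasPrincipalDivisors_bar (M * ℓ)
    LevelKey M A hℓM (WDiv (heckeAlphaBarIntegral M ℓ) (heckeBetaBarIntegral M ℓ) A Φ)

/-- the divisor-level KEY of `DivisorForm` from `LocalInput`. -/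
theorem divisor_key_of_localInput (N p ℓ : ℕ) [NeZero N] [hℓ : Fact ℓ.Prime] [NeZero ℓ]
    (hp0 : p ≠ 0)
    (A : ValuationSubring Kbar) (hA : A.LiesOverPrime ℓ)
    [CharP (IsLocalRing.ResidueField A) ℓ] (Φ : Kbar ≃ₐ[ℚ] Kbar)
    (H : LocalInput N p ℓ A Φ)
    [HasPrincipalDivisors Kbar (FF (N * ℓ))]
    (hα : HeckeAlphaBarIntegral Kbar N ℓ) (hβ : HeckeBetaBarIntegral Kbar N ℓ)
    (E : Divisor Kbar (FF N)) (hE : E ∈ WDiv hα hβ A Φ)
    (n : ℕ) (f : FF N) (hf : f ≠ 0)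
    (hdiv : ∀ P : Place Kbar (FF N), (p : ℤ) ^ n * E P = P.ord f) :
    ∃ g : FF N, g ≠ 0 ∧ ∀ P : Place Kbar (FF N), E P = P.ord g := by
  obtain ⟨hStar, M, hM, hNM, hℓM, hKey⟩ := H
  haveI := hM
  haveI := hasPrincipalDivisors_bar (M * ℓ)
  haveI := hasPrincipalDivisors_bar M
  have hp := BaseChange.Hecke.isIntegral_incl hNM
  refine divisor_key hNM A hℓM hp (WDiv hα hβ A Φ)
    (WDiv (heckeAlphaBarIntegral M ℓ) (heckeBetaBarIntegral M ℓ) A Φ)
    (fun E hE => PullbackW.pullback_mem_WDiv hNM hα hβ (heckeAlphaBarIntegral M ℓ)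
      (heckeBetaBarIntegral M ℓ) hℓ.out hℓM hp A Φ hE)
    hKey (constK M hℓM A hA) (p ^ n) (pow_ne_zero _ hp0) (hStar n) E hE f hf ?_
  intro P
  rw [← hdiv P]
  push_cast
  rfl

/-- **S37 from the local inputs.** -/
theorem specializationExists_of_localInput (N p : ℕ) [NeZero N]
    (hcomm : HeckeOperatorsCommuteBar N)
    (H : ∀ (ℓ : ℕ) (hℓ : ℓ.Prime), ¬ ℓ ∣ N * p →
      ∀ (A : ValuationSubring Kbar) (hA : A.LiesOverPrime ℓ) (Φ : Kbar ≃ₐ[ℚ] Kbar),
        A.IsFrobeniusAt Φ ℓ →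
        haveI : Fact ℓ.Prime := ⟨hℓ⟩
        haveI := LiesOver.charP_residueField hA
        LocalInput N p ℓ A Φ) :
    letI := heckeModuleBar N
    ∀ (_ : SMulCommClass (Kbar ≃ₐ[ℚ] Kbar) HeckeAlg (JZero N)),
      SpecializationExists (K := ℚ) (L := Kbar) N p (JZero N) := by
  letI := heckeModuleBar N
  intro inst ℓ hℓ hndvd A hA
  haveI : NeZero ℓ := ⟨hℓ.ne_zero⟩
  haveI : Fact ℓ.Prime := ⟨hℓ⟩
  haveI := LiesOver.charP_residueField hA
  haveI := hasPrincipalDivisors_bar (N * ℓ)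
  have hp0 : p ≠ 0 := by
    rintro rfl
    exact hndvd (by rw [mul_zero]; exact dvd_zero ℓ)
  have hkeyΦ : ∀ Φ : Kbar ≃ₐ[ℚ] Kbar, A.IsFrobeniusAt Φ ℓ →
      ∀ E ∈ WDiv (heckeAlphaBarIntegral N ℓ) (heckeBetaBarIntegral N ℓ) A Φ,
      Divisor.degree E = 0 →
      ∀ (n : ℕ) (f : modularFunctionFieldBar N), f ≠ 0 →
        (∀ P : Place Kbar (modularFunctionFieldBar N), (p : ℤ) ^ n * E P = P.ord f) →
        ∃ g : modularFunctionFieldBar N, g ≠ 0 ∧
          ∀ P : Place Kbar (modularFunctionFieldBar N), E P = P.ord g := by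
    intro Φ hΦ E hE _ n f hf hdiv
    exact divisor_key_of_localInput N p ℓ hp0 A hA Φ (H ℓ hℓ hndvd A hA Φ hΦ)
      (heckeAlphaBarIntegral N ℓ) (heckeBetaBarIntegral N ℓ) E hE n f hf hdiv
  obtain ⟨Φ₀, hΦ₀⟩ := FrobAt.exists_isFrobeniusAt_of ℓ hℓ A hA
  refine exists_specialization_of_divisor (heckeAlphaBarIntegral N ℓ) (heckeBetaBarIntegral N ℓ)
    p hcomm hℓ (fundamentalIdentityAlong_beta N ℓ) (finiteAlong_alpha N ℓ)
    (normFormulaAlong_alpha N ℓ) A ?_ hkeyΦ inst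
  intro E hE hdeg n f hf hdiv
  exact hkeyΦ Φ₀ hΦ₀ E (W0Div_le_WDiv _ _ A Φ₀ hE) hdeg n f hf hdiv

end Fermat.Agent.S37.Key.Frozen

end
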