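import Mathlib

/-!
# S37: the auxiliary level `M = lcm(N, 4)` (`ℓ` odd) resp. `lcm(N, 9)` (`ℓ = 2`)
-/

set_option autoImplicit false

namespace Fermat.Agent.S37.Key.Level

/-- the auxiliary level at which the charts of block G exist -/
def auxLevel (N ℓ : ℕ) : ℕ := if ℓ = 2 then Nat.lcm N 9 else Nat.lcm N 4

theorem dvd_auxLevel (N ℓ : ℕ) : N ∣ auxLevel N ℓ := by
  unfold auxLevel
  split_ifs
  · exact Nat.dvd_lcm_left N 9
  · exact Nat.dvd_lcm_left N 4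

theorem auxLevel_ne_zero (N ℓ : ℕ) [NeZero N] : auxLevel N ℓ ≠ 0 := by
  unfold auxLevel
  split_ifs
  · exact Nat.lcm_ne_zero (NeZero.ne N) (by norm_num)
  · exact Nat.lcm_ne_zero (NeZero.ne N) (by norm_num)

instance (N ℓ : ℕ) [NeZero N] : NeZero (auxLevel N ℓ) := ⟨auxLevel_ne_zero N ℓ⟩

theorem nine_dvd_auxLevel (N : ℕ) : 9 ∣ auxLevel N 2 := by
  unfold auxLevel
  rw [if_pos rfl]
  exact Nat.dvd_lcm_right N 9

theorem four_dvd_auxLevel (N ℓ : ℕ) (h : ℓ ≠ 2) : 4 ∣ auxLevel N ℓ := by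
  unfold auxLevel
  rw [if_neg h]
  exact Nat.dvd_lcm_right N 4

theorem not_dvd_auxLevel {N ℓ : ℕ} (hℓ : ℓ.Prime) (hN : ¬ ℓ ∣ N) : ¬ ℓ ∣ auxLevel N ℓ := by
  unfold auxLevel
  split_ifs with h2
  · subst h2
    intro h
    have h' : 2 ∣ N * 9 := h.trans (Nat.lcm_dvd_mul N 9)
    rcases (Nat.Prime.dvd_mul Nat.prime_two).1 h' with h1 | h1
    · exact hN h1
    · omega
  · intro h
    have h' : ℓ ∣ N * 4 := h.trans (Nat.lcm_dvd_mul N 4)
    rcases (Nat.Prime.dvd_mul hℓ).1 h' with h1 | h1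
    · exact hN h1
    · have h4 : ℓ ∣ 2 ^ 2 := by norm_num; exact h1
      have := (Nat.prime_dvd_prime_iff_eq hℓ Nat.prime_two).1 (hℓ.dvd_of_dvd_pow h4)
      exact h2 this

end Fermat.Agent.S37.Key.Level
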