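/-
S37 (project E), leaf (INST-N): the fields `ord_Nm` and `exists_div` of the KEY interface at
level `M`: the Hecke correspondence `T_ℓ = α_* β^*` maps the divisor of `z` to the divisor of the
Hecke norm `N_α(β z)`.
-/
import Mathlib
import Fermat.Agent.S37.HeckeInputs.Main
import Fermat.Agent.S37.Kron.GaussNormModular

set_option autoImplicit false
set_option linter.style.haveILetI false

noncomputable section

namespace Fermat.Agent.S37.Key.HeckeNormDiv

open AlgebraicCurve ModularCurve
open Fermat.Agent.S24.BridgeInv (Kbar FF)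
open Fermat.Agent.S37.HeckeInputs Fermat.Agent.S37.Kron.GaussNormModular

section Generic

variable {K F F' : Type*} [Field K] [Field F] [Field F'] [Algebra K F] [Algebra K F']
  [HasPrincipalDivisors K F']

/-- The pullback of the divisor of `z` along `φ` is the divisor of `φ z`. -/
theorem pullbackAlong_apply_eq_ord (φ : F →ₐ[K] F') (hφ : φ.toRingHom.IsIntegral) {z : F}
    {D : Divisor K F} (hD : ∀ P : Place K F, D P = P.ord z) (w : Place K F') :
    Divisor.pullbackAlong φ hφ D w = w.ord (φ z) := by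
  letI := algebraAlong φ
  haveI := isScalarTower_along φ
  haveI := isIntegral_along φ hφ
  exact Divisor.pullback_apply_eq_ord hD w

omit [HasPrincipalDivisors K F'] in
/-- The pushforward of the divisor of `f` along `ψ` is the divisor of the norm of `f`. -/
theorem pushforwardAlong_apply_eq_ord (ψ : F →ₐ[K] F') (hψ : ψ.toRingHom.IsIntegral)
    (hfin : FiniteAlong K ψ) (hN : NormFormulaAlong K ψ hfin) {f : F'} (hf : f ≠ 0)
    {D : Divisor K F'} (hD : ∀ w : Place K F', D w = w.ord f) (v : Place K F) :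
    Divisor.pushforwardAlong ψ hψ D v
      = v.ord (letI := algebraAlong ψ; haveI : Module.Finite F F' := hfin; Algebra.norm F f) := by
  letI := algebraAlong ψ
  haveI := isScalarTower_along ψ
  haveI := isIntegral_along ψ hψ
  haveI : Module.Finite F F' := hfin
  exact hN f hf D hD v

/-- **A correspondence maps `div z` to `div (N_ψ(φ z))`.** -/
theorem correspondence_apply_eq_ord (φ ψ : F →ₐ[K] F') (hφ : φ.toRingHom.IsIntegral)
    (hψ : ψ.toRingHom.IsIntegral) (hfin : FiniteAlong K ψ) (hN : NormFormulaAlong K ψ hfin)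
    {z : F} (hz : z ≠ 0) {D : Divisor K F} (hD : ∀ P : Place K F, D P = P.ord z)
    (v : Place K F) :
    Divisor.correspondence φ ψ hφ hψ D v
      = v.ord (letI := algebraAlong ψ; haveI : Module.Finite F F' := hfin;
          Algebra.norm F (φ z)) := by
  rw [Divisor.correspondence_apply]
  refine pushforwardAlong_apply_eq_ord ψ hψ hfin hN ?_ (fun w => ?_) v
  · exact (map_ne_zero_iff _ φ.toRingHom.injective).mpr hz
  · exact pullbackAlong_apply_eq_ord φ hφ hD w

omit [HasPrincipalDivisors K F'] in
/-- The norm along a finite map of a nonzero element is nonzero. -/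
theorem norm_along_ne_zero (ψ : F →ₐ[K] F') (hfin : FiniteAlong K ψ) {f : F'} (hf : f ≠ 0) :
    (letI := algebraAlong ψ; Algebra.norm F f) ≠ 0 := by
  letI := algebraAlong ψ
  haveI : Module.Finite F F' := hfin
  exact Algebra.norm_ne_zero_iff.mpr hf

end Generic

variable (M ℓ : ℕ) [NeZero M] [NeZero ℓ]

/-- **`ord_Nm`**: `T_ℓ (div z) = div (N_α(β z))` on `F_M`. -/
theorem heckeDivBar_apply_eq_ord {z : FF M} (hz : z ≠ 0) {D : Divisor Kbar (FF M)}
    (hD : ∀ P : Place Kbar (FF M), D P = P.ord z) (P : Place Kbar (FF M)) :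
    (haveI := hasPrincipalDivisors_bar (M * ℓ)
     heckeDivBar (heckeAlphaBarIntegral M ℓ) (heckeBetaBarIntegral M ℓ) D P)
      = P.ord (heckeNorm M ℓ z) := by
  haveI := hasPrincipalDivisors_bar (M * ℓ)
  exact correspondence_apply_eq_ord (heckeBetaBar Kbar M ℓ) (heckeAlphaBar Kbar M ℓ)
    (heckeBetaBarIntegral M ℓ) (heckeAlphaBarIntegral M ℓ) (finiteAlong_alpha M ℓ)
    (normFormulaAlong_alpha M ℓ) hz hD P

/-- **`exists_div`**: every nonzero function on `F_M` has a divisor. -/
theorem exists_div {z : FF M} (hz : z ≠ 0) :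
    ∃ D : Divisor Kbar (FF M), ∀ P : Place Kbar (FF M), D P = P.ord z := by
  haveI := hasPrincipalDivisors_bar M
  obtain ⟨D, hD, -⟩ := HasPrincipalDivisors.exists_divisor (K := Kbar) z hz
  exact ⟨D, hD⟩

/-- The Hecke norm of a nonzero function is nonzero. -/
theorem heckeNorm_ne_zero {z : FF M} (hz : z ≠ 0) : heckeNorm M ℓ z ≠ 0 := by
  rw [heckeNorm_def]
  exact norm_along_ne_zero (heckeAlphaBar Kbar M ℓ) (finiteAlong_alpha M ℓ)
    ((map_ne_zero_iff _ (heckeBetaBar Kbar M ℓ).toRingHom.injective).mpr hz)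

end Fermat.Agent.S37.Key.HeckeNormDiv
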