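import Mathlib
import Fermat.Agent.S18.Gauss.Basic
import Fermat.Agent.S37.Galois.GaussAction

/-!
# S37 (INST-U): Gauss units and their reduction, in the shapes of `Key.Abstract.Interface`

`F` a field with expansions `φ : F →+* L((q))`, all nonzero values scalable with respect to the
valuation subring `A` of `L` (`hφ : Scalable A φ`), `k` the residue field of `A`,
`Fk ⊆ k((q))` an intermediate field containing all residues (`hFk`).

* `IsU hφ z` : `z` is a unit of the Gauss valuation subring (`z ∈ gaussSubring hφ`, `resMap z ≠ 0`);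
* `resF hφ Fk hFk z : Fk` : the residue of `z` (junk `0` outside the Gauss valuation subring).

We prove the fields `isU_one/mul/inv/ne_zero`, `res_one/mul/inv/ne_zero` of
`Key.Abstract.Interface`, and for `F = F₀ ⊗ L` with the arithmetic Galois action the fields
`I_inv`, `isU_I`, `res_I`, `isU_Φ`, `res_Φ` (inertia set `inertiaSet`, Frobenius lift `Φ`,
`Fr` = coefficientwise Frobenius of `Fk`).
-/

set_option autoImplicit false

noncomputable section

open AlgebraicCurve ModularCurve IsLocalRing Fermat.Agent.S18.Gauss.Basic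
open Fermat.Agent.S37.Galois

namespace Fermat.Agent.S37.Key.GaussUnits

section Generic

variable {L : Type*} [Field L] {A : ValuationSubring L}
variable {F : Type*} [Field F] {φ : F →+* LaurentSeries L} (hφ : Scalable A φ)
variable (Fk : IntermediateField (ResidueField A) (LaurentSeries (ResidueField A)))
variable (hFk : ∀ z : gaussSubring hφ, resMap hφ z ∈ Fk)

/-- `z` is a unit of the Gauss valuation subring. -/
def IsU (z : F) : Prop := ∃ hz : z ∈ gaussSubring hφ, resMap hφ ⟨z, hz⟩ ≠ 0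

open Classical in
/-- The residue of `z` as an element of `Fk` (junk value `0` if `z` is not Gauss-integral). -/
def resF (z : F) : Fk :=
  if hz : z ∈ gaussSubring hφ then ⟨resMap hφ ⟨z, hz⟩, hFk _⟩ else 0

variable {hφ}

theorem IsU.mem {z : F} (h : IsU hφ z) : z ∈ gaussSubring hφ := h.1

theorem IsU.resMap_ne_zero {z : F} (h : IsU hφ z) : resMap hφ ⟨z, h.mem⟩ ≠ 0 := h.2

theorem isU_iff_isUnit {z : F} :
    IsU hφ z ↔ ∃ hz : z ∈ gaussSubring hφ, IsUnit (⟨z, hz⟩ : gaussSubring hφ) := by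
  constructor
  · rintro ⟨hz, h⟩
    exact ⟨hz, (isUnit_iff_resMap_ne_zero hφ _).mpr h⟩
  · rintro ⟨hz, h⟩
    exact ⟨hz, (isUnit_iff_resMap_ne_zero hφ _).mp h⟩

variable {Fk hFk}

theorem coe_resF_of_mem {z : F} (hz : z ∈ gaussSubring hφ) :
    ((resF hφ Fk hFk z : Fk) : LaurentSeries (ResidueField A)) = resMap hφ ⟨z, hz⟩ := by
  unfold resF
  rw [dif_pos hz]

theorem resF_of_mem {z : F} (hz : z ∈ gaussSubring hφ) :
    resF hφ Fk hFk z = ⟨resMap hφ ⟨z, hz⟩, hFk _⟩ :=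
  Subtype.ext (coe_resF_of_mem hz)

theorem resF_of_not_mem {z : F} (hz : z ∉ gaussSubring hφ) : resF hφ Fk hFk z = 0 := by
  unfold resF
  rw [dif_neg hz]

variable (hφ)

theorem isU_one : IsU hφ (1 : F) :=
  ⟨(gaussSubring hφ).one_mem, by
    rw [show (⟨1, (gaussSubring hφ).one_mem⟩ : gaussSubring hφ) = 1 from rfl, map_one]
    exact one_ne_zero⟩

variable {hφ}

theorem isU_mul {a b : F} (ha : IsU hφ a) (hb : IsU hφ b) : IsU hφ (a * b) :=
  ⟨(gaussSubring hφ).mul_mem _ _ ha.mem hb.mem, by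
    rw [show (⟨a * b, (gaussSubring hφ).mul_mem _ _ ha.mem hb.mem⟩ : gaussSubring hφ)
      = ⟨a, ha.mem⟩ * ⟨b, hb.mem⟩ from rfl, map_mul]
    exact mul_ne_zero ha.resMap_ne_zero hb.resMap_ne_zero⟩

theorem isU_ne_zero {a : F} (ha : IsU hφ a) : a ≠ 0 := by
  rintro rfl
  apply ha.resMap_ne_zero
  rw [show (⟨0, ha.mem⟩ : gaussSubring hφ) = 0 from rfl, map_zero]

theorem inv_mem_of_isU {a : F} (ha : IsU hφ a) : a⁻¹ ∈ gaussSubring hφ := by
  show φ a⁻¹ ∈ gaussRing A
  rw [map_inv₀]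
  exact inv_mem_of_res_ne_zero A ⟨φ a, ha.mem⟩ ha.resMap_ne_zero

theorem resMap_inv {a : F} (ha : IsU hφ a) :
    resMap hφ ⟨a⁻¹, inv_mem_of_isU ha⟩ = (resMap hφ ⟨a, ha.mem⟩)⁻¹ := by
  have h1 : (⟨a, ha.mem⟩ : gaussSubring hφ) * ⟨a⁻¹, inv_mem_of_isU ha⟩ = 1 :=
    Subtype.ext (mul_inv_cancel₀ (isU_ne_zero ha))
  have h2 := congrArg (resMap hφ) h1
  rw [map_mul, map_one] at h2
  exact eq_inv_of_mul_eq_one_right h2

theorem isU_inv {a : F} (ha : IsU hφ a) : IsU hφ a⁻¹ :=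
  ⟨inv_mem_of_isU ha, by
    rw [resMap_inv ha]
    exact inv_ne_zero ha.resMap_ne_zero⟩

variable (hφ Fk hFk)

theorem res_one : resF hφ Fk hFk (1 : F) = 1 := by
  rw [resF_of_mem (gaussSubring hφ).one_mem]
  refine Subtype.ext ?_
  show resMap hφ (1 : gaussSubring hφ) = 1
  rw [map_one]

variable {hφ}

theorem res_mul {a b : F} (ha : IsU hφ a) (hb : IsU hφ b) :
    resF hφ Fk hFk (a * b) = resF hφ Fk hFk a * resF hφ Fk hFk b := by
  rw [resF_of_mem (isU_mul ha hb).mem, resF_of_mem ha.mem, resF_of_mem hb.mem]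
  refine Subtype.ext ?_
  show resMap hφ (⟨a, ha.mem⟩ * ⟨b, hb.mem⟩ : gaussSubring hφ) = _
  rw [map_mul]
  rfl

theorem res_inv {a : F} (ha : IsU hφ a) :
    resF hφ Fk hFk a⁻¹ = (resF hφ Fk hFk a)⁻¹ := by
  rw [resF_of_mem (inv_mem_of_isU ha), resF_of_mem ha.mem]
  refine Subtype.ext ?_
  rw [IntermediateField.coe_inv]
  exact resMap_inv ha

theorem res_ne_zero {a : F} (ha : IsU hφ a) : resF hφ Fk hFk a ≠ 0 := by
  rw [resF_of_mem ha.mem]
  intro h
  exact ha.resMap_ne_zero (congrArg Subtype.val h)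

end Generic

section Galois

variable {L : Type*} [Field L] [Algebra ℚ L] {A : ValuationSubring L}
variable (F₀ : IntermediateField ℚ (LaurentSeries ℚ))
variable {φ : laurentBaseChange L F₀ →+* LaurentSeries L}
variable (hφv : ∀ x : laurentBaseChange L F₀, φ x = (x : LaurentSeries L))
variable {hφ : Scalable A φ}
variable (Fk : IntermediateField (ResidueField A) (LaurentSeries (ResidueField A)))
variable (hFk : ∀ z : gaussSubring hφ, resMap hφ z ∈ Fk)

variable (A) in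
/-- The inertia group of `A`, acting on `F₀ ⊗ L`. -/
def inertiaSet : Set (SemilinearAut L (laurentBaseChange L F₀)) :=
  (arithmeticGalois F₀) '' (A.inertiaSubgroupIn ℚ : Set (L ≃ₐ[ℚ] L))

theorem inertiaSet_inv {g : SemilinearAut L (laurentBaseChange L F₀)}
    (hg : g ∈ inertiaSet A F₀) : g⁻¹ ∈ inertiaSet A F₀ := by
  obtain ⟨σ, hσ, rfl⟩ := hg
  exact ⟨σ⁻¹, (A.inertiaSubgroupIn ℚ).inv_mem hσ, map_inv _ _⟩

include hφv

/-- `isU_σ` for any `σ` in the decomposition group. -/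
theorem isU_smul_of_mem_decompositionSubgroup {σ : L ≃ₐ[ℚ] L}
    (hσ : σ ∈ A.decompositionSubgroup ℚ) {z : laurentBaseChange L F₀} (hz : IsU hφ z) :
    IsU hφ (arithmeticGalois F₀ σ • z) := by
  refine ⟨arithmeticGalois_smul_mem_gaussSubring F₀ hφv hφ hσ hz.mem, ?_⟩
  have h := resMap_arithmeticGalois_smul F₀ hφv hφ hσ ⟨z, hz.mem⟩
  rw [h]
  exact fun h0 => hz.resMap_ne_zero
    ((map_eq_zero_iff _ (coeffMap_injective (resAut_injective A ⟨σ, hσ⟩))).mp h0)

/-- field `isU_I`. -/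
theorem isU_I {g : SemilinearAut L (laurentBaseChange L F₀)} (hg : g ∈ inertiaSet A F₀)
    {z : laurentBaseChange L F₀} (hz : IsU hφ z) : IsU hφ (g • z) := by
  obtain ⟨σ, hσ, rfl⟩ := hg
  exact isU_smul_of_mem_decompositionSubgroup F₀ hφv
    (mem_decompositionSubgroup_of_mem_inertiaSubgroupIn A hσ) hz

/-- field `res_I`. -/
theorem res_I {g : SemilinearAut L (laurentBaseChange L F₀)} (hg : g ∈ inertiaSet A F₀)
    {z : laurentBaseChange L F₀} (hz : IsU hφ z) :
    resF hφ Fk hFk (g • z) = resF hφ Fk hFk z := by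
  have hgz := isU_I F₀ hφv hg hz
  obtain ⟨σ, hσ, rfl⟩ := hg
  rw [resF_of_mem hgz.mem, resF_of_mem hz.mem]
  refine Subtype.ext ?_
  exact resMap_arithmeticGalois_smul_of_mem_inertiaSubgroupIn F₀ hφv hφ hσ ⟨z, hz.mem⟩

/-- field `isU_Φ`. -/
theorem isU_Φ {Φ : L ≃ₐ[ℚ] L} {ℓ : ℕ} (hΦ : A.IsFrobeniusAt Φ ℓ)
    {z : laurentBaseChange L F₀} (hz : IsU hφ z) : IsU hφ (arithmeticGalois F₀ Φ • z) :=
  isU_smul_of_mem_decompositionSubgroup F₀ hφv hΦ.mem_decompositionSubgroup hz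

/-- field `res_Φ`, for any `Fr : Fk ≃+* Fk` which is the coefficientwise Frobenius. -/
theorem res_Φ {Φ : L ≃ₐ[ℚ] L} {ℓ : ℕ} [ExpChar (ResidueField A) ℓ] (hΦ : A.IsFrobeniusAt Φ ℓ)
    (Fr : Fk ≃+* Fk)
    (hFr : ∀ x : Fk, ((Fr x : Fk) : LaurentSeries (ResidueField A))
      = coeffMap (frobenius (ResidueField A) ℓ) (x : LaurentSeries (ResidueField A)))
    {z : laurentBaseChange L F₀} (hz : IsU hφ z) :
    resF hφ Fk hFk (arithmeticGalois F₀ Φ • z) = Fr (resF hφ Fk hFk z) := by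
  have hgz := isU_Φ F₀ hφv hΦ hz
  rw [resF_of_mem hgz.mem, resF_of_mem hz.mem]
  refine Subtype.ext ?_
  rw [hFr]
  exact resMap_arithmeticGalois_smul_of_isFrobeniusAt F₀ hφv hφ hΦ ⟨z, hz.mem⟩

end Galois

section ModularFr

variable {L : Type*} [Field L] [Algebra ℚ L] {A : ValuationSubring L}
variable (F₀ : IntermediateField ℚ (LaurentSeries ℚ))
variable {φ : laurentBaseChange L F₀ →+* LaurentSeries L}
variable (hφv : ∀ x : laurentBaseChange L F₀, φ x = (x : LaurentSeries L))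
variable {hφ : Scalable A φ} (M : ℕ)
variable (hFk : ∀ z : gaussSubring hφ,
  resMap hφ z ∈ modularFunctionFieldFullC (ResidueField A) M)

include hφv in
/-- field `res_Φ` with `Fk = F_{M,k}` and `Fr` the coefficientwise Frobenius
`Galois.coeffRingAut k M (frobeniusEquiv k ℓ)`. -/
theorem res_Φ_modular {Φ : L ≃ₐ[ℚ] L} {ℓ : ℕ} [ExpChar (ResidueField A) ℓ]
    [PerfectRing (ResidueField A) ℓ] (hΦ : A.IsFrobeniusAt Φ ℓ)
    {z : laurentBaseChange L F₀} (hz : IsU hφ z) :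
    resF hφ (modularFunctionFieldFullC (ResidueField A) M) hFk (arithmeticGalois F₀ Φ • z)
      = coeffRingAut (ResidueField A) M (frobeniusEquiv (ResidueField A) ℓ)
          (resF hφ (modularFunctionFieldFullC (ResidueField A) M) hFk z) :=
  res_Φ F₀ hφv _ hFk hΦ _ (fun _ => rfl) hz

end ModularFr

end Fermat.Agent.S37.Key.GaussUnits
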