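import Mathlib
import Fermat.Agent.S18.Gauss.ScalableFull
import Fermat.Agent.S37.Key.GaussUnits

/-!
# S37 (INST-U, concrete): Gauss units of `F_M ⊗ L` and their reduction to `F_{M,k}`

`GaussUnits.lean` instantiated with block D's unconditional inputs (`ScalableFull.scalable_full`,
`ScalableFull.range_resMap`): for a valuation subring `A` of `L` with residue field `k` of
characteristic `ℓ ∤ M`,

* `IsU M A hℓM z` : `z ∈ F_M ⊗ L` is a unit of the Gauss valuation subring;
* `res M A hℓM z : F_{M,k}` : its reduction (`0` outside the Gauss valuation subring);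

with all algebraic and Galois fields of `Key.Abstract.Interface` (`isU_*`, `res_*`, `I_inv`,
`isU_I`, `res_I`, `isU_Φ`, `res_Φ`), and surjectivity of `res` from units onto `F_{M,k} \ {0}`.
-/

set_option autoImplicit false

noncomputable section

open AlgebraicCurve ModularCurve IsLocalRing Fermat.Agent.S18.Gauss.Basic
open Fermat.Agent.S18.Gauss.ScalableFull Fermat.Agent.S37.Galois

namespace Fermat.Agent.S37.Key.GaussUnitsFull

variable {L : Type*} [Field L] [Algebra ℚ L] (M : ℕ) [NeZero M]
variable (A : ValuationSubring L) {ℓ : ℕ} [Fact ℓ.Prime] [CharP (ResidueField A) ℓ]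
variable (hℓM : ¬ ℓ ∣ M)

/-- residues of Gauss-integral functions lie in `F_{M,k}`. -/
theorem resMap_mem (z : gaussSubring (scalable_full M A hℓM)) :
    resMap (scalable_full M A hℓM) z ∈ modularFunctionFieldFullC (ResidueField A) M := by
  have h : resMap (scalable_full M A hℓM) z ∈ Set.range (resMap (scalable_full M A hℓM)) :=
    Set.mem_range_self z
  rw [range_resMap M A hℓM] at h
  exact h

/-- Gauss units of `F_M ⊗ L`. -/
def IsU (z : laurentBaseChange L (modularFunctionFieldFull M)) : Prop :=
  GaussUnits.IsU (scalable_full M A hℓM) z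

/-- reduction `F_M ⊗ L → F_{M,k}` (junk `0` outside the Gauss valuation subring). -/
def res (z : laurentBaseChange L (modularFunctionFieldFull M)) :
    modularFunctionFieldFullC (ResidueField A) M :=
  GaussUnits.resF (scalable_full M A hℓM) _ (resMap_mem M A hℓM) z

theorem isU_iff {z : laurentBaseChange L (modularFunctionFieldFull M)} :
    IsU M A hℓM z ↔ ∃ hz : z ∈ gaussSubring (scalable_full M A hℓM),
      resMap (scalable_full M A hℓM) ⟨z, hz⟩ ≠ 0 :=
  Iff.rfl

theorem coe_res_of_mem {z : laurentBaseChange L (modularFunctionFieldFull M)}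
    (hz : z ∈ gaussSubring (scalable_full M A hℓM)) :
    ((res M A hℓM z : modularFunctionFieldFullC (ResidueField A) M) :
        LaurentSeries (ResidueField A)) = resMap (scalable_full M A hℓM) ⟨z, hz⟩ :=
  GaussUnits.coe_resF_of_mem hz

/-- integral `q`-expansions reduce coefficientwise. -/
theorem coe_res_of_integral (y : LaurentSeries A)
    (hy : coeffMap A.subtype y ∈ laurentBaseChange L (modularFunctionFieldFull M)) :
    ((res M A hℓM ⟨coeffMap A.subtype y, hy⟩ : modularFunctionFieldFullC (ResidueField A) M) :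
        LaurentSeries (ResidueField A)) = coeffMap (residue A) y := by
  have hz : (⟨coeffMap A.subtype y, hy⟩ : laurentBaseChange L (modularFunctionFieldFull M))
      ∈ gaussSubring (scalable_full M A hℓM) := isInt_incl A y
  rw [coe_res_of_mem M A hℓM hz]
  exact resMap_of_incl (scalable_full M A hℓM) ⟨_, hz⟩ (P := y) rfl

theorem isU_one : IsU M A hℓM 1 := GaussUnits.isU_one _

theorem isU_mul {a b : laurentBaseChange L (modularFunctionFieldFull M)}
    (ha : IsU M A hℓM a) (hb : IsU M A hℓM b) : IsU M A hℓM (a * b) :=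
  GaussUnits.isU_mul ha hb

theorem isU_inv {a : laurentBaseChange L (modularFunctionFieldFull M)}
    (ha : IsU M A hℓM a) : IsU M A hℓM a⁻¹ :=
  GaussUnits.isU_inv ha

theorem isU_ne_zero {a : laurentBaseChange L (modularFunctionFieldFull M)}
    (ha : IsU M A hℓM a) : a ≠ 0 :=
  GaussUnits.isU_ne_zero ha

theorem res_one : res M A hℓM 1 = 1 := GaussUnits.res_one _ _ _

theorem res_mul {a b : laurentBaseChange L (modularFunctionFieldFull M)}
    (ha : IsU M A hℓM a) (hb : IsU M A hℓM b) :
    res M A hℓM (a * b) = res M A hℓM a * res M A hℓM b :=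
  GaussUnits.res_mul _ _ ha hb

theorem res_inv {a : laurentBaseChange L (modularFunctionFieldFull M)}
    (ha : IsU M A hℓM a) : res M A hℓM a⁻¹ = (res M A hℓM a)⁻¹ :=
  GaussUnits.res_inv _ _ ha

theorem res_ne_zero {a : laurentBaseChange L (modularFunctionFieldFull M)}
    (ha : IsU M A hℓM a) : res M A hℓM a ≠ 0 :=
  GaussUnits.res_ne_zero _ _ ha

/-- every nonzero element of `F_{M,k}` is the reduction of a Gauss unit. -/
theorem exists_isU_res_eq (y : modularFunctionFieldFullC (ResidueField A) M) (hy : y ≠ 0) :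
    ∃ z, IsU M A hℓM z ∧ res M A hℓM z = y := by
  have h : (y : LaurentSeries (ResidueField A))
      ∈ Set.range (resMap (scalable_full M A hℓM)) := by
    rw [range_resMap M A hℓM]
    exact y.2
  obtain ⟨z, hz⟩ := h
  have hne : resMap (scalable_full M A hℓM) ⟨(z : _), z.2⟩ ≠ 0 := by
    rw [show (⟨(z : laurentBaseChange L (modularFunctionFieldFull M)), z.2⟩ :
      gaussSubring (scalable_full M A hℓM)) = z from rfl, hz]
    exact fun h0 => hy (Subtype.ext h0)
  refine ⟨z, ⟨z.2, hne⟩, Subtype.ext ?_⟩
  rw [coe_res_of_mem M A hℓM z.2]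
  exact hz

/-- the inertia set -/
abbrev inertiaSet : Set (SemilinearAut L (laurentBaseChange L (modularFunctionFieldFull M))) :=
  GaussUnits.inertiaSet A (modularFunctionFieldFull M)

omit [NeZero M] [Fact ℓ.Prime] [CharP (ResidueField A) ℓ] in
theorem I_inv {g : SemilinearAut L (laurentBaseChange L (modularFunctionFieldFull M))}
    (hg : g ∈ inertiaSet M A) : g⁻¹ ∈ inertiaSet M A :=
  GaussUnits.inertiaSet_inv _ hg

theorem isU_I {g : SemilinearAut L (laurentBaseChange L (modularFunctionFieldFull M))}
    (hg : g ∈ inertiaSet M A) {z : laurentBaseChange L (modularFunctionFieldFull M)}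
    (hz : IsU M A hℓM z) : IsU M A hℓM (g • z) :=
  GaussUnits.isU_I _ (fun _ => rfl) hg hz

theorem res_I {g : SemilinearAut L (laurentBaseChange L (modularFunctionFieldFull M))}
    (hg : g ∈ inertiaSet M A) {z : laurentBaseChange L (modularFunctionFieldFull M)}
    (hz : IsU M A hℓM z) : res M A hℓM (g • z) = res M A hℓM z :=
  GaussUnits.res_I _ (fun _ => rfl) _ _ hg hz

theorem isU_Φ {Φ : L ≃ₐ[ℚ] L} (hΦ : A.IsFrobeniusAt Φ ℓ)
    {z : laurentBaseChange L (modularFunctionFieldFull M)} (hz : IsU M A hℓM z) :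
    IsU M A hℓM (arithmeticGalois (modularFunctionFieldFull M) Φ • z) :=
  GaussUnits.isU_Φ _ (fun _ => rfl) hΦ hz

/-- the coefficientwise Frobenius of `F_{M,k}` -/
abbrev Fr [PerfectRing (ResidueField A) ℓ] :
    modularFunctionFieldFullC (ResidueField A) M ≃+* modularFunctionFieldFullC (ResidueField A) M :=
  coeffRingAut (ResidueField A) M (frobeniusEquiv (ResidueField A) ℓ)

theorem res_Φ [PerfectRing (ResidueField A) ℓ] {Φ : L ≃ₐ[ℚ] L} (hΦ : A.IsFrobeniusAt Φ ℓ)
    {z : laurentBaseChange L (modularFunctionFieldFull M)} (hz : IsU M A hℓM z) :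
    res M A hℓM (arithmeticGalois (modularFunctionFieldFull M) Φ • z)
      = Fr M A (ℓ := ℓ) (res M A hℓM z) :=
  GaussUnits.res_Φ_modular _ (fun _ => rfl) M _ hΦ hz

end Fermat.Agent.S37.Key.GaussUnitsFull
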