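import Mathlib
import Fermat.Agent.S37.Key.GaussUnitsFull
import Fermat.Agent.S37.Kron.GaussNormModular

/-!
# S37 (INST-U, Hecke-norm part): `isU_Nm`, `res_Nm` of `Key.AbstractGood.Interface`

With `IsU`/`res`/`Fr` of `Key/GaussUnitsFull.lean` and `Nm := GaussNormModular.heckeNorm M ℓ`
(`z ↦ N_α(β z)`): Gauss units are preserved and
`res (Nm z) = Fr (res z) * (Fr.symm (res z)) ^ ℓ` (helper24's Kronecker congruence
`GaussNormModular.heckeNorm_gaussUnit`, bridged from `coeffFrob` on `k((q))` to `Fr` on `F_{M,k}`).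
(`ord_Nm`, `exists_div` are in helper24's `Key/HeckeNormDiv.lean`.)
-/

set_option autoImplicit false

noncomputable section

open AlgebraicCurve ModularCurve IsLocalRing Fermat.Agent.S18.Gauss.Basic
open Fermat.Agent.S18.Gauss.ScalableFull Fermat.Agent.S37.Galois
open Fermat.Agent.S24.BridgeInv (Kbar FF)
open Fermat.Agent.S37.Kron.GaussNormModular Fermat.Agent.S37.Kron.GaussNorm
open Fermat.Agent.S37.Key.GaussUnitsFull

namespace Fermat.Agent.S37.Key.HeckeNormFields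

section Modular

variable (M ℓ : ℕ) [NeZero M] [NeZero ℓ]

variable (A : ValuationSubring Kbar) [Fact ℓ.Prime] [CharP (ResidueField A) ℓ]
variable (hℓM : ¬ ℓ ∣ M)

/-- field `isU_Nm`. -/
theorem isU_Nm (hA : A.LiesOverPrime ℓ) {z : FF M} (hz : IsU M A hℓM z) :
    IsU M A hℓM (heckeNorm M ℓ z) := by
  obtain ⟨hn, h1, -⟩ := heckeNorm_gaussUnit M ℓ A Fact.out hℓM hA (fun _ => rfl)
    (scalable_full M A hℓM) z hz.1 hz.2
  exact ⟨hn, h1⟩

/-- field `res_Nm`. -/
theorem res_Nm [PerfectRing (ResidueField A) ℓ] (hA : A.LiesOverPrime ℓ) {z : FF M}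
    (hz : IsU M A hℓM z) :
    res M A hℓM (heckeNorm M ℓ z)
      = Fr M A (ℓ := ℓ) (res M A hℓM z) * ((Fr M A (ℓ := ℓ)).symm (res M A hℓM z)) ^ ℓ := by
  obtain ⟨hn, h1, h2⟩ := heckeNorm_gaussUnit M ℓ A Fact.out hℓM hA (fun _ => rfl)
    (scalable_full M A hℓM) z hz.1 hz.2
  have h3 := eq_frob_mul_of_qExpand_eq ℓ _ _ h2
  refine Subtype.ext ?_
  rw [coe_res_of_mem M A hℓM hn, h3, MulMemClass.coe_mul, SubmonoidClass.coe_pow,
    ← coe_res_of_mem M A hℓM hz.1]
  rfl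

end Modular

end Fermat.Agent.S37.Key.HeckeNormFields
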