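import Mathlib
import Fermat.Agent.S37.Key.AbstractGood
import Fermat.Agent.S37.Key.HeckeNormFields
import Fermat.Agent.S37.Key.HeckeNormDiv

/-!
# S37 (INST): the concrete `AbstractGood.Interface` at level `M`, modulo the geometric fields

`interfaceOf` builds `Key.AbstractGood.Interface ℚ̄ F_M F_{M,k} Q` from

* the arithmetic data: a valuation subring `A` of `ℚ̄` over `ℓ ∤ M`, a Frobenius lift `Φ` at `A`;
* the GEOMETRIC fields still to be supplied (support control + local equations):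
  `ordQ`, `Thr`, `Good`, `thr_I`, `exists_good`, `thr_Φ`, `thr_T`, `localEq`, `unit`.

All other 20 fields are filled in: `IsU`/`res` (`GaussUnitsFull`), inertia set, `Φ`, `Fr`
(coefficientwise Frobenius of `F_{M,k}`), `Tdiv = heckeDivBar`, `Nm = heckeNorm` with
`isU_*`, `res_*`, `I_inv`, `isU_I`, `res_I`, `isU_Φ`, `res_Φ`, `isU_Nm`, `res_Nm`, `ord_Nm`,
`exists_div`.  The projections `I`, `Φ`, `Tdiv`, `ℓ`, `IsU`, `res`, `Fr`, `Nm` are `rfl`-lemmas.
-/

set_option autoImplicit false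

noncomputable section

open AlgebraicCurve ModularCurve IsLocalRing
open Fermat.Agent.S24.BridgeInv (Kbar FF)
open Fermat.Agent.S37.HeckeInputs Fermat.Agent.S37.Kron.GaussNormModular
open Fermat.Agent.S37.Key

namespace Fermat.Agent.S37.Key.InterfaceOf

variable (M ℓ : ℕ) [NeZero M] [NeZero ℓ]
variable (A : ValuationSubring Kbar) [Fact ℓ.Prime] [CharP (ResidueField A) ℓ]
  [PerfectRing (ResidueField A) ℓ]
variable (hℓM : ¬ ℓ ∣ M) (hA : A.LiesOverPrime ℓ)
variable {Φ : Kbar ≃ₐ[ℚ] Kbar} (hΦ : A.IsFrobeniusAt Φ ℓ)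

/-- the Hecke correspondence `T_ℓ` on divisors of `F_M` (with all side conditions discharged) -/
def Tdiv : Divisor Kbar (FF M) →+ Divisor Kbar (FF M) :=
  haveI := hasPrincipalDivisors_bar (M * ℓ)
  heckeDivBar (heckeAlphaBarIntegral M ℓ) (heckeBetaBarIntegral M ℓ)

omit [Fact (Nat.Prime ℓ)] in
theorem Tdiv_eq [HasPrincipalDivisors Kbar (FF (M * ℓ))]
    (hα : HeckeAlphaBarIntegral Kbar M ℓ) (hβ : HeckeBetaBarIntegral Kbar M ℓ) :
    Tdiv M ℓ = heckeDivBar hα hβ :=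
  rfl

variable {Q : Type*}

/-- **The concrete interface**, from the geometric fields. -/
def interfaceOf
    (ordQ : Q → modularFunctionFieldFullC (ResidueField A) M → ℤ)
    (Thr : Finset Q → Place Kbar (FF M) → Prop) (Good : Finset Q → Prop)
    (thr_I : ∀ {σ}, σ ∈ GaussUnitsFull.inertiaSet M A → ∀ {T : Finset Q}, Good T →
      ∀ P : Place Kbar (FF M), Thr T (σ • P) ↔ Thr T P)
    (exists_good : ∀ Q₀ : Q, ∃ T : Finset Q, Q₀ ∈ T ∧ Good T)
    (thr_Φ : ∀ {T}, Good T → ∀ P : Place Kbar (FF M),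
      Thr T (arithmeticGalois (modularFunctionFieldFull M) Φ • P) ↔ Thr T P)
    (thr_T : ∀ {T}, Good T → ∀ P P' : Place Kbar (FF M),
      Tdiv M ℓ (Finsupp.single P 1) P' ≠ 0 → Thr T P' → Thr T P)
    (localEq : ∀ {T : Finset Q}, Good T → ∀ P : Place Kbar (FF M), Thr T P →
      ∃ g : FF M, GaussUnitsFull.IsU M A hℓM g ∧ P.ord g = 1 ∧
        ∀ P' : Place Kbar (FF M), P' ≠ P → Thr T P' → P'.ord g = 0)
    (unit : ∀ {T : Finset Q}, Good T → ∀ z : FF M, GaussUnitsFull.IsU M A hℓM z →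
      (∀ P, Thr T P → P.ord z = 0) → ∀ Q₀ ∈ T, ordQ Q₀ (GaussUnitsFull.res M A hℓM z) = 0) :
    AbstractGood.Interface Kbar (FF M) (modularFunctionFieldFullC (ResidueField A) M) Q where
  IsU := GaussUnitsFull.IsU M A hℓM
  res := GaussUnitsFull.res M A hℓM
  ordQ := ordQ
  Thr := Thr
  Good := Good
  I := GaussUnitsFull.inertiaSet M A
  Φ := arithmeticGalois (modularFunctionFieldFull M) Φ
  Fr := GaussUnitsFull.Fr M A (ℓ := ℓ)
  Tdiv := Tdiv M ℓ
  Nm := heckeNorm M ℓ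
  ℓ := ℓ
  isU_one := GaussUnitsFull.isU_one M A hℓM
  isU_mul := GaussUnitsFull.isU_mul M A hℓM
  isU_inv := GaussUnitsFull.isU_inv M A hℓM
  isU_ne_zero := GaussUnitsFull.isU_ne_zero M A hℓM
  res_one := GaussUnitsFull.res_one M A hℓM
  res_mul := GaussUnitsFull.res_mul M A hℓM
  res_inv := GaussUnitsFull.res_inv M A hℓM
  res_ne_zero := GaussUnitsFull.res_ne_zero M A hℓM
  I_inv := GaussUnitsFull.I_inv M A
  isU_I := fun hσ _ hz => GaussUnitsFull.isU_I M A hℓM hσ hz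
  res_I := fun hσ _ hz => GaussUnitsFull.res_I M A hℓM hσ hz
  isU_Φ := GaussUnitsFull.isU_Φ M A hℓM hΦ
  res_Φ := GaussUnitsFull.res_Φ M A hℓM hΦ
  isU_Nm := HeckeNormFields.isU_Nm M ℓ A hℓM hA
  res_Nm := HeckeNormFields.res_Nm M ℓ A hℓM hA
  ord_Nm := fun _ hz _ hD P => HeckeNormDiv.heckeDivBar_apply_eq_ord M ℓ hz hD P
  exists_div := fun _ hz => HeckeNormDiv.exists_div M hz
  thr_I := thr_I
  exists_good := exists_good
  thr_Φ := thr_Φ
  thr_T := thr_T
  localEq := localEq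
  unit := unit

section Projections

variable
    (ordQ : Q → modularFunctionFieldFullC (ResidueField A) M → ℤ)
    (Thr : Finset Q → Place Kbar (FF M) → Prop) (Good : Finset Q → Prop)
    (thr_I : ∀ {σ}, σ ∈ GaussUnitsFull.inertiaSet M A → ∀ {T : Finset Q}, Good T →
      ∀ P : Place Kbar (FF M), Thr T (σ • P) ↔ Thr T P)
    (exists_good : ∀ Q₀ : Q, ∃ T : Finset Q, Q₀ ∈ T ∧ Good T)
    (thr_Φ : ∀ {T}, Good T → ∀ P : Place Kbar (FF M),
      Thr T (arithmeticGalois (modularFunctionFieldFull M) Φ • P) ↔ Thr T P)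
    (thr_T : ∀ {T}, Good T → ∀ P P' : Place Kbar (FF M),
      Tdiv M ℓ (Finsupp.single P 1) P' ≠ 0 → Thr T P' → Thr T P)
    (localEq : ∀ {T : Finset Q}, Good T → ∀ P : Place Kbar (FF M), Thr T P →
      ∃ g : FF M, GaussUnitsFull.IsU M A hℓM g ∧ P.ord g = 1 ∧
        ∀ P' : Place Kbar (FF M), P' ≠ P → Thr T P' → P'.ord g = 0)
    (unit : ∀ {T : Finset Q}, Good T → ∀ z : FF M, GaussUnitsFull.IsU M A hℓM z →
      (∀ P, Thr T P → P.ord z = 0) → ∀ Q₀ ∈ T, ordQ Q₀ (GaussUnitsFull.res M A hℓM z) = 0)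

@[simp] theorem interfaceOf_I :
    (interfaceOf M ℓ A hℓM hA hΦ ordQ Thr Good thr_I exists_good thr_Φ thr_T localEq unit).I
      = GaussUnitsFull.inertiaSet M A := rfl

@[simp] theorem interfaceOf_Φ :
    (interfaceOf M ℓ A hℓM hA hΦ ordQ Thr Good thr_I exists_good thr_Φ thr_T localEq unit).Φ
      = arithmeticGalois (modularFunctionFieldFull M) Φ := rfl

@[simp] theorem interfaceOf_Tdiv :
    (interfaceOf M ℓ A hℓM hA hΦ ordQ Thr Good thr_I exists_good thr_Φ thr_T localEq unit).Tdiv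
      = Tdiv M ℓ := rfl

@[simp] theorem interfaceOf_ℓ :
    (interfaceOf M ℓ A hℓM hA hΦ ordQ Thr Good thr_I exists_good thr_Φ thr_T localEq unit).ℓ
      = ℓ := rfl

@[simp] theorem interfaceOf_IsU :
    (interfaceOf M ℓ A hℓM hA hΦ ordQ Thr Good thr_I exists_good thr_Φ thr_T localEq unit).IsU
      = GaussUnitsFull.IsU M A hℓM := rfl

@[simp] theorem interfaceOf_res :
    (interfaceOf M ℓ A hℓM hA hΦ ordQ Thr Good thr_I exists_good thr_Φ thr_T localEq unit).res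
      = GaussUnitsFull.res M A hℓM := rfl

@[simp] theorem interfaceOf_ordQ :
    (interfaceOf M ℓ A hℓM hA hΦ ordQ Thr Good thr_I exists_good thr_Φ thr_T localEq unit).ordQ
      = ordQ := rfl

/-- **KEY at level `M`**, unfolded: if `u` is a Gauss unit whose divisor is `m • E` with `E` in the
subgroup `W` generated by `σ P - P` (`σ` inertia) and `Φ²P - T_ℓ(ΦP) + ℓ P`, then the reduction of
`u` has `ordQ = 0` everywhere. -/
theorem ordQ_res_eq_zero {E : Divisor Kbar (FF M)}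
    (hE : E ∈ (interfaceOf M ℓ A hℓM hA hΦ ordQ Thr Good thr_I exists_good thr_Φ thr_T localEq
      unit).W) (m : ℕ) {u : FF M} (hu : GaussUnitsFull.IsU M A hℓM u)
    (hdiv : ∀ P : Place Kbar (FF M), P.ord u = (m : ℤ) * E P) (Q₀ : Q) :
    ordQ Q₀ (GaussUnitsFull.res M A hℓM u) = 0 :=
  AbstractGood.Interface.ordQ_res_eq_zero _ hE m hu hdiv Q₀

end Projections

end Fermat.Agent.S37.Key.InterfaceOf
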