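import Mathlib
import Fermat.Agent.S37.Key.InterfaceOf
import Fermat.Agent.S37.Key.Final

/-!
# S37 (INST): `Final.LevelKey` from the concrete interface

`Final.LevelKey M A hℓM W` (the hypothesis `hKey` of `Final.divisor_key`) holds for
`W := (InterfaceOf.interfaceOf …).W`, with `Q := Place k F_{M,k}` and `ordQ Q₀ y := Q₀.ord y`,
as soon as the 8 remaining geometric fields (`Thr`, `Good`, `thr_I`, `exists_good`, `thr_Φ`,
`thr_T`, `localEq`, `unit`) are supplied.
-/

set_option autoImplicit false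

noncomputable section

open AlgebraicCurve ModularCurve IsLocalRing
open Fermat.Agent.S24.BridgeInv (Kbar FF)
open Fermat.Agent.S37.Key Fermat.Agent.S37.Key.InterfaceOf

namespace Fermat.Agent.S37.Key.LevelKeyOf

set_option synthInstance.maxHeartbeats 400000

variable (M ℓ : ℕ) [NeZero M] [NeZero ℓ]
variable (A : ValuationSubring Kbar) [Fact ℓ.Prime] [CharP (ResidueField A) ℓ]
  [PerfectRing (ResidueField A) ℓ]
variable (hℓM : ¬ ℓ ∣ M) (hA : A.LiesOverPrime ℓ)
variable {Φ : Kbar ≃ₐ[ℚ] Kbar} (hΦ : A.IsFrobeniusAt Φ ℓ)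

/-- the order function on the special fibre -/
def ordQ (Q₀ : Place (ResidueField A) (modularFunctionFieldFullC (ResidueField A) M))
    (y : modularFunctionFieldFullC (ResidueField A) M) : ℤ :=
  Q₀.ord y

variable
    (Thr : Finset (Place (ResidueField A) (modularFunctionFieldFullC (ResidueField A) M)) →
      Place Kbar (FF M) → Prop)
    (Good : Finset (Place (ResidueField A) (modularFunctionFieldFullC (ResidueField A) M)) → Prop)
    (thr_I : ∀ {σ}, σ ∈ GaussUnitsFull.inertiaSet M A → ∀ {T}, Good T →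
      ∀ P : Place Kbar (FF M), Thr T (σ • P) ↔ Thr T P)
    (exists_good : ∀ Q₀, ∃ T, Q₀ ∈ T ∧ Good T)
    (thr_Φ : ∀ {T}, Good T → ∀ P : Place Kbar (FF M),
      Thr T (arithmeticGalois (modularFunctionFieldFull M) Φ • P) ↔ Thr T P)
    (thr_T : ∀ {T}, Good T → ∀ P P' : Place Kbar (FF M),
      Tdiv M ℓ (Finsupp.single P 1) P' ≠ 0 → Thr T P' → Thr T P)
    (localEq : ∀ {T}, Good T → ∀ P : Place Kbar (FF M), Thr T P →
      ∃ g : FF M, GaussUnitsFull.IsU M A hℓM g ∧ P.ord g = 1 ∧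
        ∀ P' : Place Kbar (FF M), P' ≠ P → Thr T P' → P'.ord g = 0)
    (unit : ∀ {T}, Good T → ∀ z : FF M, GaussUnitsFull.IsU M A hℓM z →
      (∀ P, Thr T P → P.ord z = 0) → ∀ Q₀ ∈ T, ordQ M A Q₀ (GaussUnitsFull.res M A hℓM z) = 0)

/-- **`LevelKey` at level `M`** for the subgroup `W` of the concrete interface. -/
theorem levelKey :
    Final.LevelKey M A hℓM
      (interfaceOf M ℓ A hℓM hA hΦ (ordQ M A) Thr Good thr_I exists_good thr_Φ thr_T localEq
        unit).W := by
  intro E hE m u hu hne hdiv hmem Q₀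
  have h := InterfaceOf.ordQ_res_eq_zero M ℓ A hℓM hA hΦ (ordQ M A) Thr Good thr_I exists_good
    thr_Φ thr_T localEq unit hE m (u := u) ⟨hu, hne⟩ hdiv Q₀
  have e : GaussUnitsFull.res M A hℓM u = ⟨_, hmem⟩ :=
    Subtype.ext (GaussUnitsFull.coe_res_of_mem M A hℓM hu)
  rw [e] at h
  exact h

end Fermat.Agent.S37.Key.LevelKeyOf
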