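import Mathlib
import Fermat.Agent.S37.Key.LevelKeyOf
import Fermat.Agent.S37.Key.PullbackW

/-!
# S37 (INST): `Final.LevelKey` for `DivisorForm.WDiv` at level `M` from the 8 geometric fields

This is exactly the second component of `Frozen.LocalInput`:
`LevelKey M A hℓM (WDiv (heckeAlphaBarIntegral M ℓ) (heckeBetaBarIntegral M ℓ) A Φ)`,
obtained from `LevelKeyOf.levelKey` and helper24's `PullbackW.WDiv_eq_W`.
-/

set_option autoImplicit false

noncomputable section

open AlgebraicCurve ModularCurve IsLocalRing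
open Fermat.Agent.S24.BridgeInv (Kbar FF)
open Fermat.Agent.S37.HeckeInputs
open Fermat.Agent.S37.Key Fermat.Agent.S37.Key.InterfaceOf Fermat.Agent.S37.Key.LevelKeyOf
open Fermat.Agent.S37.Key.DivisorForm

namespace Fermat.Agent.S37.Key.LevelKeyWDiv

set_option synthInstance.maxHeartbeats 400000

variable (M ℓ : ℕ) [NeZero M] [NeZero ℓ]
variable (A : ValuationSubring Kbar) [Fact ℓ.Prime] [CharP (ResidueField A) ℓ]
  [PerfectRing (ResidueField A) ℓ]
variable (hℓM : ¬ ℓ ∣ M) (hA : A.LiesOverPrime ℓ)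
variable {Φ : Kbar ≃ₐ[ℚ] Kbar} (hΦ : A.IsFrobeniusAt Φ ℓ)

variable
    (Thr : Finset (Place (ResidueField A) (modularFunctionFieldFullC (ResidueField A) M)) →
      Place Kbar (FF M) → Prop)
    (Good : Finset (Place (ResidueField A) (modularFunctionFieldFullC (ResidueField A) M)) → Prop)
    (thr_I : ∀ {σ}, σ ∈ GaussUnitsFull.inertiaSet M A → ∀ {T}, Good T →
      ∀ P : Place Kbar (FF M), Thr T (σ • P) ↔ Thr T P)
    (exists_good : ∀ Q₀, ∃ T, Q₀ ∈ T ∧ Good T)
    (thr_Φ : ∀ {T}, Good T → ∀ P : Place Kbar (FF M),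
      Thr T (arithmeticGalois (modularFunctionFieldFull M) Φ • P) ↔ Thr T P)
    (thr_T : ∀ {T}, Good T → ∀ P P' : Place Kbar (FF M),
      Tdiv M ℓ (Finsupp.single P 1) P' ≠ 0 → Thr T P' → Thr T P)
    (localEq : ∀ {T}, Good T → ∀ P : Place Kbar (FF M), Thr T P →
      ∃ g : FF M, GaussUnitsFull.IsU M A hℓM g ∧ P.ord g = 1 ∧
        ∀ P' : Place Kbar (FF M), P' ≠ P → Thr T P' → P'.ord g = 0)
    (unit : ∀ {T}, Good T → ∀ z : FF M, GaussUnitsFull.IsU M A hℓM z →
      (∀ P, Thr T P → P.ord z = 0) → ∀ Q₀ ∈ T, ordQ M A Q₀ (GaussUnitsFull.res M A hℓM z) = 0)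

include hA hΦ thr_I exists_good thr_Φ thr_T localEq unit in
/-- **`LevelKey` for `WDiv` at level `M`** (second component of `Frozen.LocalInput`). -/
theorem levelKey_WDiv :
    haveI := hasPrincipalDivisors_bar (M * ℓ)
    Final.LevelKey M A hℓM
      (WDiv (heckeAlphaBarIntegral M ℓ) (heckeBetaBarIntegral M ℓ) A Φ) := by
  have := hasPrincipalDivisors_bar (M * ℓ)
  have h := levelKey M ℓ A hℓM hA hΦ Thr Good thr_I exists_good thr_Φ thr_T localEq unit
  rw [← PullbackW.WDiv_eq_W (heckeAlphaBarIntegral M ℓ) (heckeBetaBarIntegral M ℓ)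
    (interfaceOf M ℓ A hℓM hA hΦ (ordQ M A) Thr Good thr_I exists_good thr_Φ thr_T localEq unit)
    A Φ rfl rfl rfl rfl] at h
  exact h

end Fermat.Agent.S37.Key.LevelKeyWDiv
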