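import Mathlib
import Fermat.Agent.S37.Key.Frozen
import Fermat.Agent.S37.Key.LevelKeyWDiv
import Fermat.Agent.S37.Key.Level
import Fermat.Agent.S37.Support.ThrTK

/-!
# S37 (MAIN): `Frozen.LocalInput` from `Star` (block G) and the two local fields (LE)/(UN)

`levelKey_of_LE_UN`: the local KEY `Final.LevelKey` for `WDiv` at a level `M` prime to `ℓ`, from
the `ThrS`-forms of the two remaining geometric fields (local equations (LE), unit criterion (UN));
all support-control fields are discharged by `Support/ThrTK`.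

`localInput_of`: `Frozen.LocalInput N p ℓ A Φ` at the auxiliary level `M := Level.auxLevel N ℓ`.
-/

set_option autoImplicit false

noncomputable section

namespace Fermat.Agent.S37.Key.Main

open AlgebraicCurve ModularCurve IsLocalRing
open Fermat.Agent.S24 Fermat.Agent.S24.BridgeInv
open Fermat.Agent.S18.Trans
open Fermat.Agent.S37.HeckeInputs
open Fermat.Agent.S37.Key Fermat.Agent.S37.Key.DivisorForm Fermat.Agent.S37.Key.Final
open Fermat.Agent.S37.Support Fermat.Agent.S37.Support.ThrS Fermat.Agent.S37.Support.ThrT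
  Fermat.Agent.S37.Support.ThrTK

set_option synthInstance.maxHeartbeats 400000

/-- the `ThrS`-form of the local-equation field (LE) at level `M`. -/
def LEForm (M ℓ : ℕ) [NeZero M] (A : ValuationSubring Kbar) [Fact ℓ.Prime]
    [CharP (ResidueField A) ℓ] (hℓM : ¬ ℓ ∣ M) : Prop :=
  ∀ S : Finset (Option (ResidueField A)), FrobStable A ℓ (↑S) →
    ∀ P : Place Kbar (FF M), ThrS M A (↑S) P →
      ∃ g : FF M, GaussUnitsFull.IsU M A hℓM g ∧ P.ord g = 1 ∧
        ∀ P' : Place Kbar (FF M), P' ≠ P → ThrS M A (↑S) P' → P'.ord g = 0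

/-- the `ThrS`-form of the unit-criterion field (UN) at level `M`. -/
def UNForm (M ℓ : ℕ) [NeZero M] (A : ValuationSubring Kbar) [Fact ℓ.Prime]
    [CharP (ResidueField A) ℓ] (hℓM : ¬ ℓ ∣ M) : Prop :=
  ∀ S : Finset (Option (ResidueField A)), FrobStable A ℓ (↑S) →
    ∀ z : FF M, GaussUnitsFull.IsU M A hℓM z →
      (∀ P : Place Kbar (FF M), ThrS M A (↑S) P → P.ord z = 0) →
      ∀ Q₀ : Place (ResidueField A) (modularFunctionFieldFullC (ResidueField A) M),
        vK (ResidueField A) M Q₀ ∈ S → Q₀.ord (GaussUnitsFull.res M A hℓM z) = 0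

/-- **`LevelKey` for `WDiv` at level `M`** from (LE) and (UN). -/
theorem levelKey_of_LE_UN (M ℓ : ℕ) [NeZero M] [hℓ : Fact ℓ.Prime] [NeZero ℓ]
    (A : ValuationSubring Kbar) [CharP (ResidueField A) ℓ] (hℓM : ¬ ℓ ∣ M)
    (hA : A.LiesOverPrime ℓ) {Φ : Kbar ≃ₐ[ℚ] Kbar} (hΦ : A.IsFrobeniusAt Φ ℓ)
    (hLE : LEForm M ℓ A hℓM) (hUN : UNForm M ℓ A hℓM) :
    haveI := hasPrincipalDivisors_bar (M * ℓ)
    LevelKey M A hℓM (WDiv (heckeAlphaBarIntegral M ℓ) (heckeBetaBarIntegral M ℓ) A Φ) := by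
  have := hasPrincipalDivisors_bar (M * ℓ)
  have hperf : PerfectRing (ResidueField A) ℓ :=
    Fermat.Agent.S37.Galois.perfectRing_of_isFrobeniusAt A hΦ
  have hsurj : Function.Surjective (vK (ResidueField A) M) := vK_surjective hℓM
  refine LevelKeyWDiv.levelKey_WDiv M ℓ A hℓM hA hΦ (Thr M A) (Good M A ℓ)
    ?_ (exists_good hℓ.out hℓM hA) ?_ ?_ ?_ ?_
  · rintro _ ⟨σ, hσ, rfl⟩ T hT P
    exact thr_I hℓ.out hℓM hA hT hσ P
  · intro T hT P
    exact thr_Φ hℓ.out hℓM hA hT hΦ P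
  · intro T hT P P' h hP'
    exact thr_T hℓ.out hℓM hA hT (heckeAlphaBarIntegral M ℓ) (heckeBetaBarIntegral M ℓ) P P' h hP'
  · intro T hT P hP
    exact localEq_of hsurj (GaussUnitsFull.IsU M A hℓM) hLE hT P hP
  · intro T hT z hz h0
    exact unit_of hsurj (GaussUnitsFull.IsU M A hℓM) (GaussUnitsFull.res M A hℓM)
      (LevelKeyOf.ordQ M A) hUN hT z hz h0

/-- **`Frozen.LocalInput`** at the auxiliary level `Level.auxLevel N ℓ`. -/
theorem localInput_of (N p ℓ : ℕ) [NeZero N] [hℓ : Fact ℓ.Prime]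
    (A : ValuationSubring Kbar) [CharP (ResidueField A) ℓ] (hℓN : ¬ ℓ ∣ N)
    (hA : A.LiesOverPrime ℓ) {Φ : Kbar ≃ₐ[ℚ] Kbar} (hΦ : A.IsFrobeniusAt Φ ℓ)
    (hStar : ∀ n : ℕ, Star A N (p ^ n))
    (hLE : LEForm (Level.auxLevel N ℓ) ℓ A (Level.not_dvd_auxLevel hℓ.out hℓN))
    (hUN : UNForm (Level.auxLevel N ℓ) ℓ A (Level.not_dvd_auxLevel hℓ.out hℓN)) :
    Frozen.LocalInput N p ℓ A Φ := by
  have : NeZero ℓ := ⟨hℓ.out.ne_zero⟩
  exact ⟨hStar, Level.auxLevel N ℓ, inferInstance, Level.dvd_auxLevel N ℓ,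
    Level.not_dvd_auxLevel hℓ.out hℓN,
    levelKey_of_LE_UN (Level.auxLevel N ℓ) ℓ A (Level.not_dvd_auxLevel hℓ.out hℓN) hA hΦ hLE hUN⟩

end Fermat.Agent.S37.Key.Main

end
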