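import Mathlib
import Fermat.Agent.S37.Key.GaussUnitsFull
import Fermat.Agent.S24.PlaceAt

/-!
# S37 (INST-R): the reduction map `res` on explicit elements

On top of `Key/GaussUnitsFull.lean` (`IsU`, `res : F_M ⊗ L → F_{M,k}`):

* `gaussVS M A hℓM` : the Gauss valuation subring of `F_M ⊗ L`, and the RING HOMOMORPHISM
  `resHom : gaussVS →+* F_{M,k}` with `res z = resHom ⟨z, hz⟩`; additivity of `res`;
* constants: `res (algebraMap a) = algebraMap (residue a)` for `a ∈ A`;
* `res` commutes with `aeval` of polynomials over `A`;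
* elements with `q`-expansion `j(q^d)`: `res = j̄(q^d)`; in particular for `L = ℚ̄`:
  `res (J M) = Jbar`, `IsU (J - b)`, `res (J - b) = Jbar - b̄`, and for `τ_b := (J - b)⁻¹`:
  `IsU τ_b`, `res τ_b = (Jbar - b̄)⁻¹`.
-/

set_option autoImplicit false

noncomputable section

open AlgebraicCurve ModularCurve IsLocalRing Polynomial Fermat.Agent.S18.Gauss.Basic
open Fermat.Agent.S18.Gauss.ScalableFull Fermat.Agent.S37.Galois
open Fermat.Agent.S37.Key.GaussUnitsFull

namespace Fermat.Agent.S37.Key.ResExplicit

/-- Shortcut instance (syntactically the instance Lean finds, but found without the expensive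
search through the `ResidueField` algebra instances when `k = ResidueField A`). -/
scoped instance instAlgebraFullC (k : Type*) [Field k] (M : ℕ) :
    Algebra k ↥(modularFunctionFieldFullC k M) :=
  SubalgebraClass.toAlgebra _

section General

variable {L : Type*} [Field L] [Algebra ℚ L] (M : ℕ) [NeZero M]
variable (A : ValuationSubring L) {ℓ : ℕ} [Fact ℓ.Prime] [CharP (ResidueField A) ℓ]
variable (hℓM : ¬ ℓ ∣ M)

/-- the Gauss valuation subring of `F_M ⊗ L` -/
def gaussVS : ValuationSubring (laurentBaseChange L (modularFunctionFieldFull M)) :=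
  gaussSubring (scalable_full M A hℓM)

theorem mem_gaussVS_iff {z : laurentBaseChange L (modularFunctionFieldFull M)} :
    z ∈ gaussVS M A hℓM ↔ IsInt A (z : LaurentSeries L) :=
  Iff.rfl

theorem IsU.mem_gaussVS {z : laurentBaseChange L (modularFunctionFieldFull M)}
    (hz : IsU M A hℓM z) : z ∈ gaussVS M A hℓM :=
  hz.1

/-- the reduction as a ring homomorphism on the Gauss valuation subring -/
def resHom : gaussVS M A hℓM →+* modularFunctionFieldFullC (ResidueField A) M :=
  (resMap (scalable_full M A hℓM)).codRestrict (modularFunctionFieldFullC (ResidueField A) M)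
    (resMap_mem M A hℓM)

theorem coe_resHom (z : gaussVS M A hℓM) :
    ((resHom M A hℓM z : modularFunctionFieldFullC (ResidueField A) M) :
      LaurentSeries (ResidueField A)) = resMap (scalable_full M A hℓM) z :=
  rfl

theorem res_eq_resHom {z : laurentBaseChange L (modularFunctionFieldFull M)}
    (hz : z ∈ gaussVS M A hℓM) : res M A hℓM z = resHom M A hℓM ⟨z, hz⟩ :=
  Subtype.ext (coe_res_of_mem M A hℓM hz)

theorem isU_iff_resHom_ne_zero {z : laurentBaseChange L (modularFunctionFieldFull M)} :
    IsU M A hℓM z ↔ ∃ hz : z ∈ gaussVS M A hℓM, resHom M A hℓM ⟨z, hz⟩ ≠ 0 := by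
  constructor
  · rintro ⟨hz, h⟩
    exact ⟨hz, fun h0 => h (congrArg Subtype.val h0)⟩
  · rintro ⟨hz, h⟩
    exact ⟨hz, fun h0 => h (Subtype.ext h0)⟩

theorem isU_of_res_ne_zero {z : laurentBaseChange L (modularFunctionFieldFull M)}
    (hz : z ∈ gaussVS M A hℓM) (h : res M A hℓM z ≠ 0) : IsU M A hℓM z := by
  rw [res_eq_resHom M A hℓM hz] at h
  exact (isU_iff_resHom_ne_zero M A hℓM).mpr ⟨hz, h⟩

theorem res_add {x y : laurentBaseChange L (modularFunctionFieldFull M)}
    (hx : x ∈ gaussVS M A hℓM) (hy : y ∈ gaussVS M A hℓM) :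
    res M A hℓM (x + y) = res M A hℓM x + res M A hℓM y := by
  rw [res_eq_resHom M A hℓM hx, res_eq_resHom M A hℓM hy,
    res_eq_resHom M A hℓM ((gaussVS M A hℓM).add_mem _ _ hx hy), ← map_add]
  rfl

theorem res_neg {x : laurentBaseChange L (modularFunctionFieldFull M)}
    (hx : x ∈ gaussVS M A hℓM) : res M A hℓM (-x) = -res M A hℓM x := by
  rw [res_eq_resHom M A hℓM hx, res_eq_resHom M A hℓM ((gaussVS M A hℓM).neg_mem _ hx),
    ← map_neg]
  rfl

theorem res_sub {x y : laurentBaseChange L (modularFunctionFieldFull M)}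
    (hx : x ∈ gaussVS M A hℓM) (hy : y ∈ gaussVS M A hℓM) :
    res M A hℓM (x - y) = res M A hℓM x - res M A hℓM y := by
  rw [sub_eq_add_neg, res_add M A hℓM hx ((gaussVS M A hℓM).neg_mem _ hy), res_neg M A hℓM hy,
    sub_eq_add_neg]

theorem res_mul' {x y : laurentBaseChange L (modularFunctionFieldFull M)}
    (hx : x ∈ gaussVS M A hℓM) (hy : y ∈ gaussVS M A hℓM) :
    res M A hℓM (x * y) = res M A hℓM x * res M A hℓM y := by
  rw [res_eq_resHom M A hℓM hx, res_eq_resHom M A hℓM hy,
    res_eq_resHom M A hℓM ((gaussVS M A hℓM).mul_mem _ _ hx hy), ← map_mul]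
  rfl

/-- elements with `A`-integral `q`-expansion are Gauss-integral -/
theorem mem_gaussVS_of_integral {z : laurentBaseChange L (modularFunctionFieldFull M)}
    (y : LaurentSeries A) (hzy : (z : LaurentSeries L) = coeffMap A.subtype y) :
    z ∈ gaussVS M A hℓM := by
  rw [mem_gaussVS_iff, hzy]
  exact isInt_incl A y

/-- ... and reduce coefficientwise -/
theorem coe_res_of_coe_eq {z : laurentBaseChange L (modularFunctionFieldFull M)}
    (y : LaurentSeries A) (hzy : (z : LaurentSeries L) = coeffMap A.subtype y) :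
    ((res M A hℓM z : modularFunctionFieldFullC (ResidueField A) M) :
      LaurentSeries (ResidueField A)) = coeffMap (residue A) y := by
  rw [coe_res_of_mem M A hℓM (mem_gaussVS_of_integral M A hℓM y hzy)]
  exact resMap_of_incl (scalable_full M A hℓM) ⟨z, _⟩ (P := y) hzy

/-! ### constants -/

theorem algebraMap_mem_gaussVS (a : A) :
    algebraMap L (laurentBaseChange L (modularFunctionFieldFull M)) (a : L) ∈ gaussVS M A hℓM := by
  refine mem_gaussVS_of_integral M A hℓM (HahnSeries.C a) ?_
  show algebraMap L (LaurentSeries L) (a : L) = _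
  rw [algebraMap_laurentSeries_eq_single, HahnSeries.C_apply, coeffMap_single]
  rfl

theorem res_algebraMap (a : A) :
    res M A hℓM (algebraMap L (laurentBaseChange L (modularFunctionFieldFull M)) (a : L))
      = algebraMap (ResidueField A) (modularFunctionFieldFullC (ResidueField A) M)
          (residue A a) := by
  refine Subtype.ext ?_
  rw [coe_res_of_coe_eq M A hℓM (HahnSeries.C a)
    (by
      show algebraMap L (LaurentSeries L) (a : L) = _
      rw [algebraMap_laurentSeries_eq_single, HahnSeries.C_apply, coeffMap_single]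
      rfl)]
  show _ = algebraMap (ResidueField A) (LaurentSeries (ResidueField A)) (residue A a)
  rw [algebraMap_laurentSeries_eq_single, HahnSeries.C_apply, coeffMap_single]

/-- the structure map `A → gaussVS` -/
def constHom : A →+* gaussVS M A hℓM where
  toFun a := ⟨algebraMap L _ (a : L), algebraMap_mem_gaussVS M A hℓM a⟩
  map_one' := Subtype.ext (map_one _)
  map_mul' a b := Subtype.ext (map_mul (algebraMap L _) (a : L) (b : L))
  map_zero' := Subtype.ext (map_zero _)
  map_add' a b := Subtype.ext (map_add (algebraMap L _) (a : L) (b : L))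

theorem resHom_comp_constHom :
    (resHom M A hℓM).comp (constHom M A hℓM)
      = (algebraMap (ResidueField A) (modularFunctionFieldFullC (ResidueField A) M)).comp
          (residue A) := by
  refine RingHom.ext fun a => ?_
  have h := res_algebraMap M A hℓM a
  rw [res_eq_resHom M A hℓM (algebraMap_mem_gaussVS M A hℓM a)] at h
  exact h

/-! ### polynomials over `A` -/

theorem aeval_mem_gaussVS {τ : laurentBaseChange L (modularFunctionFieldFull M)}
    (hτ : τ ∈ gaussVS M A hℓM) (p : A[X]) :
    aeval τ (p.map A.subtype) ∈ gaussVS M A hℓM := by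
  have h : aeval τ (p.map A.subtype)
      = ((eval₂ (constHom M A hℓM) (⟨τ, hτ⟩ : gaussVS M A hℓM) p : gaussVS M A hℓM) :
          laurentBaseChange L (modularFunctionFieldFull M)) := by
    rw [aeval_def, eval₂_map]
    exact (hom_eval₂ p (constHom M A hℓM) (gaussVS M A hℓM).subtype ⟨τ, hτ⟩).symm
  rw [h]
  exact Subtype.prop _

/-- `res` commutes with evaluation of polynomials over `A` at Gauss-integral elements -/
theorem res_aeval {τ : laurentBaseChange L (modularFunctionFieldFull M)}
    (hτ : τ ∈ gaussVS M A hℓM) (p : A[X]) :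
    res M A hℓM (aeval τ (p.map A.subtype))
      = aeval (res M A hℓM τ) (p.map (residue A)) := by
  have h : aeval τ (p.map A.subtype)
      = ((eval₂ (constHom M A hℓM) (⟨τ, hτ⟩ : gaussVS M A hℓM) p : gaussVS M A hℓM) :
          laurentBaseChange L (modularFunctionFieldFull M)) := by
    rw [aeval_def, eval₂_map]
    exact (hom_eval₂ p (constHom M A hℓM) (gaussVS M A hℓM).subtype ⟨τ, hτ⟩).symm
  rw [res_eq_resHom M A hℓM (aeval_mem_gaussVS M A hℓM hτ p), res_eq_resHom M A hℓM hτ]
  have h2 : (⟨aeval τ (p.map A.subtype), aeval_mem_gaussVS M A hℓM hτ p⟩ : gaussVS M A hℓM)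
      = eval₂ (constHom M A hℓM) (⟨τ, hτ⟩ : gaussVS M A hℓM) p := Subtype.ext h
  rw [h2, hom_eval₂, resHom_comp_constHom, aeval_def, eval₂_map]

/-! ### the `j`-functions -/

/-- `j̄(q^d)` as an element of `F_{M,k}` -/
def Jdbar (k : Type*) [Field k] (M d : ℕ) [NeZero d] (hd : d ∣ M) : modularFunctionFieldFullC k M :=
  ⟨qExpand k d (jqModC k), jqModCd_mem_full k M hd⟩

/-- `j̄` as an element of `F_{M,k}` -/
def Jbar (k : Type*) [Field k] (M : ℕ) : modularFunctionFieldFullC k M :=
  ⟨jqModC k, jqModC_mem_full k M⟩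

omit [NeZero M] in
theorem coe_Jbar (k : Type*) [Field k] : ((Jbar k M : modularFunctionFieldFullC k M) :
    LaurentSeries k) = jqModC k := rfl

omit [NeZero M] in
/-- `j̄` is not a constant -/
theorem Jbar_ne_algebraMap (k : Type*) [Field k] (c : k) :
    Jbar k M ≠ algebraMap k (modularFunctionFieldFullC k M) c := by
  intro h
  have h1 : ((Jbar k M : modularFunctionFieldFullC k M) : LaurentSeries k).coeff (-1)
      = ((algebraMap k (modularFunctionFieldFullC k M) c : modularFunctionFieldFullC k M) :
          LaurentSeries k).coeff (-1) := by rw [h]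
  rw [coe_Jbar, coeff_jqModC_neg_one] at h1
  have h2 : ((algebraMap k (modularFunctionFieldFullC k M) c : modularFunctionFieldFullC k M) :
      LaurentSeries k) = algebraMap k (LaurentSeries k) c := rfl
  rw [h2, algebraMap_laurentSeries_eq_single, HahnSeries.coeff_single_of_ne (by norm_num)] at h1
  exact one_ne_zero h1

omit [NeZero M] in
theorem coe_eq_integral_of_coe_eq_qExpand (d : ℕ) [NeZero d]
    {z : laurentBaseChange L (modularFunctionFieldFull M)}
    (hz : (z : LaurentSeries L) = qExpand L d (jqModC L)) :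
    (z : LaurentSeries L) = coeffMap A.subtype (qExpand A d (jqModC A)) := by
  rw [hz, ModularCurve.coeffMap_qExpand, coeffMap_jqModC]

/-- an element with `q`-expansion `j(q^d)` reduces to `j̄(q^d)` -/
theorem res_of_coe_eq_qExpand (d : ℕ) [NeZero d] (hd : d ∣ M)
    {z : laurentBaseChange L (modularFunctionFieldFull M)}
    (hz : (z : LaurentSeries L) = qExpand L d (jqModC L)) :
    res M A hℓM z = Jdbar (ResidueField A) M d hd := by
  refine Subtype.ext ?_
  rw [coe_res_of_coe_eq M A hℓM _ (coe_eq_integral_of_coe_eq_qExpand M A d hz),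
    ModularCurve.coeffMap_qExpand, coeffMap_jqModC]
  rfl

/-- an element with `q`-expansion `j(q)` reduces to `j̄` -/
theorem res_of_coe_eq_jqModC {z : laurentBaseChange L (modularFunctionFieldFull M)}
    (hz : (z : LaurentSeries L) = jqModC L) : res M A hℓM z = Jbar (ResidueField A) M := by
  refine Subtype.ext ?_
  have hz' : (z : LaurentSeries L) = coeffMap A.subtype (jqModC A) := by
    rw [hz, coeffMap_jqModC]
  rw [coe_res_of_coe_eq M A hℓM _ hz', coeffMap_jqModC]
  rfl

theorem mem_gaussVS_of_coe_eq_jqModC {z : laurentBaseChange L (modularFunctionFieldFull M)}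
    (hz : (z : LaurentSeries L) = jqModC L) : z ∈ gaussVS M A hℓM :=
  mem_gaussVS_of_integral M A hℓM (jqModC A) (by rw [hz, coeffMap_jqModC])

/-- `J - b` is a Gauss unit for every `b ∈ A` -/
theorem isU_sub_algebraMap {z : laurentBaseChange L (modularFunctionFieldFull M)}
    (hz : (z : LaurentSeries L) = jqModC L) (b : A) :
    IsU M A hℓM (z - algebraMap L _ (b : L)) ∧
      res M A hℓM (z - algebraMap L _ (b : L))
        = Jbar (ResidueField A) M - algebraMap (ResidueField A) _ (residue A b) := by
  have hmem := mem_gaussVS_of_coe_eq_jqModC M A hℓM hz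
  have hres : res M A hℓM (z - algebraMap L _ (b : L))
      = Jbar (ResidueField A) M - algebraMap (ResidueField A) _ (residue A b) := by
    rw [res_sub M A hℓM hmem (algebraMap_mem_gaussVS M A hℓM b),
      res_of_coe_eq_jqModC M A hℓM hz, res_algebraMap]
  refine ⟨isU_of_res_ne_zero M A hℓM
    (sub_mem hmem (algebraMap_mem_gaussVS M A hℓM b)) ?_, hres⟩
  rw [hres]
  exact sub_ne_zero.mpr (Jbar_ne_algebraMap M _ _)

/-- `τ_b = (J - b)⁻¹` is a Gauss unit with reduction `(j̄ - b̄)⁻¹` -/
theorem isU_inv_sub_algebraMap {z : laurentBaseChange L (modularFunctionFieldFull M)}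
    (hz : (z : LaurentSeries L) = jqModC L) (b : A) :
    IsU M A hℓM (z - algebraMap L _ (b : L))⁻¹ ∧
      res M A hℓM (z - algebraMap L _ (b : L))⁻¹
        = (Jbar (ResidueField A) M - algebraMap (ResidueField A) _ (residue A b))⁻¹ := by
  obtain ⟨h1, h2⟩ := isU_sub_algebraMap M A hℓM hz b
  exact ⟨GaussUnitsFull.isU_inv M A hℓM h1, by rw [GaussUnitsFull.res_inv M A hℓM h1, h2]⟩

end General

section Kbar

open Fermat.Agent.S24.BridgeInv (Kbar FF)
open Fermat.Agent.S24.PlaceAt (J)

variable (M : ℕ) [NeZero M]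
variable (A : ValuationSubring Kbar) {ℓ : ℕ} [Fact ℓ.Prime] [CharP (ResidueField A) ℓ]
variable (hℓM : ¬ ℓ ∣ M)

omit [NeZero M] in
theorem coe_J : ((J M : FF M) : LaurentSeries Kbar) = jqModC Kbar := by
  show coeffEmb Kbar (qExpand ℚ 1 jq) = _
  rw [qExpand_one_apply, coeffEmb, ← jqModC_rat, coeffMap_jqModC]

theorem J_mem_gaussVS : J M ∈ gaussVS M A hℓM :=
  mem_gaussVS_of_coe_eq_jqModC M A hℓM (coe_J M)

theorem res_J : res M A hℓM (J M) = Jbar (ResidueField A) M :=
  res_of_coe_eq_jqModC M A hℓM (coe_J M)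

theorem isU_J_sub (b : A) : IsU M A hℓM (J M - algebraMap Kbar (FF M) (b : Kbar)) :=
  (isU_sub_algebraMap M A hℓM (coe_J M) b).1

theorem res_J_sub (b : A) :
    res M A hℓM (J M - algebraMap Kbar (FF M) (b : Kbar))
      = Jbar (ResidueField A) M - algebraMap (ResidueField A) _ (residue A b) :=
  (isU_sub_algebraMap M A hℓM (coe_J M) b).2

theorem isU_tau (b : A) : IsU M A hℓM (J M - algebraMap Kbar (FF M) (b : Kbar))⁻¹ :=
  (isU_inv_sub_algebraMap M A hℓM (coe_J M) b).1

theorem res_tau (b : A) :
    res M A hℓM (J M - algebraMap Kbar (FF M) (b : Kbar))⁻¹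
      = (Jbar (ResidueField A) M - algebraMap (ResidueField A) _ (residue A b))⁻¹ :=
  (isU_inv_sub_algebraMap M A hℓM (coe_J M) b).2

end Kbar

end Fermat.Agent.S37.Key.ResExplicit
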