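import Mathlib
import Fermat.Agent.S37.Key.Main
import Fermat.Agent.S37.Local.LEUNFinal
import Fermat.Agent.S37.Local.HasChartOf
import Fermat.Agent.S37.Local.ChartJInst4
import Fermat.Agent.S18.Cusp.Level4Cusp

/-!
# S37 (LEUN-4): the local fields (LE), (UN) of `Key/Main` at a level `4 ∣ M`, unconditionally

`A` a valuation subring of `ℚ̄` over `ℓ ∤ M`, `4 ∣ M`.

* `hloc4_restrict` : the three Kummer statements at level `4` (`S18/Cusp/Level4Cusp`) over every
  number field `L₁ ⊆ ℚ̄`, bundled as `ChartJInst4.Hloc4`;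
* `leForm_of_hchart`, `unForm_of_hchart` : `Main.LEForm` / `Main.UNForm` from the guarded chart
  hypothesis (`HasChartOf.hasChart_of_hchart` ∘ `LEUNFinal`), any level;
* `leForm_of_four`, `unForm_of_four` : `Main.LEForm M ℓ A hℓM`, `Main.UNForm M ℓ A hℓM` for `4 ∣ M`.
-/

set_option autoImplicit false
set_option linter.style.haveILetI false
set_option linter.unusedSectionVars false
set_option linter.unusedVariables false

noncomputable section

namespace Fermat.Agent.S37.Key.LEUNLevel4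

open AlgebraicCurve ModularCurve IsLocalRing
open Fermat.Agent.S24.BridgeInv (Kbar FF)
open Fermat.Agent.S18.Core.Charts Fermat.Agent.S18.Core.StartB0
open Fermat.Agent.S18.Cusp.NormalBridge (LocalGen)
open Fermat.Agent.S18.Descent (restrict)
open Fermat.Agent.S37.Local Fermat.Agent.S37.Key

set_option synthInstance.maxHeartbeats 400000

/-- the `C0`-guarded chart hypothesis: `LocalGen` at every closed point over `π` of the `J`-chart
`B0 (A ∩ L1) (J - b1)⁻¹`, over every number field `L1 ⊆ ℚ̄` containing `C0`. -/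
def HChart (M : ℕ) [NeZero M] (A : ValuationSubring Kbar) (C0 : Finset Kbar) : Prop :=
  ∀ (L1 : IntermediateField ℚ Kbar) [FiniteDimensional ℚ L1],
    (↑C0 : Set Kbar) ⊆ (L1 : Set Kbar) →
    ∀ (b1 : ↥(restrict A L1)) (π : ↥(restrict A L1)), Irreducible π →
    ∀ n : Ideal ↥(B0 ↥(restrict A L1) (CoordJ.tauB (restrict A L1) M b1)), n.IsMaximal →
      piB0 ↥(restrict A L1) π (CoordJ.tauB (restrict A L1) M b1) ∈ n →
      LocalGen (piB0 ↥(restrict A L1) π (CoordJ.tauB (restrict A L1) M b1)) n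

section AnyLevel

variable (M : ℕ) [NeZero M] (A : ValuationSubring Kbar) {ℓ : ℕ} [Fact ℓ.Prime]
  [CharP (ResidueField A) ℓ] (hA : A.LiesOverPrime ℓ) (hℓM : ¬ ℓ ∣ M)

include hA in
/-- the hypothesis `hHC` of `LEUNFinal.leForm_of_hasChart` / `unForm_of_hasChart` from `HChart`. -/
theorem hasChart_of_HChart (C0 : Finset Kbar) (h : HChart M A C0) (b : A) :
    ∃ L0 : IntermediateField ℚ Kbar, FiniteDimensional ℚ L0 ∧
      ∀ L1 : IntermediateField ℚ Kbar, FiniteDimensional ℚ L1 → L0 ≤ L1 →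
        LocalEq.HasChart (modularFunctionFieldFull M) A (ResExplicit.gaussVS M A hℓM)
          (LocalEq.tauB M A b) L1 :=
  ⟨HasChartOf.baseField A C0 b, HasChartOf.finiteDimensional_baseField A C0 b,
    HasChartOf.hasChart_of_hchart M A hA hℓM C0 h b⟩

include hA in
/-- **(LE)** in the form of `Key/Main` from the guarded chart hypothesis. -/
theorem leForm_of_HChart (C0 : Finset Kbar) (h : HChart M A C0) : Main.LEForm M ℓ A hℓM :=
  LEUNFinal.leForm_of_hasChart M A hℓM (hasChart_of_HChart M A hA hℓM C0 h)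

include hA in
/-- **(UN)** in the form of `Key/Main` from the guarded chart hypothesis. -/
theorem unForm_of_HChart (C0 : Finset Kbar) (h : HChart M A C0) : Main.UNForm M ℓ A hℓM :=
  LEUNFinal.unForm_of_hasChart M A hℓM (hasChart_of_HChart M A hA hℓM C0 h)

end AnyLevel

section Level4

variable {M : ℕ} [NeZero M] (h4 : 4 ∣ M) (A : ValuationSubring Kbar) {ℓ : ℕ} [Fact ℓ.Prime]
  [CharP (ResidueField A) ℓ] (hA : A.LiesOverPrime ℓ) (hℓM : ¬ ℓ ∣ M)

include h4 hA hℓM in
/-- the chart hypothesis at level `4 ∣ M`, unconditionally. -/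
theorem hChart_four : HChart M A ∅ :=
  ChartJInst4.hchart4 h4 A hA hℓM
    (fun L₁ _ _ _ π hπ =>
      ⟨Fermat.Agent.S18.Cusp.Level4Cusp.hloc4_zero_sub h4 (restrict A L₁) hℓM hπ,
        Fermat.Agent.S18.Cusp.Level4Cusp.hloc4_sixteen_sub h4 (restrict A L₁) hℓM hπ,
        Fermat.Agent.S18.Cusp.Level4Cusp.hloc4_inf_sub h4 (restrict A L₁) hℓM hπ⟩) ∅

include h4 hA in
/-- **(LE) at level `4 ∣ M`.** -/
theorem leForm_of_four : Main.LEForm M ℓ A hℓM :=
  leForm_of_HChart M A hA hℓM ∅ (hChart_four h4 A hA hℓM)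

include h4 hA in
/-- **(UN) at level `4 ∣ M`.** -/
theorem unForm_of_four : Main.UNForm M ℓ A hℓM :=
  unForm_of_HChart M A hA hℓM ∅ (hChart_four h4 A hA hℓM)

end Level4

end Fermat.Agent.S37.Key.LEUNLevel4

end
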