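import Mathlib
import Fermat.Agent.S37.Key.LEUNLevel4
import Fermat.Agent.S37.Local.ChartJInst9
import Fermat.Agent.S18.Final.Star9All

/-!
# S37 (LEUN-9): the local fields (LE), (UN) of `Key/Main` at a level `9 ∣ M`, unconditionally

`A` a valuation subring of `ℚ̄` over `ℓ ∤ M`, `9 ∣ M`, `ρ ∈ ℚ̄` a root of `X² + 9 X + 27`.

* `hChart_nine` : the guarded chart hypothesis `LEUNLevel4.HChart M A {ρ}` from the complete cusp
  layer at level `9` (`S18/Final/Star9All.hloc9_sub`) via `ChartJInst9.hchart9K`;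
* `leForm_of_nine`, `unForm_of_nine` : `Main.LEForm M ℓ A hℓM`, `Main.UNForm M ℓ A hℓM` for `9 ∣ M`.
-/

set_option autoImplicit false
set_option linter.style.haveILetI false
set_option linter.unusedSectionVars false
set_option linter.unusedVariables false

noncomputable section

namespace Fermat.Agent.S37.Key.LEUNLevel9

open AlgebraicCurve ModularCurve IsLocalRing
open Fermat.Agent.S24.BridgeInv (Kbar FF)
open Fermat.Agent.S18.Descent (restrict)
open Fermat.Agent.S37.Local Fermat.Agent.S37.Key Fermat.Agent.S37.Key.LEUNLevel4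

set_option synthInstance.maxHeartbeats 400000
set_option maxHeartbeats 2000000

variable {M : ℕ} [NeZero M] (h9 : 9 ∣ M) (A : ValuationSubring Kbar) {ℓ : ℕ} [Fact ℓ.Prime]
  [CharP (ResidueField A) ℓ] (hA : A.LiesOverPrime ℓ) (hℓM : ¬ ℓ ∣ M)

include h9 hA hℓM in
/-- the chart hypothesis at level `9 ∣ M`, unconditionally. -/
theorem hChart_nine {ρ : Kbar} (hρ : ρ ^ 2 + 9 * ρ + 27 = 0) : HChart M A {ρ} :=
  ChartJInst9.hchart9K h9 A hA hℓM hρ
    (fun L₁ _ _ _ ρ₁ hρ₁ _ π hπ =>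
      have h := Fermat.Agent.S18.Final.Star9All.hloc9_sub A L₁ M hℓM h9 π hπ
        (Fermat.Agent.S18.Final.Level9Aux.rhoR A L₁ hρ₁)
        (Fermat.Agent.S18.Final.Level9Aux.rhoR_root A hρ₁)
      ⟨h.1, h.2⟩) {ρ} (Finset.mem_singleton_self ρ)

include h9 hA in
/-- **(LE) at level `9 ∣ M`.** -/
theorem leForm_of_nine : Main.LEForm M ℓ A hℓM := by
  obtain ⟨ρ, hρ⟩ := Fermat.Agent.S18.Final.Level9Aux.exists_rho
  exact leForm_of_HChart M A hA hℓM {ρ} (hChart_nine h9 A hA hℓM hρ)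

include h9 hA in
/-- **(UN) at level `9 ∣ M`.** -/
theorem unForm_of_nine : Main.UNForm M ℓ A hℓM := by
  obtain ⟨ρ, hρ⟩ := Fermat.Agent.S18.Final.Level9Aux.exists_rho
  exact unForm_of_HChart M A hA hℓM {ρ} (hChart_nine h9 A hA hℓM hρ)

end Fermat.Agent.S37.Key.LEUNLevel9

end
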