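import Mathlib
import Fermat.Agent.S37.Key.Main
import Fermat.Agent.S37.Key.LEUNLevel4
import Fermat.Agent.S37.Key.LEUNLevel9
import Fermat.Agent.S18.Final.StarAll
import Fermat.Agent.S18.Descent.StarMulFinal
import Fermat.Agent.S18.Cusp.Level4CuspStar
import Fermat.Agent.S18.Final.Star9All

/-!
# S37 (ASSEMBLE): the local input of `Key/Frozen` for every triple `(ℓ, A, Φ)`, unconditionally

* `star_all` : `Trans.Star A N m` for every level `N` and exponent `m` prime to the residue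
  characteristic `ℓ` of `A` (block G: `StarAll.star_all_of` ∘ `StarMulFinal.star_of_star_mul`,
  `Level4CuspStar.star4`, `Star9All.star9`);
* `localInput` : `Frozen.LocalInput N p ℓ A Φ` for every prime `ℓ ∤ N p`, every valuation subring
  `A` of `ℚ̄` over `ℓ` and every Frobenius lift `Φ` at `A`: `Main.localInput_of` at the auxiliary
  level `Level.auxLevel N ℓ` with `star_all` and the local fields (LE), (UN) of
  `Key/LEUNLevel4` (`ℓ ≠ 2`) resp. `Key/LEUNLevel9` (`ℓ = 2`).
-/

set_option autoImplicit false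
set_option linter.style.haveILetI false
set_option linter.unusedSectionVars false

noncomputable section

namespace Fermat.Agent.S37.Key.Assemble

open AlgebraicCurve ModularCurve IsLocalRing
open Fermat.Agent.S24.BridgeInv (Kbar FF)
open Fermat.Agent.S18 Fermat.Agent.S18.Trans
open Fermat.Agent.S37.Key

set_option synthInstance.maxHeartbeats 400000

/-- **`(*)_N` for all levels** (block G). -/
theorem star_all (N : ℕ) [NeZero N] {ℓ : ℕ} [Fact ℓ.Prime] (hℓN : ¬ ℓ ∣ N)
    (A : ValuationSubring Kbar) (hA : A.LiesOverPrime ℓ) (m : ℕ) (hm : ¬ ℓ ∣ m) :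
    Star A N m :=
  Final.StarAll.star_all_of N hℓN A m
    (fun _ _ _ _ hNM hℓM hs => Descent.StarMulFinal.star_of_star_mul hNM hℓM A hA hm hs)
    (fun _ M _ h4 hℓM => Cusp.Level4CuspStar.star4 A hA M m h4 hℓM hm)
    (fun _ M _ h9 hℓM => Final.Star9All.star9 A hA M m h9 hℓM hm)

/-- **the local input of `Frozen.specializationExists_of_localInput`**, unconditionally. -/
theorem localInput (N p ℓ : ℕ) [NeZero N] [hℓ : Fact ℓ.Prime] (hndvd : ¬ ℓ ∣ N * p)
    (A : ValuationSubring Kbar) [CharP (ResidueField A) ℓ] (hA : A.LiesOverPrime ℓ)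
    {Φ : Kbar ≃ₐ[ℚ] Kbar} (hΦ : A.IsFrobeniusAt Φ ℓ) :
    Frozen.LocalInput N p ℓ A Φ := by
  have hℓN : ¬ ℓ ∣ N := fun h => hndvd (dvd_mul_of_dvd_left h p)
  have hℓp : ¬ ℓ ∣ p := fun h => hndvd (dvd_mul_of_dvd_right h N)
  have hℓpn : ∀ n : ℕ, ¬ ℓ ∣ p ^ n := fun n h => hℓp (hℓ.out.dvd_of_dvd_pow h)
  have hStar : ∀ n : ℕ, Star A N (p ^ n) := fun n => star_all N hℓN A hA (p ^ n) (hℓpn n)
  by_cases h2 : ℓ = 2
  · have h9 : 9 ∣ Level.auxLevel N ℓ := by
      rw [h2]
      exact Level.nine_dvd_auxLevel N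
    exact Main.localInput_of N p ℓ A hℓN hA hΦ hStar
      (LEUNLevel9.leForm_of_nine h9 A hA _) (LEUNLevel9.unForm_of_nine h9 A hA _)
  · have h4 : 4 ∣ Level.auxLevel N ℓ := Level.four_dvd_auxLevel N ℓ h2
    exact Main.localInput_of N p ℓ A hℓN hA hΦ hStar
      (LEUNLevel4.leForm_of_four h4 A hA _) (LEUNLevel4.unForm_of_four h4 A hA _)

end Fermat.Agent.S37.Key.Assemble

end
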