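import Mathlib
import Fermat.Prelude.Def_AlgebraicCurve_BaseChangeGalois

/-!
# S37 (K, abstract): the KEY local computation from an explicit interface

`F` is the function field of the generic fibre (with its Prelude places over `K`), `Fk` the function
field of the special fibre with an abstract family of order functions `ordQ`.  `IsU`/`res` are the
Gauss units and their reduction, `Thr T P` says that the place `P` of the generic fibre passes through
the finite set `T` of closed points of the special fibre.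

From (1) local equations (`localEq`), (2) the unit criterion (`unit`), (3) the behaviour of `IsU`,
`res`, `Thr` under inertia `I`, Frobenius `Φ`, and the Hecke norm `Nm` (norm formula `ord_Nm`,
Kronecker congruence `res_Nm`), (4) saturated test sets (`Good`), we deduce: if `u` is a Gauss unit
whose divisor is `m` times a divisor in the subgroup generated by `σ P - P` (`σ ∈ I`) and
`Φ²P - T(ΦP) + ℓ P`, then the reduction of `u` has no zero or pole.
-/

set_option autoImplicit false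

noncomputable section

namespace Fermat.Agent.S37.Key.Abstract

open AlgebraicCurve

/-- the interface between the generic and the special fibre consumed by the KEY computation -/
structure Interface (K F Fk Q : Type*) [Field K] [Field F] [Algebra K F] [Field Fk] where
  IsU : F → Prop
  res : F → Fk
  ordQ : Q → Fk → ℤ
  Thr : Finset Q → Place K F → Prop
  Good : Finset Q → Prop
  I : Set (SemilinearAut K F)
  Φ : SemilinearAut K F
  Fr : Fk ≃+* Fk
  Tdiv : Divisor K F →+ Divisor K F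
  Nm : F → F
  ℓ : ℕ
  isU_one : IsU 1
  isU_mul : ∀ {a b}, IsU a → IsU b → IsU (a * b)
  isU_inv : ∀ {a}, IsU a → IsU a⁻¹
  isU_ne_zero : ∀ {a}, IsU a → a ≠ 0
  res_one : res 1 = 1
  res_mul : ∀ {a b}, IsU a → IsU b → res (a * b) = res a * res b
  res_inv : ∀ {a}, IsU a → res a⁻¹ = (res a)⁻¹
  res_ne_zero : ∀ {a}, IsU a → res a ≠ 0
  I_inv : ∀ {σ}, σ ∈ I → σ⁻¹ ∈ I
  isU_I : ∀ {σ}, σ ∈ I → ∀ {z}, IsU z → IsU (σ • z)
  res_I : ∀ {σ}, σ ∈ I → ∀ {z}, IsU z → res (σ • z) = res z
  isU_Φ : ∀ {z}, IsU z → IsU (Φ • z)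
  res_Φ : ∀ {z}, IsU z → res (Φ • z) = Fr (res z)
  isU_Nm : ∀ {z}, IsU z → IsU (Nm z)
  res_Nm : ∀ {z}, IsU z → res (Nm z) = Fr (res z) * (Fr.symm (res z)) ^ ℓ
  ord_Nm : ∀ z : F, z ≠ 0 → ∀ D : Divisor K F, (∀ P, D P = P.ord z) →
    ∀ P, Tdiv D P = P.ord (Nm z)
  exists_div : ∀ z : F, z ≠ 0 → ∃ D : Divisor K F, ∀ P, D P = P.ord z
  thr_I : ∀ {σ}, σ ∈ I → ∀ (T : Finset Q) (P : Place K F), Thr T (σ • P) ↔ Thr T P
  exists_good : ∀ Q₀ : Q, ∃ T : Finset Q, Q₀ ∈ T ∧ Good T
  thr_Φ : ∀ {T}, Good T → ∀ P : Place K F, Thr T (Φ • P) ↔ Thr T P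
  thr_T : ∀ {T}, Good T → ∀ P P' : Place K F,
    Tdiv (Finsupp.single P 1) P' ≠ 0 → Thr T P' → Thr T P
  localEq : ∀ (T : Finset Q) (P : Place K F), Thr T P →
    ∃ g : F, IsU g ∧ P.ord g = 1 ∧ ∀ P' : Place K F, P' ≠ P → Thr T P' → P'.ord g = 0
  unit : ∀ (T : Finset Q) (z : F), IsU z → (∀ P, Thr T P → P.ord z = 0) →
    ∀ Q₀ ∈ T, ordQ Q₀ (res z) = 0

variable {K F Fk Q : Type*} [Field K] [Field F] [Algebra K F] [Field Fk]
variable (X : Interface K F Fk Q)

namespace Interface

/-- the inertia generators -/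
def genI : Set (Divisor K F) :=
  {E | ∃ σ ∈ X.I, ∃ P : Place K F, E = σ • Finsupp.single P (1 : ℤ) - Finsupp.single P 1}

/-- the Eichler–Shimura generators -/
def genΨ : Set (Divisor K F) :=
  {E | ∃ P : Place K F, E = X.Φ • (X.Φ • Finsupp.single P (1 : ℤ))
    - X.Tdiv (X.Φ • Finsupp.single P 1) + (X.ℓ : ℤ) • Finsupp.single P 1}

/-- the subgroup of divisors generated by `σ P - P` and `Φ²P - T(ΦP) + ℓ P` -/
def W : AddSubgroup (Divisor K F) := AddSubgroup.closure (X.genI ∪ X.genΨ)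

/-- `E` has, along `T`, a local equation with trivial reduction -/
def LocTriv (T : Finset Q) (E : Divisor K F) : Prop :=
  ∃ e : F, X.IsU e ∧ X.res e = 1 ∧ ∀ P, X.Thr T P → P.ord e = E P

theorem isU_pow {a : F} (h : X.IsU a) (n : ℕ) : X.IsU (a ^ n) := by
  induction n with
  | zero => rw [pow_zero]; exact X.isU_one
  | succ k ih => rw [pow_succ]; exact X.isU_mul ih h

theorem res_pow {a : F} (h : X.IsU a) (n : ℕ) : X.res (a ^ n) = X.res a ^ n := by
  induction n with
  | zero => rw [pow_zero, pow_zero, X.res_one]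
  | succ k ih => rw [pow_succ, X.res_mul (X.isU_pow h k) h, ih, pow_succ]

theorem ord_pow (P : Place K F) (a : F) (n : ℕ) : P.ord (a ^ n) = (n : ℤ) * P.ord a := by
  have := Place.ord_zpow P a (n : ℤ)
  rwa [zpow_natCast] at this

theorem locTriv_zero (T : Finset Q) : X.LocTriv T 0 :=
  ⟨1, X.isU_one, X.res_one, fun P _ => by rw [Place.ord_one]; rfl⟩

theorem LocTriv.add {T : Finset Q} {E E' : Divisor K F} (h : X.LocTriv T E)
    (h' : X.LocTriv T E') : X.LocTriv T (E + E') := by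
  obtain ⟨e, he, hr, ho⟩ := h
  obtain ⟨e', he', hr', ho'⟩ := h'
  refine ⟨e * e', X.isU_mul he he', by rw [X.res_mul he he', hr, hr', one_mul], fun P hP => ?_⟩
  rw [Place.ord_mul _ (X.isU_ne_zero he) (X.isU_ne_zero he'), ho P hP, ho' P hP,
    Finsupp.add_apply]

theorem LocTriv.neg {T : Finset Q} {E : Divisor K F} (h : X.LocTriv T E) :
    X.LocTriv T (-E) := by
  obtain ⟨e, he, hr, ho⟩ := h
  refine ⟨e⁻¹, X.isU_inv he, by rw [X.res_inv he, hr, inv_one], fun P hP => ?_⟩
  rw [Place.ord_inv, ho P hP, Finsupp.neg_apply]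

theorem ord_smul' (g : SemilinearAut K F) (P : Place K F) (f : F) :
    P.ord (g • f) = (g⁻¹ • P).ord f := by
  have h := SemilinearAut.ord_smul g (g⁻¹ • P) f
  rwa [smul_inv_smul] at h

theorem smul_ne_iff (g : SemilinearAut K F) (P P' : Place K F) :
    g⁻¹ • P' = P ↔ P' = g • P := by
  constructor
  · intro h
    rw [← h, smul_inv_smul]
  · intro h
    rw [h, inv_smul_smul]

/-- the divisor `Tdiv D` vanishes along a good `T` if `D` does -/
theorem Tdiv_apply_eq_zero {T : Finset Q} (hT : X.Good T) (D : Divisor K F)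
    (hD : ∀ P, X.Thr T P → D P = 0) (P' : Place K F) (hP' : X.Thr T P') :
    X.Tdiv D P' = 0 := by
  classical
  have hsum : D = ∑ P ∈ D.support, (D P) • Finsupp.single P (1 : ℤ) := by
    conv_lhs => rw [← Finsupp.sum_single D]
    rw [Finsupp.sum]
    refine Finset.sum_congr rfl fun P _ => ?_
    rw [Finsupp.smul_single, smul_eq_mul, mul_one]
  rw [hsum, map_sum, Finsupp.finsetSum_apply]
  refine Finset.sum_eq_zero fun P _ => ?_
  rw [map_zsmul, Finsupp.smul_apply, smul_eq_mul]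
  by_cases hP : X.Thr T P
  · rw [hD P hP, zero_mul]
  · have : X.Tdiv (Finsupp.single P 1) P' = 0 := by
      by_contra hne
      exact hP (X.thr_T hT P P' hne hP')
    rw [this, mul_zero]

theorem locTriv_genI (T : Finset Q) {E : Divisor K F} (hE : E ∈ X.genI) : X.LocTriv T E := by
  classical
  obtain ⟨σ, hσ, P, rfl⟩ := hE
  by_cases hP : X.Thr T P
  · obtain ⟨g, hg, hgP, hg0⟩ := X.localEq T P hP
    refine ⟨σ • g * g⁻¹, X.isU_mul (X.isU_I hσ hg) (X.isU_inv hg), ?_, fun P' hP' => ?_⟩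
    · rw [X.res_mul (X.isU_I hσ hg) (X.isU_inv hg), X.res_I hσ hg, X.res_inv hg,
        mul_inv_cancel₀ (X.res_ne_zero hg)]
    · have hg' := X.isU_ne_zero (X.isU_I hσ hg)
      rw [Place.ord_mul _ hg' (inv_ne_zero (X.isU_ne_zero hg)), Place.ord_inv, ord_smul',
        SemilinearAut.smul_single, Finsupp.sub_apply, Finsupp.single_apply, Finsupp.single_apply]
      have hthr : X.Thr T (σ⁻¹ • P') := (X.thr_I (X.I_inv hσ) T P').mpr hP'
      have e1 : (σ⁻¹ • P').ord g = if σ • P = P' then 1 else 0 := by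
        split_ifs with h
        · rw [← h, inv_smul_smul, hgP]
        · exact hg0 _ (fun h' => h ((smul_ne_iff σ P P').mp h').symm) hthr
      have e2 : P'.ord g = if P = P' then 1 else 0 := by
        split_ifs with h
        · rw [← h, hgP]
        · exact hg0 _ (fun h' => h h'.symm) hP'
      rw [e1, e2]
      ring
  · refine ⟨1, X.isU_one, X.res_one, fun P' hP' => ?_⟩
    have h1 : P' ≠ P := fun h => hP (h ▸ hP')
    have h2 : P' ≠ σ • P := fun h => hP ((X.thr_I hσ T P).mp (h ▸ hP'))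
    rw [Place.ord_one, SemilinearAut.smul_single, Finsupp.sub_apply,
      Finsupp.single_eq_of_ne h2, Finsupp.single_eq_of_ne h1, sub_zero]

theorem locTriv_genΨ {T : Finset Q} (hT : X.Good T) {E : Divisor K F} (hE : E ∈ X.genΨ) :
    X.LocTriv T E := by
  classical
  obtain ⟨P, rfl⟩ := hE
  by_cases hP : X.Thr T P
  · obtain ⟨g, hg, hgP, hg0⟩ := X.localEq T P hP
    have hΦg := X.isU_Φ hg
    have hΦΦg := X.isU_Φ hΦg
    have hN := X.isU_Nm hΦg
    have hgl : X.IsU (g ^ X.ℓ) := X.isU_pow hg _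
    have hresgl : X.res (g ^ X.ℓ) = (X.res g) ^ X.ℓ := X.res_pow hg _
    -- the divisor of `Φ • g`
    obtain ⟨D, hD⟩ := X.exists_div (X.Φ • g) (X.isU_ne_zero hΦg)
    -- `D - single (Φ P)` vanishes along `T`
    have hthrΦ : ∀ P', X.Thr T P' → X.Thr T (X.Φ⁻¹ • P') := fun P' h => by
      have := (X.thr_Φ hT (X.Φ⁻¹ • P'))
      rw [smul_inv_smul] at this
      exact this.mp h
    have hordΦg : ∀ P', X.Thr T P' → P'.ord (X.Φ • g) = if X.Φ • P = P' then 1 else 0 := by
      intro P' hP'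
      rw [ord_smul']
      split_ifs with h
      · rw [← h, inv_smul_smul, hgP]
      · exact hg0 _ (fun h' => h ((smul_ne_iff X.Φ P P').mp h').symm) (hthrΦ P' hP')
    have hR : ∀ P', X.Thr T P' →
        (D - Finsupp.single (X.Φ • P) (1 : ℤ) : Divisor K F) P' = 0 := by
      intro P' hP'
      rw [Finsupp.sub_apply, hD, hordΦg P' hP', Finsupp.single_apply, sub_self]
    have hTR := fun P' hP' => X.Tdiv_apply_eq_zero hT _ hR P' hP'
    have hNord : ∀ P', X.Thr T P' →
        P'.ord (X.Nm (X.Φ • g)) = X.Tdiv (Finsupp.single (X.Φ • P) 1) P' := by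
      intro P' hP'
      rw [← X.ord_Nm _ (X.isU_ne_zero hΦg) D hD P']
      have := hTR P' hP'
      rw [map_sub, Finsupp.sub_apply, sub_eq_zero] at this
      exact this
    refine ⟨X.Φ • (X.Φ • g) * g ^ X.ℓ * (X.Nm (X.Φ • g))⁻¹,
      X.isU_mul (X.isU_mul hΦΦg hgl) (X.isU_inv hN), ?_, fun P' hP' => ?_⟩
    · rw [X.res_mul (X.isU_mul hΦΦg hgl) (X.isU_inv hN), X.res_mul hΦΦg hgl, X.res_inv hN,
        X.res_Nm hΦg, X.res_Φ hΦg, X.res_Φ hg, hresgl, RingEquiv.symm_apply_apply]
      have h1 : X.Fr (X.Fr (X.res g)) ≠ 0 := by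
        simpa using X.res_ne_zero hg
      have h2 : X.res g ^ X.ℓ ≠ 0 := pow_ne_zero _ (X.res_ne_zero hg)
      field_simp
    · have hne1 := X.isU_ne_zero hΦΦg
      have hne2 := X.isU_ne_zero hgl
      have hne3 := X.isU_ne_zero hN
      rw [Place.ord_mul _ (mul_ne_zero hne1 hne2) (inv_ne_zero hne3), Place.ord_mul _ hne1 hne2,
        Place.ord_inv, hNord P' hP']
      have e1 : P'.ord (X.Φ • (X.Φ • g)) = if X.Φ • (X.Φ • P) = P' then 1 else 0 := by
        rw [ord_smul', hordΦg _ (hthrΦ P' hP')]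
        by_cases h : X.Φ • (X.Φ • P) = P'
        · rw [if_pos h, if_pos]
          rw [← h, inv_smul_smul]
        · rw [if_neg h, if_neg]
          intro h'
          exact h (by rw [h', smul_inv_smul])
      have e2 : P'.ord (g ^ X.ℓ) = (X.ℓ : ℤ) * if P = P' then 1 else 0 := by
        rw [ord_pow]
        split_ifs with h
        · rw [← h, hgP]
        · rw [hg0 _ (fun h' => h h'.symm) hP']
      rw [e1, e2]
      simp only [SemilinearAut.smul_single]
      rw [Finsupp.add_apply, Finsupp.sub_apply, Finsupp.smul_apply, Finsupp.single_apply,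
        Finsupp.single_apply, smul_eq_mul]
      ring
  · refine ⟨1, X.isU_one, X.res_one, fun P' hP' => ?_⟩
    have hΦP : ¬ X.Thr T (X.Φ • P) := fun h => hP ((X.thr_Φ hT P).mp h)
    have hΦΦP : ¬ X.Thr T (X.Φ • (X.Φ • P)) := fun h => hΦP ((X.thr_Φ hT _).mp h)
    have h1 : P' ≠ P := fun h => hP (h ▸ hP')
    have h2 : P' ≠ X.Φ • (X.Φ • P) := fun h => hΦΦP (h ▸ hP')
    have h3 : X.Tdiv (Finsupp.single (X.Φ • P) 1) P' = 0 := by
      by_contra hne
      exact hΦP (X.thr_T hT _ P' hne hP')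
    rw [Place.ord_one]
    simp only [SemilinearAut.smul_single]
    rw [Finsupp.add_apply, Finsupp.sub_apply, Finsupp.smul_apply,
      Finsupp.single_eq_of_ne h2, Finsupp.single_eq_of_ne h1, h3]
    simp

theorem locTriv_of_mem_W {T : Finset Q} (hT : X.Good T) {E : Divisor K F} (hE : E ∈ X.W) :
    X.LocTriv T E := by
  refine AddSubgroup.closure_induction (p := fun E _ => X.LocTriv T E) ?_ ?_ ?_ ?_ hE
  · rintro E (h | h)
    · exact X.locTriv_genI T h
    · exact X.locTriv_genΨ hT h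
  · exact X.locTriv_zero T
  · intro E E' _ _ h h'
    exact h.add X h'
  · intro E _ h
    exact h.neg X

/-- **KEY, local form**: a Gauss unit whose divisor is `m • E`, `E ∈ W`, has a reduction without
zeros and poles. -/
theorem ordQ_res_eq_zero {E : Divisor K F} (hE : E ∈ X.W) (m : ℕ) {u : F} (hu : X.IsU u)
    (hdiv : ∀ P, P.ord u = (m : ℤ) * E P) (Q₀ : Q) : X.ordQ Q₀ (X.res u) = 0 := by
  obtain ⟨T, hQ₀, hT⟩ := X.exists_good Q₀
  obtain ⟨e, he, hre, hoe⟩ := X.locTriv_of_mem_W hT hE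
  have hem : X.IsU (e ^ m) := X.isU_pow he m
  have hrem : X.res (e ^ m) = 1 := by rw [X.res_pow he m, hre, one_pow]
  have hz : X.IsU (u * (e ^ m)⁻¹) := X.isU_mul hu (X.isU_inv hem)
  have hres : X.res (u * (e ^ m)⁻¹) = X.res u := by
    rw [X.res_mul hu (X.isU_inv hem), X.res_inv hem, hrem, inv_one, mul_one]
  rw [← hres]
  refine X.unit T _ hz (fun P hP => ?_) Q₀ hQ₀
  rw [Place.ord_mul _ (X.isU_ne_zero hu) (inv_ne_zero (X.isU_ne_zero hem)), Place.ord_inv, hdiv]
  rw [ord_pow, hoe P hP]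
  ring

end Interface

end Fermat.Agent.S37.Key.Abstract

end
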