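import Mathlib
import Fermat.Agent.S37.Key.LevelKeyWDiv
import Fermat.Agent.S37.Key.ResExplicit
import Fermat.Agent.S37.Key.Frozen
import Fermat.Agent.S37.Support.ThrS
import Fermat.Agent.S37.Support.GoodSetK
import Fermat.Agent.S37.Local.BRJ
import Fermat.Agent.S18.Trans.ResidueAlgClosed

/-!
# S37 (ASM): the geometric fields of the concrete interface from (LE)/(UN)

`M` a level, `A` a valuation subring of `ℚ̄` over `ℓ ∤ M`, `k` its residue field.  We instantiate
the data `Thr`, `Good` of `Key/InterfaceOf.lean` by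

* `GoodT T` : `T` is the set of places of `F_{M,k}` over a finite Frobenius-stable set `S` of
  `j̄`-values containing `none` (= the cusps);
* `ThrT T P` : the reduced `j`-value of the place `P` of `F_M` is the `j̄`-value of some `Q₀ ∈ T`,

prove the fields `thr_I`, `exists_good`, `thr_Φ`, `thr_T`, and reduce `localEq`/`unit` to the
statements `LE`/`UN` of the local computation in the `J`-chart (leaf (L-C)).  The result is
`levelKey_WDiv_of_LE_UN`: `LE` and `UN` give the `LevelKey` component of `Frozen.LocalInput`, and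
`localInput_of_LE_UN`: `Star` + `LE` + `UN` at a level `M` with `N ∣ M`, `ℓ ∤ M` give
`Frozen.LocalInput N p ℓ A Φ`.
-/

set_option autoImplicit false

noncomputable section

open AlgebraicCurve ModularCurve IsLocalRing
open Fermat.Agent.S24.BridgeInv (Kbar FF)
open Fermat.Agent.S24.PlaceAt (J)
open Fermat.Agent.S18.Trans (jBar)
open Fermat.Agent.S37.HeckeInputs
open Fermat.Agent.S37.Key Fermat.Agent.S37.Key.InterfaceOf Fermat.Agent.S37.Key.LevelKeyOf
open Fermat.Agent.S37.Key.DivisorForm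
open Fermat.Agent.S37.Key.ResExplicit (Jbar)
open Fermat.Agent.S37.Support Fermat.Agent.S37.Support.JModular Fermat.Agent.S37.Support.ThrS
open Fermat.Agent.S37.Local.BRJ (JBarIn JValk)

namespace Fermat.Agent.S37.Key.Geometric

set_option synthInstance.maxHeartbeats 400000

/-! ### `j̄`-values of the places of the special fibre -/

section Special

variable {ℓ : ℕ} [Fact ℓ.Prime] (k : Type*) [Field k] [CharP k ℓ] (M : ℕ) [NeZero M]

omit [Fact ℓ.Prime] [CharP k ℓ] [NeZero M] in
theorem Jbar_eq_jBar : Jbar k M = jBar k M := rfl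

omit [Fact ℓ.Prime] [CharP k ℓ] in
/-- a place of `F_{M,k}` has at most one `j̄`-value. -/
theorem jValk_unique (Q₀ : Place k (modularFunctionFieldFullC k M)) {s s' : Option k}
    (h : JValk Q₀ (Jbar k M) s) (h' : JValk Q₀ (Jbar k M) s') : s = s' := by
  cases s with
  | none =>
    cases s' with
    | none => rfl
    | some c' => exact absurd h (FibreFiniteK.not_pole_of_jval k M Q₀ h')
  | some c =>
    cases s' with
    | none => exact absurd h' (FibreFiniteK.not_pole_of_jval k M Q₀ h)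
    | some c' => rw [FibreFiniteK.jval_unique k M Q₀ h h']

/-- every `j̄`-value (and the cusp value) is taken on the special fibre. -/
theorem exists_jValk (hℓM : ¬ ℓ ∣ M) (s : Option k) :
    ∃ Q₀ : Place k (modularFunctionFieldFullC k M), JValk Q₀ (Jbar k M) s := by
  cases s with
  | none => exact GoodSetK.exists_pole_jBar k M hℓM
  | some c => exact GoodSetK.exists_place_jBar_eq k M hℓM c

/-- every place of the special fibre has a `j̄`-value (`k` algebraically closed). -/
theorem exists_jValk_of_place [IsAlgClosed k] (hℓM : ¬ ℓ ∣ M)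
    (Q₀ : Place k (modularFunctionFieldFullC k M)) : ∃ s : Option k, JValk Q₀ (Jbar k M) s := by
  rcases FibreFiniteK.exists_jval k M hℓM Q₀ with h | ⟨c, hc⟩
  · exact ⟨none, h⟩
  · exact ⟨some c, hc⟩

/-- the places over a finite set of `j̄`-values form a finite set. -/
theorem exists_finset_over (hℓM : ¬ ℓ ∣ M) (S : Finset (Option k)) :
    ∃ T : Finset (Place k (modularFunctionFieldFullC k M)),
      ∀ Q₀, Q₀ ∈ T ↔ ∃ s ∈ S, JValk Q₀ (Jbar k M) s := by
  obtain ⟨T, hT⟩ := FibreFiniteK.exists_finset_fibres k M hℓM S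
  refine ⟨T, fun Q₀ => ?_⟩
  rw [hT]
  constructor
  · rintro (⟨hs, hQ⟩ | ⟨c, hs, hQ⟩)
    · exact ⟨none, hs, hQ⟩
    · exact ⟨some c, hs, hQ⟩
  · rintro ⟨s, hs, hQ⟩
    cases s with
    | none => exact Or.inl ⟨hs, hQ⟩
    | some c => exact Or.inr ⟨c, hs, hQ⟩

end Special

/-! ### the bridge `ThrS ↔ JBarIn` -/

section Bridge

variable (M : ℕ) [NeZero M] (A : ValuationSubring Kbar)

/-- the reduced `j`-value of `P` lies in `S` iff `JBarIn` (the elementary form of (BRJ)). -/
theorem thrS_iff_jBarIn (S : Finset (Option (ResidueField A))) (P : Place Kbar (FF M)) :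
    ThrS M A (↑S) P ↔ JBarIn A P (J M) S := by
  unfold ThrS JBarIn
  constructor
  · intro h
    cases hx : jbar M A P with
    | none =>
      rw [hx] at h
      exact Or.inr ⟨Finset.mem_coe.mp h, jbar_eq_none_iff.mp hx⟩
    | some x =>
      rw [hx] at h
      obtain ⟨c, hc, hP, rfl⟩ := jbar_eq_some_iff.mp hx
      exact Or.inl ⟨⟨c, hc⟩, hP, Finset.mem_coe.mp h⟩
  · rintro (⟨a, ha, haS⟩ | ⟨hnone, h⟩)
    · have : jbar M A P = some (residue A a) := jbar_eq_some_iff.mpr ⟨a, a.2, ha, rfl⟩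
      rw [this]
      exact Finset.mem_coe.mpr haS
    · rw [jbar_eq_none_iff.mpr h]
      exact Finset.mem_coe.mpr hnone

end Bridge

/-! ### the data `GoodT`, `ThrT` -/

section Data

variable (M : ℕ) [NeZero M] (A : ValuationSubring Kbar) (ℓ : ℕ)

/-- `T` is the set of places of the special fibre over a finite Frobenius-stable set of
`j̄`-values containing the cusp value. -/
def GoodT (T : Finset (Place (ResidueField A) (modularFunctionFieldFullC (ResidueField A) M))) :
    Prop :=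
  ∃ S : Finset (Option (ResidueField A)), FrobStable A ℓ (↑S) ∧
    ∀ Q₀, Q₀ ∈ T ↔ ∃ s ∈ S, JValk Q₀ (Jbar (ResidueField A) M) s

/-- the reduced `j`-value of `P` is the `j̄`-value of a place in `T`. -/
def ThrT (T : Finset (Place (ResidueField A) (modularFunctionFieldFullC (ResidueField A) M)))
    (P : Place Kbar (FF M)) : Prop :=
  ∃ Q₀ ∈ T, JValk Q₀ (Jbar (ResidueField A) M) (jbar M A P)

variable {M A ℓ}

/-- for `T` the fibre of `S`, `ThrT T` is `ThrS S`. -/
theorem thrT_iff_thrS [Fact ℓ.Prime] [CharP (ResidueField A) ℓ] (hℓM : ¬ ℓ ∣ M)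
    {T : Finset (Place (ResidueField A) (modularFunctionFieldFullC (ResidueField A) M))}
    {S : Finset (Option (ResidueField A))}
    (hT : ∀ Q₀, Q₀ ∈ T ↔ ∃ s ∈ S, JValk Q₀ (Jbar (ResidueField A) M) s)
    (P : Place Kbar (FF M)) : ThrT M A T P ↔ ThrS M A (↑S) P := by
  unfold ThrT ThrS
  constructor
  · rintro ⟨Q₀, hQ₀, hval⟩
    obtain ⟨s, hs, hs'⟩ := (hT Q₀).mp hQ₀
    rw [jValk_unique (ResidueField A) M Q₀ hval hs']
    exact Finset.mem_coe.mpr hs
  · intro h
    obtain ⟨Q₀, hQ₀⟩ := exists_jValk (ResidueField A) M hℓM (jbar M A P)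
    exact ⟨Q₀, (hT Q₀).mpr ⟨_, Finset.mem_coe.mp h, hQ₀⟩, hQ₀⟩

end Data

/-! ### the statements (LE) and (UN) of the local computation -/

section Statements

variable (M : ℕ) [NeZero M] (A : ValuationSubring Kbar) {ℓ : ℕ} [Fact ℓ.Prime]
  [CharP (ResidueField A) ℓ] (hℓM : ¬ ℓ ∣ M)

/-- **(LE)**: local equations which are Gauss units, for the places with reduced `j`-value in a
finite Frobenius-stable set `S` (with a base point `b`, `b̄ ∉ S`, for the `J`-chart). -/
def LE : Prop :=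
  ∀ S : Finset (Option (ResidueField A)), FrobStable A ℓ (↑S) →
    ∀ b : A, some (residue A b) ∉ S →
      ∀ P : Place Kbar (FF M), JBarIn A P (J M) S →
        ∃ g : FF M, GaussUnitsFull.IsU M A hℓM g ∧ P.ord g = 1 ∧
          ∀ P' : Place Kbar (FF M), P' ≠ P → JBarIn A P' (J M) S → P'.ord g = 0

/-- **(UN)**: a Gauss unit without zeros and poles at the places with reduced `j`-value in `S`
has a reduction without zeros and poles at the places of the special fibre over `S`. -/
def UN : Prop :=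
  ∀ S : Finset (Option (ResidueField A)), FrobStable A ℓ (↑S) →
    ∀ b : A, some (residue A b) ∉ S →
      ∀ z : FF M, GaussUnitsFull.IsU M A hℓM z →
        (∀ P : Place Kbar (FF M), JBarIn A P (J M) S → P.ord z = 0) →
          ∀ Q₀ : Place (ResidueField A) (modularFunctionFieldFullC (ResidueField A) M),
            (∃ s ∈ S, JValk Q₀ (Jbar (ResidueField A) M) s) →
              Q₀.ord (GaussUnitsFull.res M A hℓM z) = 0

end Statements

/-! ### a base point outside a finite set of values -/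

section BasePoint

variable (A : ValuationSubring Kbar)

/-- there is `b ∈ A` whose reduction avoids a given finite set of values. -/
theorem exists_base_point (S : Finset (Option (ResidueField A))) :
    ∃ b : A, some (residue A b) ∉ S := by
  have halg : IsAlgClosed (ResidueField A) :=
    Fermat.Agent.S18.Trans.ResidueAlgClosed.isAlgClosed_residueField A
  have hinf : Infinite (ResidueField A) := IsAlgClosed.instInfinite
  obtain ⟨x, hx⟩ := Infinite.exists_notMem_finset S.eraseNone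
  obtain ⟨b, rfl⟩ := residue_surjective x
  exact ⟨b, fun h => hx (Finset.mem_eraseNone.mpr h)⟩

end BasePoint

/-! ### the `LevelKey` from (LE) and (UN) -/

section Main

variable (M ℓ : ℕ) [NeZero M] [NeZero ℓ]
variable (A : ValuationSubring Kbar) [Fact ℓ.Prime] [CharP (ResidueField A) ℓ]
  [PerfectRing (ResidueField A) ℓ]
variable (hℓM : ¬ ℓ ∣ M) (hA : A.LiesOverPrime ℓ)
variable {Φ : Kbar ≃ₐ[ℚ] Kbar} (hΦ : A.IsFrobeniusAt Φ ℓ)

omit [NeZero ℓ] [PerfectRing (ResidueField A) ℓ] in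
include hℓM hA in
/-- field `exists_good` -/
theorem exists_goodT
    (Q₀ : Place (ResidueField A) (modularFunctionFieldFullC (ResidueField A) M)) :
    ∃ T, Q₀ ∈ T ∧ GoodT M A ℓ T := by
  have halg : IsAlgClosed (ResidueField A) :=
    Fermat.Agent.S18.Trans.ResidueAlgClosed.isAlgClosed_residueField A
  obtain ⟨s₀, hs₀⟩ := exists_jValk_of_place (ResidueField A) M hℓM Q₀
  obtain ⟨S, hsub, hnone, hstab⟩ := GoodSetK.exists_frobStable_residue A hA {s₀}
  obtain ⟨T, hT⟩ := exists_finset_over (ResidueField A) M hℓM S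
  refine ⟨T, (hT Q₀).mpr ⟨s₀, hsub (Finset.mem_singleton_self s₀), hs₀⟩, S, ⟨?_, ?_⟩, hT⟩
  · exact Finset.mem_coe.mpr hnone
  · intro x
    rw [Finset.mem_coe, Finset.mem_coe]
    exact hstab x

include hA hΦ in
/-- **`LevelKey` for `WDiv` at level `M` from (LE) and (UN).** -/
theorem levelKey_WDiv_of_LE_UN (hLE : LE M A hℓM) (hUN : UN M A hℓM) :
    haveI := hasPrincipalDivisors_bar (M * ℓ)
    Final.LevelKey M A hℓM
      (WDiv (heckeAlphaBarIntegral M ℓ) (heckeBetaBarIntegral M ℓ) A Φ) := by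
  have hprime : ℓ.Prime := Fact.out
  refine LevelKeyWDiv.levelKey_WDiv M ℓ A hℓM hA hΦ (ThrT M A) (GoodT M A ℓ)
    ?_ (exists_goodT M ℓ A hℓM hA) ?_ ?_ ?_ ?_
  · -- thr_I
    rintro σ ⟨τ, hτ, rfl⟩ T ⟨S, _, hT⟩ P
    rw [thrT_iff_thrS hℓM hT, thrT_iff_thrS hℓM hT]
    exact thrS_I M A _ hτ P
  · -- thr_Φ
    rintro T ⟨S, hS, hT⟩ P
    rw [thrT_iff_thrS hℓM hT, thrT_iff_thrS hℓM hT]
    exact thrS_Φ M A hS hΦ P
  · -- thr_T
    rintro T ⟨S, hS, hT⟩ P P' hne hP'
    rw [thrT_iff_thrS hℓM hT] at hP' ⊢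
    have := hasPrincipalDivisors_bar (M * ℓ)
    exact thrS_T M A ℓ hS hprime hℓM hA (heckeAlphaBarIntegral M ℓ) (heckeBetaBarIntegral M ℓ)
      P P' hne hP'
  · -- localEq
    rintro T ⟨S, hS, hT⟩ P hP
    obtain ⟨b, hb⟩ := exists_base_point A S
    rw [thrT_iff_thrS hℓM hT, thrS_iff_jBarIn] at hP
    obtain ⟨g, hg, hord, hoth⟩ := hLE S hS b hb P hP
    refine ⟨g, hg, hord, fun P' hne hP' => hoth P' hne ?_⟩
    rwa [thrT_iff_thrS hℓM hT, thrS_iff_jBarIn] at hP'
  · -- unit
    rintro T ⟨S, hS, hT⟩ z hz hord Q₀ hQ₀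
    obtain ⟨b, hb⟩ := exists_base_point A S
    refine hUN S hS b hb z hz (fun P hP => hord P ?_) Q₀ ((hT Q₀).mp hQ₀)
    rwa [thrT_iff_thrS hℓM hT, thrS_iff_jBarIn]

end Main

/-! ### the form consumed by `Frozen.LocalInput` -/

section Frozen

/-- **The `LevelKey` component of `Frozen.LocalInput` from (LE) and (UN)**, with exactly the
instances available in `Frozen.specializationExists_of_localInput`. -/
theorem levelKey_of_LE_UN (M ℓ : ℕ) [NeZero M] [hℓ : Fact ℓ.Prime]
    (A : ValuationSubring Kbar) [CharP (ResidueField A) ℓ] (hℓM : ¬ ℓ ∣ M)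
    (hA : A.LiesOverPrime ℓ) {Φ : Kbar ≃ₐ[ℚ] Kbar} (hΦ : A.IsFrobeniusAt Φ ℓ)
    (hLE : LE M A hℓM) (hUN : UN M A hℓM) :
    haveI : NeZero ℓ := ⟨hℓ.out.ne_zero⟩
    haveI := hasPrincipalDivisors_bar (M * ℓ)
    Final.LevelKey M A hℓM
      (WDiv (heckeAlphaBarIntegral M ℓ) (heckeBetaBarIntegral M ℓ) A Φ) := by
  have : NeZero ℓ := ⟨hℓ.out.ne_zero⟩
  have : ExpChar (ResidueField A) ℓ := ExpChar.prime hℓ.out
  have : PerfectRing (ResidueField A) ℓ :=
    Fermat.Agent.S37.Galois.perfectRing_of_isFrobeniusAt A hΦ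
  exact levelKey_WDiv_of_LE_UN M ℓ A hℓM hA hΦ hLE hUN

/-- **`Frozen.LocalInput` from `Star` (block G) and (LE)/(UN) at an auxiliary level `M`.** -/
theorem localInput_of_LE_UN (N p M ℓ : ℕ) [NeZero N] [hM : NeZero M] [hℓ : Fact ℓ.Prime]
    (A : ValuationSubring Kbar) [CharP (ResidueField A) ℓ] (hNM : N ∣ M) (hℓM : ¬ ℓ ∣ M)
    (hA : A.LiesOverPrime ℓ) {Φ : Kbar ≃ₐ[ℚ] Kbar} (hΦ : A.IsFrobeniusAt Φ ℓ)
    (hStar : ∀ n : ℕ, Fermat.Agent.S18.Trans.Star A N (p ^ n))
    (hLE : LE M A hℓM) (hUN : UN M A hℓM) : Frozen.LocalInput N p ℓ A Φ :=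
  ⟨hStar, M, hM, hNM, hℓM, levelKey_of_LE_UN M ℓ A hℓM hA hΦ hLE hUN⟩

end Frozen

end Fermat.Agent.S37.Key.Geometric
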