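import Mathlib
import Fermat.Agent.S37.Key.LevelKeyWDiv
import Fermat.Agent.S37.Local.SBridge

/-!
# S37 (INST, closing): `Final.LevelKey` for `WDiv` at level `M` from (LE) and (UN) alone

`LevelKeyWDiv.levelKey_WDiv` needs the 8 geometric fields of the KEY interface.  With
`Thr := ThrTK.Thr M A`, `Good := ThrTK.Good M A ℓ` (places of the generic fibre whose reduced
`j`-value is the `j̄`-value of a point of `T`; `T` = full preimage of a finite Frobenius-stable set
of values containing `none`), the support-control fields `thr_I`, `thr_Φ`, `thr_T`, `exists_good`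
are `Support/ThrTK`, and `localEq`, `unit` follow via `ThrT.localEq_of`/`unit_of` and
`Local/SBridge` from the `JBarIn`-forms (LE'), (UN') of the local equations and the unit criterion.
-/

set_option autoImplicit false

noncomputable section

open AlgebraicCurve ModularCurve IsLocalRing
open Fermat.Agent.S24
open Fermat.Agent.S24.BridgeInv (Kbar FF)
open Fermat.Agent.S24.PlaceAt (J)
open Fermat.Agent.S18.Trans
open Fermat.Agent.S37.HeckeInputs
open Fermat.Agent.S37.Key Fermat.Agent.S37.Key.InterfaceOf Fermat.Agent.S37.Key.LevelKeyOf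
open Fermat.Agent.S37.Key.DivisorForm
open Fermat.Agent.S37.Support Fermat.Agent.S37.Support.ThrS Fermat.Agent.S37.Support.ThrT
open Fermat.Agent.S37.Local

namespace Fermat.Agent.S37.Key.LevelKeyLEUN

set_option synthInstance.maxHeartbeats 400000

variable (M ℓ : ℕ) [NeZero M] [NeZero ℓ]
variable (A : ValuationSubring Kbar) [Fact ℓ.Prime] [CharP (ResidueField A) ℓ]
  [PerfectRing (ResidueField A) ℓ]
variable (hℓM : ¬ ℓ ∣ M) (hA : A.LiesOverPrime ℓ)
variable {Φ : Kbar ≃ₐ[ℚ] Kbar} (hΦ : A.IsFrobeniusAt Φ ℓ)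

/-- the `JBarIn`-form of the local equations (LE). -/
def LE : Prop :=
  ∀ (S : Finset (Option (ResidueField A))) (b : A) (lift : ResidueField A → A),
    (∀ s, residue A (lift s) = s) → some (residue A b) ∉ S →
    ∀ P : Place Kbar (FF M), BRJ.JBarIn A P (J M) S →
      ∃ g : FF M, GaussUnitsFull.IsU M A hℓM g ∧ P.ord g = 1 ∧
        ∀ P' : Place Kbar (FF M), P' ≠ P → BRJ.JBarIn A P' (J M) S → P'.ord g = 0

/-- the `JBarIn`-form of the unit criterion (UN). -/
def UN : Prop :=
  ∀ (S : Finset (Option (ResidueField A))) (b : A) (lift : ResidueField A → A),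
    (∀ s, residue A (lift s) = s) → some (residue A b) ∉ S →
    ∀ z : FF M, GaussUnitsFull.IsU M A hℓM z →
      (∀ P : Place Kbar (FF M), BRJ.JBarIn A P (J M) S → P.ord z = 0) →
      ∀ Q₀ : Place (ResidueField A) (modularFunctionFieldFullC (ResidueField A) M),
        (∃ s ∈ S, BRJ.JValk Q₀ (jBar (ResidueField A) M) s) →
          Q₀.ord (GaussUnitsFull.res M A hℓM z) = 0

include hA hΦ in
/-- **`LevelKey` for `WDiv` at level `M` from (LE) and (UN).** -/
theorem levelKey_of_LE_UN (hLE : LE M ℓ A hℓM) (hUN : UN M ℓ A hℓM) :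
    haveI := hasPrincipalDivisors_bar (M * ℓ)
    Final.LevelKey M A hℓM
      (WDiv (heckeAlphaBarIntegral M ℓ) (heckeBetaBarIntegral M ℓ) A Φ) := by
  have hℓ : ℓ.Prime := Fact.out
  haveI := Fermat.Agent.S37.Kron.GaussNorm.isAlgClosed_residueField A
  haveI : Infinite (ResidueField A) := IsAlgClosed.instInfinite
  have hsurj := ThrTK.vK_surjective (k := ResidueField A) (M := M) hℓM
  refine LevelKeyWDiv.levelKey_WDiv M ℓ A hℓM hA hΦ (ThrTK.Thr M A) (ThrTK.Good M A ℓ)
    ?_ ?_ ?_ ?_ ?_ ?_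
  · -- thr_I
    rintro _ ⟨σ, hσ, rfl⟩ T hT P
    exact ThrTK.thr_I hℓ hℓM hA hT hσ P
  · -- exists_good
    exact fun Q₀ => ThrTK.exists_good hℓ hℓM hA Q₀
  · -- thr_Φ
    exact fun {T} hT P => ThrTK.thr_Φ hℓ hℓM hA hT hΦ P
  · -- thr_T
    intro T hT P P' h hP'
    haveI := hasPrincipalDivisors_bar (M * ℓ)
    exact ThrTK.thr_T hℓ hℓM hA hT (heckeAlphaBarIntegral M ℓ) (heckeBetaBarIntegral M ℓ) P P' h
      hP'
  · -- localEq
    intro T hT P hP
    exact ThrT.localEq_of hsurj (ℓ := ℓ) (GaussUnitsFull.IsU M A hℓM)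
      (fun S _ P hP => SBridge.hLE_of M A _ hLE S P hP) hT P hP
  · -- unit
    intro T hT z hz h0
    exact ThrT.unit_of hsurj (ℓ := ℓ) (GaussUnitsFull.IsU M A hℓM) (GaussUnitsFull.res M A hℓM)
      (ordQ M A)
      (fun S _ z hz h0 Q₀ hQ₀ => SBridge.hUN_of M A hℓM _ _ hUN S z hz h0 Q₀ hQ₀) hT z hz h0

end Fermat.Agent.S37.Key.LevelKeyLEUN
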